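import Mathlib

/-!
# S53, work package W9: gluing compatible families in an adically complete ring with finite
truncations (a compactness argument).

`compact_lift`: let `S` be `𝔫`-adically complete with all `S ⧸ 𝔫 ^ n` finite, `(I a)` a
downward directed monotone family of open ideals and `(x a)` a compatible family of
representatives (`x a - x b ∈ I b` for `a ≤ b`).  Then there is a single `y` with
`y - x a ∈ I a` for all `a`.
-/

set_option autoImplicit false

namespace Fermat.Agent.S53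

theorem compact_lift {S : Type} [CommRing S] (𝔫 : Ideal S) [IsAdicComplete 𝔫 S]
    (hfin : ∀ n, Finite (S ⧸ 𝔫 ^ n)) {ι : Type} [Preorder ι]
    (hdir : ∀ a b : ι, ∃ c, c ≤ a ∧ c ≤ b) (I : ι → Ideal S) (hmono : Monotone I)
    (hopen : ∀ a, ∃ n, 𝔫 ^ n ≤ I a) (x : ι → S) (hx : ∀ a b, a ≤ b → x a - x b ∈ I b) :
    ∃ y : S, ∀ a, y - x a ∈ I a := by
  classical
  rcases isEmpty_or_nonempty ι with hι | hι
  · exact ⟨0, fun a => isEmptyElim a⟩
  -- `T n a` : the image of the coset `x a + I a` in `S ⧸ 𝔫 ^ n`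
  let T : (n : ℕ) → ι → Set (S ⧸ 𝔫 ^ n) := fun n a =>
    {q | ∃ i ∈ I a, q = Ideal.Quotient.mk (𝔫 ^ n) (x a + i)}
  have hTmono : ∀ n a b, a ≤ b → T n a ⊆ T n b := by
    rintro n a b hab q ⟨i, hi, rfl⟩
    refine ⟨x a - x b + i, (I b).add_mem (hx a b hab) (hmono hab hi), ?_⟩
    congr 1
    ring
  -- at each level there is an index with smallest image
  have hmin : ∀ n, ∃ a, ∀ b, T n a ⊆ T n b := by
    intro n
    have := hfin n
    have hne : (Set.range fun a : ι => (T n a).ncard).Nonempty := Set.range_nonempty _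
    obtain ⟨a, ha⟩ := Nat.sInf_mem hne
    refine ⟨a, fun b => ?_⟩
    obtain ⟨c, hca, hcb⟩ := hdir a b
    have hle : (T n a).ncard ≤ (T n c).ncard := by
      have ha' : (T n a).ncard = sInf (Set.range fun a : ι => (T n a).ncard) := ha
      rw [ha']
      exact Nat.sInf_le ⟨c, rfl⟩
    have heq : T n c = T n a :=
      Set.eq_of_subset_of_ncard_le (hTmono n c a hca) hle (Set.toFinite _)
    rw [← heq]
    exact hTmono n c b hcb
  choose a ha using hmin
  -- the inductive step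
  have hstep : ∀ n (y : S), y - x (a n) ∈ I (a n) →
      ∃ y' : S, y' - x (a (n + 1)) ∈ I (a (n + 1)) ∧ y' - y ∈ 𝔫 ^ n := by
    intro n y hy
    have h1 : Ideal.Quotient.mk (𝔫 ^ n) y ∈ T n (a n) :=
      ⟨y - x (a n), hy, by congr 1; ring⟩
    obtain ⟨i, hi, hq⟩ := ha n (a (n + 1)) h1
    refine ⟨x (a (n + 1)) + i, by simpa using hi, ?_⟩
    have h2 := (Ideal.Quotient.eq.mp hq)
    have h3 : x (a (n + 1)) + i - y = -(y - (x (a (n + 1)) + i)) := by ring
    rw [h3]
    exact (𝔫 ^ n).neg_mem h2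
  choose step hstep1 hstep2 using hstep
  -- the sequence
  let Y : (n : ℕ) → {y : S // y - x (a n) ∈ I (a n)} := fun n =>
    Nat.rec (motive := fun n => {y : S // y - x (a n) ∈ I (a n)})
      ⟨x (a 0), by simp⟩ (fun n y => ⟨step n y.1 y.2, hstep1 n y.1 y.2⟩) n
  have hY : ∀ n, (Y (n + 1)).1 - (Y n).1 ∈ 𝔫 ^ n := fun n => hstep2 n (Y n).1 (Y n).2
  have hcauchy : ∀ m k, (Y (m + k)).1 - (Y m).1 ∈ 𝔫 ^ m := by
    intro m k
    induction k with
    | zero => simp
    | succ k ih =>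
      have h1 : (Y (m + (k + 1))).1 - (Y m).1 =
          ((Y (m + k + 1)).1 - (Y (m + k)).1) + ((Y (m + k)).1 - (Y m).1) := by
        rw [← add_assoc]; ring
      rw [h1]
      exact (𝔫 ^ m).add_mem (Ideal.pow_le_pow_right (Nat.le_add_right m k) (hY (m + k))) ih
  obtain ⟨y, hy⟩ := IsPrecomplete.prec (I := 𝔫) (M := S) inferInstance (f := fun n => (Y n).1)
    (by
      intro m n hmn
      obtain ⟨k, rfl⟩ := Nat.exists_eq_add_of_le hmn
      rw [SModEq.sub_mem, smul_eq_mul, Ideal.mul_top]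
      have := hcauchy m k
      have h3 : (Y m).1 - (Y (m + k)).1 = -((Y (m + k)).1 - (Y m).1) := by ring
      rw [h3]
      exact (𝔫 ^ m).neg_mem this)
  refine ⟨y, fun b => ?_⟩
  obtain ⟨m, hm⟩ := hopen b
  have hym : (Y m).1 - y ∈ 𝔫 ^ m := by
    have := hy m
    rwa [SModEq.sub_mem, smul_eq_mul, Ideal.mul_top] at this
  have h1 : Ideal.Quotient.mk (𝔫 ^ m) y ∈ T m (a m) := by
    refine ⟨(Y m).1 - x (a m), (Y m).2, ?_⟩
    rw [Ideal.Quotient.eq]
    have h3 : y - (x (a m) + ((Y m).1 - x (a m))) = -((Y m).1 - y) := by ring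
    rw [h3]
    exact (𝔫 ^ m).neg_mem hym
  obtain ⟨i, hi, hq⟩ := ha m b h1
  have h2 := hm (Ideal.Quotient.eq.mp hq)
  have h3 : y - x b = (y - (x b + i)) + i := by ring
  rw [h3]
  exact (I b).add_mem h2 hi

end Fermat.Agent.S53
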