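import Fermat.Agent.S53.TestAlg

/-!
# S53, work package W6: fibre products over the residue field

The fibre product over the residue field of two test algebras carrying rigid lifts of type `𝒟`
is a test algebra carrying a rigid lift of type `𝒟`.
Helper lemmas live in `Fermat.Agent.S53.TA`.
-/

set_option autoImplicit false

noncomputable section

namespace Fermat.Agent.S53

open IsLocalRing

namespace TA

section Aug

variable {𝒪 : Type} [CommRing 𝒪] [IsLocalRing 𝒪]

/-- The residue field of `𝒪` is a test algebra. -/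
theorem residueField_testAlgebra : GaloisRep.IsArtinianTestAlgebra 𝒪 (ResidueField 𝒪) where
  isLocalHom := by
    rw [ResidueField.algebraMap_eq]
    infer_instance
  residue_surjective := by
    rw [ResidueField.algebraMap_eq]
    exact residue_surjective.comp residue_surjective
  isArtinian := inferInstance

variable {A : Type} [CommRing A] [IsLocalRing A] [Algebra 𝒪 A]

/-- The residue field of a test algebra is the residue field of `𝒪`. -/
def resEquiv (hA : GaloisRep.IsArtinianTestAlgebra 𝒪 A) : ResidueField 𝒪 ≃+* ResidueField A :=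
  haveI := hA.isLocalHom
  RingEquiv.ofBijective (ResidueField.map (algebraMap 𝒪 A))
    ⟨(ResidueField.map (algebraMap 𝒪 A)).injective, by
      intro y
      obtain ⟨c, hc⟩ := hA.residue_surjective y
      exact ⟨residue 𝒪 c, by rw [ResidueField.map_residue]; exact hc⟩⟩

theorem resEquiv_residue (hA : GaloisRep.IsArtinianTestAlgebra 𝒪 A) (c : 𝒪) :
    resEquiv hA (residue 𝒪 c) = residue A (algebraMap 𝒪 A c) := by
  have := hA.isLocalHom
  exact ResidueField.map_residue (algebraMap 𝒪 A) c

/-- The augmentation of a test algebra: the `𝒪`-algebra homomorphism to the residue field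
of `𝒪`. -/
def aug (hA : GaloisRep.IsArtinianTestAlgebra 𝒪 A) : A →ₐ[𝒪] ResidueField 𝒪 :=
  { ((resEquiv hA).symm : ResidueField A →+* ResidueField 𝒪).comp (residue A) with
    commutes' := by
      intro c
      show (resEquiv hA).symm (residue A (algebraMap 𝒪 A c)) = algebraMap 𝒪 (ResidueField 𝒪) c
      rw [← resEquiv_residue hA, RingEquiv.symm_apply_apply, ResidueField.algebraMap_eq] }

theorem aug_apply (hA : GaloisRep.IsArtinianTestAlgebra 𝒪 A) (a : A) :
    aug hA a = (resEquiv hA).symm (residue A a) := rfl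

theorem aug_eq_zero_iff (hA : GaloisRep.IsArtinianTestAlgebra 𝒪 A) (a : A) :
    aug hA a = 0 ↔ a ∈ maximalIdeal A := by
  rw [aug_apply, map_eq_zero_iff _ (resEquiv hA).symm.injective, residue_eq_zero_iff]

theorem aug_eq_residue (hA : GaloisRep.IsArtinianTestAlgebra 𝒪 A) (a : A) (c : 𝒪)
    (h : a - algebraMap 𝒪 A c ∈ maximalIdeal A) : aug hA a = residue 𝒪 c := by
  have h1 := (aug_eq_zero_iff hA _).mpr h
  rw [map_sub, AlgHom.commutes, sub_eq_zero, ResidueField.algebraMap_eq] at h1
  exact h1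

theorem isLocalHom_aug (hA : GaloisRep.IsArtinianTestAlgebra 𝒪 A) :
    IsLocalHom (aug hA : A →+* ResidueField 𝒪) := by
  constructor
  intro a ha
  by_contra hna
  have h1 : aug hA a = 0 := (aug_eq_zero_iff hA a).mpr ((mem_maximalIdeal a).mpr hna)
  have h2 : IsUnit (aug hA a) := ha
  rw [h1] at h2
  exact not_isUnit_zero h2

end Aug

end TA

section W6

variable {𝒪 : Type} [CommRing 𝒪] [IsLocalRing 𝒪] {ρbar : ResidualGaloisRep (ResidueField 𝒪)}
  (Rd : RigidData 𝒪 ρbar)
  {𝒟 : ∀ ⦃A : Type⦄ [CommRing A] [IsLocalRing A] [Algebra 𝒪 A], GaloisRepAdic A → Prop}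

theorem exists_fibProd [Finite (ResidueField 𝒪)] (h𝒟 : GaloisRep.IsDeformationCondition 𝒪 𝒟)
    {A A' : Type} [CommRing A] [IsLocalRing A] [Algebra 𝒪 A] [CommRing A'] [IsLocalRing A']
    [Algebra 𝒪 A'] (hA : GaloisRep.IsArtinianTestAlgebra 𝒪 A)
    (hA' : GaloisRep.IsArtinianTestAlgebra 𝒪 A') (r : Gal →* M2 A) (r' : Gal →* M2 A')
    (hr : IsRigidD Rd 𝒟 r) (hr' : IsRigidD Rd 𝒟 r') :
    ∃ (P : Type) (_ : CommRing P) (_ : IsLocalRing P) (_ : Algebra 𝒪 P)
      (_ : GaloisRep.IsArtinianTestAlgebra 𝒪 P) (pA : P →ₐ[𝒪] A) (pB : P →ₐ[𝒪] A')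
      (rP : Gal →* M2 P),
      Function.Injective (fun x => (pA x, pB x)) ∧ IsRigidD Rd 𝒟 rP ∧
        mapMat (pA : P →+* A) rP = r ∧ mapMat (pB : P →+* A') rP = r' := by
  obtain ⟨h, hD⟩ := hr
  obtain ⟨h', hD'⟩ := hr'
  have hfinA : Finite A := finite_of_testAlgebra hA
  have hfinA' : Finite A' := finite_of_testAlgebra hA'
  have hartA : IsArtinianRing A := hA.isArtinian
  have hartA' : IsArtinianRing A' := hA'.isArtinian
  -- the fibre product, with opaque projections
  obtain ⟨P, hP⟩ : ∃ P : Subalgebra 𝒪 (A × A'), ∀ x : A × A', x ∈ P ↔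
      TA.aug hA x.1 = TA.aug hA' x.2 :=
    ⟨AlgHom.pullback (TA.aug hA) (TA.aug hA'), fun x => Iff.rfl⟩
  obtain ⟨pA, hpA1⟩ : ∃ pA : P →ₐ[𝒪] A, ∀ x : P, pA x = (x : A × A').1 :=
    ⟨(AlgHom.fst 𝒪 A A').comp P.val, fun x => rfl⟩
  obtain ⟨pB, hpB1⟩ : ∃ pB : P →ₐ[𝒪] A', ∀ x : P, pB x = (x : A × A').2 :=
    ⟨(AlgHom.snd 𝒪 A A').comp P.val, fun x => rfl⟩
  have hinj : ∀ x y : P, (pA : P →+* A) x = (pA : P →+* A) y →
      (pB : P →+* A') x = (pB : P →+* A') y → x = y := by
    intro x y h1 h2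
    have h1' : pA x = pA y := h1
    have h2' : pB x = pB y := h2
    rw [hpA1, hpA1] at h1'
    rw [hpB1, hpB1] at h2'
    exact Subtype.ext (Prod.ext h1' h2')
  have hfinP : Finite P := Finite.of_injective (Subtype.val) Subtype.val_injective
  have hval : IsLocalHom (P.val : P →+* A × A') :=
    TA.isLocalHom_of_injective_of_finite _ Subtype.val_injective
  have hunit : ∀ x : P, IsUnit (x : A × A').1 → IsUnit (x : A × A').2 → IsUnit x := by
    intro x h1 h2
    apply hval.map_nonunit
    exact Prod.isUnit_iff.mpr ⟨h1, h2⟩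
  have hpA : IsLocalHom (pA : P →+* A) := by
    constructor
    intro x ha
    have ha' : IsUnit (pA x) := ha
    rw [hpA1] at ha'
    refine hunit x ha' ?_
    have h1 : IsUnit (TA.aug hA' (x : A × A').2) := by
      rw [← (hP _).mp x.2]
      exact IsUnit.map (TA.aug hA) ha'
    exact (TA.isLocalHom_aug hA').map_nonunit _ h1
  have hpB : IsLocalHom (pB : P →+* A') := by
    constructor
    intro x ha
    have ha' : IsUnit (pB x) := ha
    rw [hpB1] at ha'
    refine hunit x ?_ ha'
    have h1 : IsUnit (TA.aug hA (x : A × A').1) := by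
      rw [(hP _).mp x.2]
      exact IsUnit.map (TA.aug hA') ha'
    exact (TA.isLocalHom_aug hA).map_nonunit _ h1
  have hloc : IsLocalRing P := RingHom.domain_isLocalRing (pA : P →+* A)
  have htest : GaloisRep.IsArtinianTestAlgebra 𝒪 P := TA.testAlgebra_of_isLocalHom hA pA
  have hentry : ∀ g i j, (r g i j, r' g i j) ∈ P := by
    intro g i j
    obtain ⟨c, hc⟩ := residue_surjective (Rd.rbar g i j)
    rw [hP]
    rw [TA.aug_eq_residue hA _ c (h.res g i j c hc), TA.aug_eq_residue hA' _ c (h'.res g i j c hc)]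
  obtain ⟨rP, hfst, hsnd⟩ : ∃ rP : Gal →* M2 P, (∀ g i j, (pA : P →+* A) (rP g i j) = r g i j) ∧
      (∀ g i j, (pB : P →+* A') (rP g i j) = r' g i j) := by
    have he : ∀ g i j, (pA : P →+* A) ((Matrix.of fun i j =>
        (⟨(r g i j, r' g i j), hentry g i j⟩ : P)) i j) = r g i j := fun g i j => hpA1 _
    have he' : ∀ g i j, (pB : P →+* A') ((Matrix.of fun i j =>
        (⟨(r g i j, r' g i j), hentry g i j⟩ : P)) i j) = r' g i j := fun g i j => hpB1 _
    exact ⟨TA.liftMat (pA : P →+* A) (pB : P →+* A') hinj r r' _ he he', he, he'⟩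
  have hmapA : mapMat (pA : P →+* A) rP = r := by
    ext g i j
    rw [mapMat_apply, hfst]
  have hmapB : mapMat (pB : P →+* A') rP = r' := by
    ext g i j
    rw [mapMat_apply, hsnd]
  obtain ⟨L, hL, hfix⟩ := TA.exists_level h.cont
  obtain ⟨L', hL', hfix'⟩ := TA.exists_level h'.cont
  have hcontP : MatCont rP := by
    refine TA.matCont_of_level ⟨L ⊔ L', IntermediateField.finiteDimensional_sup L L',
      fun σ hσ => ?_⟩
    have h1 : r σ = 1 := hfix σ fun x hx => hσ x ((le_sup_left : L ≤ L ⊔ L') hx)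
    have h2 : r' σ = 1 := hfix' σ fun x hx => hσ x ((le_sup_right : L' ≤ L ⊔ L') hx)
    refine Matrix.ext fun i j => ?_
    apply hinj
    · rw [hfst, h1, Matrix.one_apply, Matrix.one_apply]
      split_ifs <;> simp
    · rw [hsnd, h2, Matrix.one_apply, Matrix.one_apply]
      split_ifs <;> simp
  have hrigP : IsRigid Rd rP :=
    { cont := hcontP
      res := by
        intro g i j c hc
        have h1 := h.res g i j c hc
        rw [mem_maximalIdeal, mem_nonunits_iff] at h1 ⊢
        intro hu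
        apply h1
        have h2 := hu.map (pA : P →+* A)
        rw [map_sub, hfst] at h2
        have h3 : (pA : P →+* A) (algebraMap 𝒪 P c) = algebraMap 𝒪 A c := pA.commutes c
        rwa [h3] at h2
      c00 := by
        apply hinj
        · rw [hfst, h.c00, map_zero]
        · rw [hsnd, h'.c00, map_zero]
      c10 := by
        apply hinj
        · rw [hfst, h.c10, map_one]
        · rw [hsnd, h'.c10, map_one]
      c1 := by
        apply hinj
        · rw [hfst, h.c1]
          exact (pA.commutes _).symm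
        · rw [hsnd, h'.c1]
          exact (pB.commutes _).symm }
  have hinj' : Function.Injective (fun x : P => (pA x, pB x)) := by
    intro x y hxy
    exact hinj x y (congrArg Prod.fst hxy) (congrArg Prod.snd hxy)
  refine ⟨P, inferInstance, hloc, inferInstance, htest, pA, pB, rP, hinj', ⟨hrigP, ?_⟩,
    hmapA, hmapB⟩
  have hcA : MatCont (mapMat (pA : P →+* A) rP) := hcontP.map _ hpA
  have hcB : MatCont (mapMat (pB : P →+* A') rP) := hcontP.map _ hpB
  have hsq : (TA.aug hA).comp pA = (TA.aug hA').comp pB := by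
    ext x
    rw [AlgHom.comp_apply, AlgHom.comp_apply, hpA1, hpB1]
    exact (hP _).mp x.2
  refine h𝒟.of_fibreProduct hA hA' TA.residueField_testAlgebra htest (TA.aug hA) (TA.aug hA')
    pA pB hpA hpB hsq hinj' ?_ ?_ ?_
  · intro a b hab
    exact ⟨⟨(a, b), (hP _).mpr hab⟩, hpA1 _, hpB1 _⟩
  · obtain ⟨e⟩ := ofMat_baseChangeAlong_isEquiv _ hpA rP hcontP hcA
    exact h𝒟.of_isEquiv hA ⟨e.symm⟩ (TA.D_congr hmapA.symm h.cont hcA hD)
  · obtain ⟨e⟩ := ofMat_baseChangeAlong_isEquiv _ hpB rP hcontP hcB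
    exact h𝒟.of_isEquiv hA' ⟨e.symm⟩ (TA.D_congr hmapB.symm h'.cont hcB hD')

end W6

end Fermat.Agent.S53

end
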