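import Fermat.Agent.S53.MatDict

/-!
# S53, work package W2: the residual side of the matrix dictionary

Blueprint statements: `matCont_rbar`, `ofResidual_isEquiv_ofMat`, `exists_lift_isEquiv`,
`residual_isEquiv_of_liftsRes`.  The general versions (for an arbitrary ring homomorphism
`ψ : k →+* ResidueField A`) live in the namespace `Fermat.Agent.S53.ResDict`.
-/

set_option autoImplicit false

open scoped TensorProduct

noncomputable section

namespace Fermat.Agent.S53

open IsLocalRing MatDict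

namespace ResDict

theorem mapMat_eq_mapMatrix {A B : Type} [CommRing A] [CommRing B] (φ : A →+* B)
    (r : Gal →* M2 A) (σ : Gal) : mapMat φ r σ = φ.mapMatrix (r σ) := rfl

theorem ofMatRes_ρ_apply {K : Type} [Field K] (r : Gal →* M2 K) (hr : MatFin r) (σ : Gal)
    (v : Fin 2 → K) : (ofMatRes r hr).ρ σ v = (r σ).mulVec v := rfl

theorem matFin_map {K K' : Type} [Field K] [Field K'] {r : Gal →* M2 K} (hr : MatFin r)
    (ψ : K →+* K') : MatFin (mapMat ψ r) := by
  obtain ⟨L, hL, h⟩ := hr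
  refine ⟨L, hL, fun σ hσ => ?_⟩
  rw [mapMat_eq_mapMatrix, h σ hσ, map_one]

theorem matFin_residue {A : Type} [CommRing A] [IsLocalRing A] {r : Gal →* M2 A}
    (hr : MatCont r) : MatFin (mapMat (residue A) r) := by
  obtain ⟨L, hL, h⟩ := hr 1
  refine ⟨L, hL, fun σ hσ => ?_⟩
  ext i j
  have h1 := h σ hσ i j
  rw [pow_one, ← residue_eq_zero_iff, Matrix.sub_apply, map_sub, sub_eq_zero] at h1
  rw [mapMat_apply, h1, Matrix.one_apply, Matrix.one_apply]
  split_ifs <;> simp

theorem ofMatRes_isEquiv_of_eq {K : Type} [Field K] {r r' : Gal →* M2 K} (h : r = r')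
    (hr : MatFin r) (hr' : MatFin r') : (ofMatRes r hr).IsEquiv (ofMatRes r' hr') := by
  subst h
  exact ⟨ResidualGaloisRep.Equiv.refl _⟩

/-- Equivalence of residual matrix representations is conjugation. -/
theorem ofMatRes_isEquiv_iff {K : Type} [Field K] (r r' : Gal →* M2 K) (hr : MatFin r)
    (hr' : MatFin r') :
    (ofMatRes r hr).IsEquiv (ofMatRes r' hr') ↔
      ∃ γ : M2 K, IsUnit γ ∧ ∀ g, γ * r g = r' g * γ := by
  constructor
  · rintro ⟨e⟩
    obtain ⟨e', he⟩ : ∃ e' : (Fin 2 → K) ≃ₗ[K] (Fin 2 → K), ∀ (σ : Gal) (x : Fin 2 → K),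
        e' ((r σ).mulVec x) = (r' σ).mulVec (e' x) :=
      ⟨e.toLinearEquiv, fun σ x => e.map_apply σ x⟩
    let u : (M2 K)ˣ := linearEquivUnit e'
    refine ⟨u, u.isUnit, fun σ => ?_⟩
    apply Matrix.toLin'.injective
    refine LinearMap.ext fun x => ?_
    rw [Matrix.toLin'_apply, Matrix.toLin'_apply, ← Matrix.mulVec_mulVec,
      ← Matrix.mulVec_mulVec, linearEquivUnit_mulVec, linearEquivUnit_mulVec, he]
  · rintro ⟨γ, hγ, h⟩
    obtain ⟨u, rfl⟩ := hγ
    have key : ∀ (σ : Gal) (x : Fin 2 → K),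
        unitLinearEquiv u ((r σ).mulVec x) = (r' σ).mulVec (unitLinearEquiv u x) := by
      intro σ x
      rw [unitLinearEquiv_apply, unitLinearEquiv_apply, Matrix.mulVec_mulVec,
        Matrix.mulVec_mulVec, h]
    exact ⟨⟨unitLinearEquiv u, fun σ x => key σ x⟩⟩

/-- Base change of a residual matrix representation is the push-forward. -/
theorem ofMatRes_baseChangeAlong_isEquiv {K K' : Type} [Field K] [Field K'] (ψ : K →+* K')
    (r : Gal →* M2 K) (hr : MatFin r) (hr' : MatFin (mapMat ψ r)) :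
    ((ofMatRes r hr).baseChangeAlong ψ).IsEquiv (ofMatRes (mapMat ψ r) hr') := by
  let _ : Algebra K K' := ψ.toAlgebra
  exact ⟨⟨TensorProduct.piScalarRight K K' K' (Fin 2), fun σ x =>
    piScalarRight_baseChange (r σ) ((ofMatRes r hr).ρ σ) (fun _ => rfl) x⟩⟩

/-- The residual representation of a matrix representation is the reduction. -/
theorem residual_ofMat_isEquiv {A : Type} [CommRing A] [IsLocalRing A] (r : Gal →* M2 A)
    (hr : MatCont r) (hr' : MatFin (mapMat (residue A) r)) :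
    (ofMat r hr).residual.IsEquiv (ofMatRes (mapMat (residue A) r) hr') :=
  ⟨⟨TensorProduct.piScalarRight A (ResidueField A) (ResidueField A) (Fin 2), fun σ x =>
    piScalarRight_baseChange (r σ) ((ofMat r hr).ρ σ) (fun _ => rfl) x⟩⟩

/-- Invertible matrices over the residue field lift to invertible matrices. -/
theorem exists_unit_lift {A : Type} [CommRing A] [IsLocalRing A] (γbar : M2 (ResidueField A))
    (h : IsUnit γbar) : ∃ γ : M2 A, IsUnit γ ∧ (residue A).mapMatrix γ = γbar := by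
  have hs : ∀ i j, ∃ a : A, residue A a = γbar i j := fun i j => residue_surjective _
  choose f hf using hs
  have hmap : (residue A).mapMatrix (Matrix.of f) = γbar := by
    ext i j
    simp [hf]
  refine ⟨Matrix.of f, ?_, hmap⟩
  rw [Matrix.isUnit_iff_isUnit_det]
  have hdet : residue A (Matrix.of f).det = γbar.det := by
    rw [RingHom.map_det, hmap]
  have h1 : IsUnit γbar.det := (Matrix.isUnit_iff_isUnit_det _).mp h
  rw [← hdet] at h1
  exact (isUnit_map_iff (residue A) _).mp h1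

/-- Conjugation of a matrix-valued homomorphism by an invertible matrix. -/
def conjUnit {A : Type} [CommRing A] (u : (M2 A)ˣ) (r : Gal →* M2 A) : Gal →* M2 A where
  toFun σ := (u : M2 A) * r σ * ((u⁻¹ : (M2 A)ˣ) : M2 A)
  map_one' := by rw [map_one, mul_one, Units.mul_inv]
  map_mul' σ τ := by
    rw [map_mul]
    calc (u : M2 A) * (r σ * r τ) * ((u⁻¹ : (M2 A)ˣ) : M2 A)
        = (u : M2 A) * r σ * (((u⁻¹ : (M2 A)ˣ) : M2 A) * (u : M2 A)) * r τ *
            ((u⁻¹ : (M2 A)ˣ) : M2 A) := by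
          rw [Units.inv_mul, mul_one]; simp only [mul_assoc]
      _ = _ := by simp only [mul_assoc]

theorem conjUnit_apply {A : Type} [CommRing A] (u : (M2 A)ˣ) (r : Gal →* M2 A) (σ : Gal) :
    conjUnit u r σ = (u : M2 A) * r σ * ((u⁻¹ : (M2 A)ˣ) : M2 A) := rfl

theorem conjUnit_mul {A : Type} [CommRing A] (u : (M2 A)ˣ) (r : Gal →* M2 A) (σ : Gal) :
    (u : M2 A) * r σ = conjUnit u r σ * (u : M2 A) := by
  rw [conjUnit_apply, mul_assoc, Units.inv_mul, mul_one]

/-- General strictification: a representation whose residual representation is the base change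
of `ρbar ≅ ofMatRes rbar` along `ψ` is equivalent to a matrix representation reducing exactly to
the push-forward of `rbar`. -/
theorem exists_lift_gen {k : Type} [Field k] {A : Type} [CommRing A] [IsLocalRing A]
    (ψ : k →+* ResidueField A) (ρbar : ResidualGaloisRep k) (rbar : Gal →* M2 k)
    (hfin : MatFin rbar) (heq : ρbar.IsEquiv (ofMatRes rbar hfin)) (ρ : GaloisRepAdic A)
    (h : ρ.residual.IsEquiv (ρbar.baseChangeAlong ψ)) :
    ∃ (r : Gal →* M2 A) (hr : MatCont r),
      mapMat (residue A) r = mapMat ψ rbar ∧ ρ.IsEquiv (ofMat r hr) := by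
  obtain ⟨r₀, hr₀, ⟨e₀⟩⟩ := exists_ofMat_isEquiv ρ
  obtain ⟨e1⟩ := residual_ofMat_isEquiv r₀ hr₀ (matFin_residue hr₀)
  obtain ⟨e2⟩ := h
  obtain ⟨e3⟩ := heq
  obtain ⟨e4⟩ := ofMatRes_baseChangeAlong_isEquiv ψ rbar hfin (matFin_map hfin ψ)
  have e5 : (ofMatRes (mapMat (residue A) r₀) (matFin_residue hr₀)).IsEquiv
      (ofMatRes (mapMat ψ rbar) (matFin_map hfin ψ)) :=
    ⟨e1.symm.trans (e₀.residual.symm.trans (e2.trans ((e3.baseChangeAlong ψ).trans e4)))⟩
  obtain ⟨γbar, hγbar, hconj⟩ := (ofMatRes_isEquiv_iff _ _ _ _).mp e5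
  obtain ⟨γ, hγ, hγres⟩ := exists_unit_lift γbar hγbar
  obtain ⟨u, rfl⟩ := hγ
  have hcont : MatCont (conjUnit u r₀) := hr₀.conj u u.isUnit (fun g => conjUnit_mul u r₀ g)
  refine ⟨conjUnit u r₀, hcont, ?_, ?_⟩
  · refine MonoidHom.ext fun σ => ?_
    have h1 := hconj σ
    rw [mapMat_eq_mapMatrix, mapMat_eq_mapMatrix, ← hγres] at h1
    rw [mapMat_eq_mapMatrix, conjUnit_apply, map_mul, map_mul, h1, mul_assoc, ← map_mul,
      Units.mul_inv, map_one, mul_one, mapMat_eq_mapMatrix]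
  · exact ⟨e₀.trans ((ofMat_isEquiv_iff r₀ (conjUnit u r₀) hr₀ hcont).mpr
      ⟨u, u.isUnit, fun g => conjUnit_mul u r₀ g⟩).some⟩

/-- General converse: a matrix representation reducing to the push-forward of `rbar` has residual
representation the base change of `ρbar ≅ ofMatRes rbar`. -/
theorem residual_isEquiv_gen {k : Type} [Field k] {A : Type} [CommRing A] [IsLocalRing A]
    (ψ : k →+* ResidueField A) (ρbar : ResidualGaloisRep k) (rbar : Gal →* M2 k)
    (hfin : MatFin rbar) (heq : ρbar.IsEquiv (ofMatRes rbar hfin)) (r : Gal →* M2 A)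
    (hr : MatCont r) (hres : mapMat (residue A) r = mapMat ψ rbar) :
    (ofMat r hr).residual.IsEquiv (ρbar.baseChangeAlong ψ) := by
  obtain ⟨e1⟩ := residual_ofMat_isEquiv r hr (matFin_residue hr)
  obtain ⟨e2⟩ := ofMatRes_isEquiv_of_eq hres (matFin_residue hr) (matFin_map hfin ψ)
  obtain ⟨e3⟩ := heq
  obtain ⟨e4⟩ := ofMatRes_baseChangeAlong_isEquiv ψ rbar hfin (matFin_map hfin ψ)
  exact ⟨e1.trans (e2.trans (e4.symm.trans (e3.baseChangeAlong ψ).symm))⟩

/-- `LiftsRes` in terms of residue field maps. -/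
theorem liftsRes_iff {𝒪 : Type} [CommRing 𝒪] [IsLocalRing 𝒪] (rbar : Gal →* M2 (ResidueField 𝒪))
    {A : Type} [CommRing A] [IsLocalRing A] [Algebra 𝒪 A] [IsLocalHom (algebraMap 𝒪 A)]
    (r : Gal →* M2 A) :
    LiftsRes rbar r ↔
      mapMat (residue A) r = mapMat (ResidueField.map (algebraMap 𝒪 A)) rbar := by
  constructor
  · intro h
    refine MonoidHom.ext fun g => ?_
    ext i j
    obtain ⟨c, hc⟩ := residue_surjective (rbar g i j)
    have h1 := h g i j c hc
    rw [← residue_eq_zero_iff, map_sub, sub_eq_zero] at h1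
    rw [mapMat_apply, mapMat_apply, h1, ← hc]
    rfl
  · intro h g i j c hc
    rw [← residue_eq_zero_iff, map_sub, sub_eq_zero]
    have h1 : mapMat (residue A) r g i j = mapMat (ResidueField.map (algebraMap 𝒪 A)) rbar g i j :=
      by rw [h]
    rw [mapMat_apply, mapMat_apply] at h1
    rw [h1, ← hc]
    rfl

end ResDict

open ResDict

section W2

variable {𝒪 : Type} [CommRing 𝒪] [IsLocalRing 𝒪] {ρbar : ResidualGaloisRep (ResidueField 𝒪)}
  (Rd : RigidData 𝒪 ρbar)

theorem matCont_rbar : MatCont Rd.rbar := by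
  obtain ⟨L, hL, h⟩ := Rd.fin
  intro n
  refine ⟨L, hL, fun σ hσ i j => ?_⟩
  rw [h σ hσ, sub_self]
  exact Ideal.zero_mem _

theorem ofResidual_isEquiv_ofMat :
    (GaloisRepAdic.ofResidualGaloisRep ρbar).IsEquiv (ofMat Rd.rbar (matCont_rbar Rd)) := by
  obtain ⟨e⟩ := Rd.equiv
  exact ⟨⟨e.toLinearEquiv, e.map_apply⟩⟩

variable {A : Type} [CommRing A] [IsLocalRing A] [Algebra 𝒪 A] [IsLocalHom (algebraMap 𝒪 A)]

theorem exists_lift_isEquiv (ρ : GaloisRepAdic A)
    (h : ρ.residual.IsEquiv (ρbar.baseChangeAlong (ResidueField.map (algebraMap 𝒪 A)))) :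
    ∃ (r : Gal →* M2 A) (hr : MatCont r), LiftsRes Rd.rbar r ∧ ρ.IsEquiv (ofMat r hr) := by
  obtain ⟨r, hr, hres, he⟩ := exists_lift_gen (ResidueField.map (algebraMap 𝒪 A)) ρbar Rd.rbar
    Rd.fin Rd.equiv ρ h
  exact ⟨r, hr, (liftsRes_iff Rd.rbar r).mpr hres, he⟩

theorem residual_isEquiv_of_liftsRes (r : Gal →* M2 A) (hr : MatCont r)
    (hres : LiftsRes Rd.rbar r) :
    (ofMat r hr).residual.IsEquiv
      (ρbar.baseChangeAlong (ResidueField.map (algebraMap 𝒪 A))) :=
  residual_isEquiv_gen (ResidueField.map (algebraMap 𝒪 A)) ρbar Rd.rbar Rd.fin Rd.equiv r hr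
    ((liftsRes_iff Rd.rbar r).mp hres)

end W2

end Fermat.Agent.S53

end
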