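import Mathlib

/-!
Pure 2x2 matrix algebra used for rigidifying deformations (S53, part L2):
companion normal form, its centraliser, the quadratic equation governing
conjugation by `1 + b N`, and a Hensel lemma for that quadratic.
-/

set_option autoImplicit false

namespace Fermat.Agent.S53.Mat2

open Matrix

variable {A : Type*} [CommRing A]

/-- Normal form: the first column of `N` is `(0, 1)`. -/
def IsComp (N : Matrix (Fin 2) (Fin 2) A) : Prop := N 0 0 = 0 ∧ N 1 0 = 1

theorem IsComp.eq {N : Matrix (Fin 2) (Fin 2) A} (hN : IsComp N) :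
    N = !![0, -N.det; 1, N.trace] := by
  obtain ⟨h0, h1⟩ := hN
  ext i j
  fin_cases i <;> fin_cases j <;> simp [Matrix.det_fin_two, Matrix.trace_fin_two, h0, h1]

theorem isComp_of {t d : A} : IsComp (!![0, d; 1, t] : Matrix (Fin 2) (Fin 2) A) := by
  constructor <;> simp

/-- Two normal-form matrices that are conjugate are equal. -/
theorem IsComp.eq_of_conj {N N' γ : Matrix (Fin 2) (Fin 2) A} (hN : IsComp N) (hN' : IsComp N')
    (hγ : IsUnit γ.det) (h : γ * N = N' * γ) : N' = N := by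
  have hdet : N'.det = N.det := by
    have h1 := congrArg Matrix.det h
    rw [Matrix.det_mul, Matrix.det_mul, mul_comm N'.det] at h1
    exact (hγ.mul_left_cancel h1).symm
  have htr : N'.trace = N.trace := by
    have h2 : N' = γ * N * γ⁻¹ := by
      rw [h, Matrix.mul_assoc, Matrix.mul_nonsing_inv γ hγ, Matrix.mul_one]
    rw [h2, Matrix.trace_mul_comm, ← Matrix.mul_assoc, Matrix.nonsing_inv_mul γ hγ, Matrix.one_mul]
  rw [hN.eq, hN'.eq, hdet, htr]

/-- The centraliser of a normal-form matrix `N` is `A[N]`. -/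
theorem IsComp.eq_of_commute {N γ : Matrix (Fin 2) (Fin 2) A} (hN : IsComp N)
    (h : γ * N = N * γ) : γ = γ 0 0 • (1 : Matrix (Fin 2) (Fin 2) A) + γ 1 0 • N := by
  obtain ⟨h0, h1⟩ := hN
  have h00 := congrFun (congrFun h 0) 0
  have h10 := congrFun (congrFun h 1) 0
  simp only [Matrix.mul_apply, Fin.sum_univ_two, h0, h1, mul_zero, mul_one, zero_add, zero_mul,
    one_mul] at h00 h10
  ext i j
  fin_cases i <;> fin_cases j <;>
    simp [h0, h1, h00, h10] <;> ring

/-- The matrix with columns `e₁` and `N e₁`. -/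
def cycMat (N : Matrix (Fin 2) (Fin 2) A) : Matrix (Fin 2) (Fin 2) A := !![1, N 0 0; 0, N 1 0]

theorem det_cycMat (N : Matrix (Fin 2) (Fin 2) A) : (cycMat N).det = N 1 0 := by
  simp [cycMat, Matrix.det_fin_two]

theorem mul_cycMat (N : Matrix (Fin 2) (Fin 2) A) :
    N * cycMat N = cycMat N * !![0, -N.det; 1, N.trace] := by
  ext i j
  fin_cases i <;> fin_cases j <;>
    simp [cycMat, Matrix.mul_apply, Fin.sum_univ_two, Matrix.det_fin_two, Matrix.trace_fin_two] <;>
    ring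

/-- The quadratic polynomial identity behind conjugation by `1 + c N`. -/
theorem conj_entry_quadratic {N : Matrix (Fin 2) (Fin 2) A} (hN : IsComp N)
    (M : Matrix (Fin 2) (Fin 2) A) (c μ : A) (i j : Fin 2) :
    ((1 + c • N) * M * adjugate (1 + c • N) : Matrix (Fin 2) (Fin 2) A) i j
        - μ * (1 + c • N : Matrix (Fin 2) (Fin 2) A).det =
      (M i j - μ) + ((N * M - M * N) i j + N.trace * (M i j - μ)) * c +
        ((N.trace • (N * M) - N * M * N) i j - μ * N.det) * c ^ 2 := by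
  obtain ⟨h0, h1⟩ := hN
  rw [Matrix.adjugate_fin_two]
  fin_cases i <;> fin_cases j <;>
    simp [Matrix.mul_apply, Fin.sum_univ_two, Matrix.det_fin_two, Matrix.trace_fin_two, h0, h1] <;>
    ring

theorem det_one_add_smul {N : Matrix (Fin 2) (Fin 2) A} (c : A) :
    (1 + c • N : Matrix (Fin 2) (Fin 2) A).det = 1 + N.trace * c + N.det * c ^ 2 := by
  simp [Matrix.det_fin_two, Matrix.trace_fin_two]
  ring


/-! ### Matrices with entries in an ideal -/

/-- All entries of `X` lie in the ideal `I`. -/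
def EntriesIn (I : Ideal A) (X : Matrix (Fin 2) (Fin 2) A) : Prop := ∀ i j, X i j ∈ I

theorem EntriesIn.add {I : Ideal A} {X Y : Matrix (Fin 2) (Fin 2) A} (hX : EntriesIn I X)
    (hY : EntriesIn I Y) : EntriesIn I (X + Y) := fun i j => I.add_mem (hX i j) (hY i j)

theorem EntriesIn.sub {I : Ideal A} {X Y : Matrix (Fin 2) (Fin 2) A} (hX : EntriesIn I X)
    (hY : EntriesIn I Y) : EntriesIn I (X - Y) := fun i j => I.sub_mem (hX i j) (hY i j)

theorem EntriesIn.mul_left {I : Ideal A} {X : Matrix (Fin 2) (Fin 2) A} (hX : EntriesIn I X)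
    (Y : Matrix (Fin 2) (Fin 2) A) : EntriesIn I (Y * X) := fun i j => by
  rw [Matrix.mul_apply]
  exact I.sum_mem fun k _ => I.mul_mem_left _ (hX k j)

theorem EntriesIn.mul_right {I : Ideal A} {X : Matrix (Fin 2) (Fin 2) A} (hX : EntriesIn I X)
    (Y : Matrix (Fin 2) (Fin 2) A) : EntriesIn I (X * Y) := fun i j => by
  rw [Matrix.mul_apply]
  exact I.sum_mem fun k _ => I.mul_mem_right _ (hX i k)

theorem EntriesIn.smul {I : Ideal A} {X : Matrix (Fin 2) (Fin 2) A} (hX : EntriesIn I X)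
    (a : A) : EntriesIn I (a • X) := fun i j => by
  rw [Matrix.smul_apply, smul_eq_mul]
  exact I.mul_mem_left _ (hX i j)

theorem entriesIn_smul_of_mem {I : Ideal A} {a : A} (ha : a ∈ I)
    (X : Matrix (Fin 2) (Fin 2) A) : EntriesIn I (a • X) := fun i j => by
  rw [Matrix.smul_apply, smul_eq_mul]
  exact I.mul_mem_right _ ha

/-- If `γ ≡ 1` and `r' γ = γ r` then `r' ≡ r`. -/
theorem entriesIn_sub_of_conj {I : Ideal A} {γ X X' : Matrix (Fin 2) (Fin 2) A}
    (hγ1 : EntriesIn I (γ - 1)) (h : X' * γ = γ * X) :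
    EntriesIn I (X' - X) := by
  have h1 : X' - X = ((γ - 1) * X - X' * (γ - 1)) := by
    rw [Matrix.sub_mul, Matrix.mul_sub, h]
    simp
  rw [h1]
  exact (hγ1.mul_right X).sub (hγ1.mul_left X')

/-- If `γ ≡ 1` is invertible then `γ⁻¹ ≡ 1`. -/
theorem entriesIn_inv_sub_one {I : Ideal A} {γ : Matrix (Fin 2) (Fin 2) A}
    (hγ : IsUnit γ.det) (hγ1 : EntriesIn I (γ - 1)) : EntriesIn I (γ⁻¹ - 1) := by
  have h1 : γ⁻¹ - 1 = γ⁻¹ * (1 - γ) := by
    rw [Matrix.mul_sub, Matrix.mul_one, Matrix.nonsing_inv_mul γ hγ]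
  rw [h1]
  have h2 : EntriesIn I (1 - γ) := fun i j => by
    have := I.neg_mem (hγ1 i j)
    simpa using this
  exact h2.mul_left _

/-! ### Conjugating a matrix-valued monoid homomorphism -/

section Conj

variable {G : Type*} [Monoid G]

/-- Conjugate of a monoid hom into matrices by an invertible matrix. -/
noncomputable def conjHom (γ : Matrix (Fin 2) (Fin 2) A) (hγ : IsUnit γ.det)
    (r : G →* Matrix (Fin 2) (Fin 2) A) : G →* Matrix (Fin 2) (Fin 2) A where
  toFun g := γ * r g * γ⁻¹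
  map_one' := by rw [map_one, Matrix.mul_one, Matrix.mul_nonsing_inv γ hγ]
  map_mul' g h := by
    rw [map_mul]
    calc γ * (r g * r h) * γ⁻¹ = γ * r g * (γ⁻¹ * γ) * r h * γ⁻¹ := by
          rw [Matrix.nonsing_inv_mul γ hγ]
          simp [Matrix.mul_assoc]
      _ = γ * r g * γ⁻¹ * (γ * r h * γ⁻¹) := by simp [Matrix.mul_assoc]

theorem conjHom_apply (γ : Matrix (Fin 2) (Fin 2) A) (hγ : IsUnit γ.det)
    (r : G →* Matrix (Fin 2) (Fin 2) A) (g : G) : conjHom γ hγ r g = γ * r g * γ⁻¹ := rfl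

theorem conjHom_mul (γ : Matrix (Fin 2) (Fin 2) A) (hγ : IsUnit γ.det)
    (r : G →* Matrix (Fin 2) (Fin 2) A) (g : G) : conjHom γ hγ r g * γ = γ * r g := by
  rw [conjHom_apply, Matrix.mul_assoc, Matrix.nonsing_inv_mul γ hγ, Matrix.mul_one]

end Conj

/-! ### Hensel's lemma for the quadratic -/

section Local

open IsLocalRing Polynomial

variable [IsLocalRing A]

theorem isUnit_add_of_mem {u a : A} (hu : IsUnit u) (ha : a ∈ maximalIdeal A) :
    IsUnit (u + a) := by
  by_contra h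
  have h1 : u + a ∈ maximalIdeal A := (IsLocalRing.mem_maximalIdeal _).mpr h
  have h2 : u ∈ maximalIdeal A := by
    have := (maximalIdeal A).sub_mem h1 ha
    simpa using this
  exact ((IsLocalRing.mem_maximalIdeal _).mp h2) hu

theorem quadratic_root_unique (p0 p1 p2 b b' : A) (h1 : IsUnit p1)
    (hb : b ∈ maximalIdeal A) (hb' : b' ∈ maximalIdeal A)
    (h : p0 + p1 * b + p2 * b ^ 2 = 0) (h' : p0 + p1 * b' + p2 * b' ^ 2 = 0) : b = b' := by
  have h2 : (p1 + p2 * (b + b')) * (b - b') = 0 := by linear_combination h - h'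
  have hu : IsUnit (p1 + p2 * (b + b')) :=
    isUnit_add_of_mem h1 (Ideal.mul_mem_left _ _ (Ideal.add_mem _ hb hb'))
  exact sub_eq_zero.mp ((hu.mul_right_eq_zero).mp h2)

theorem quadratic_root_exists [IsAdicComplete (maximalIdeal A) A] (p0 p1 p2 : A)
    (h0 : p0 ∈ maximalIdeal A) (h1 : IsUnit p1) :
    ∃ b ∈ maximalIdeal A, p0 + p1 * b + p2 * b ^ 2 = 0 := by
  have hH : HenselianRing A (maximalIdeal A) := inferInstance
  have hmonic : (X ^ 2 + C p1 * X + C (p0 * p2) : A[X]).Monic := by monicity!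
  obtain ⟨y, hy, hym⟩ := hH.is_henselian (X ^ 2 + C p1 * X + C (p0 * p2)) hmonic 0
    (by simpa using Ideal.mul_mem_right _ _ h0)
    (by simpa [derivative_X_pow] using h1.map (Ideal.Quotient.mk (maximalIdeal A)))
  rw [sub_zero] at hym
  have hy' : y ^ 2 + p1 * y + p0 * p2 = 0 := by simpa [IsRoot] using hy
  have hu : IsUnit (p1 + y) := isUnit_add_of_mem h1 hym
  obtain ⟨v, hv⟩ := hu.exists_right_inv
  refine ⟨-p0 * v, Ideal.mul_mem_right _ _ (neg_mem h0), ?_⟩
  linear_combination (p0 * v ^ 2) * hy' + (-p0 - p0 * v * y) * hv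


/-! ### Rigidification at the level of matrices -/

variable {G : Type*} [Monoid G]

/-- Existence of a rigid conjugate: a matrix-valued hom whose value at `g0` is congruent to a
normal-form matrix, and whose commutator with `g1` has a unit `(i0, j0)` entry, can be conjugated
by a matrix congruent to `1` so that `r' g0` is in normal form and `r' g1 i0 j0 = μ`. -/
theorem exists_rigid_conj [IsAdicComplete (maximalIdeal A) A]
    (r : G →* Matrix (Fin 2) (Fin 2) A) (g0 g1 : G) (i0 j0 : Fin 2) (μ : A)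
    (h00 : r g0 0 0 ∈ maximalIdeal A) (h10 : r g0 1 0 - 1 ∈ maximalIdeal A)
    (hμ : r g1 i0 j0 - μ ∈ maximalIdeal A)
    (hcomm : IsUnit ((r g0 * r g1 - r g1 * r g0) i0 j0)) :
    ∃ (γ : Matrix (Fin 2) (Fin 2) A) (r' : G →* Matrix (Fin 2) (Fin 2) A),
      IsUnit γ.det ∧ EntriesIn (maximalIdeal A) (γ - 1) ∧ (∀ g, r' g * γ = γ * r g) ∧
      IsComp (r' g0) ∧ r' g1 i0 j0 = μ := by
  -- Step 1: conjugate `r g0` into normal form
  have hPdet : IsUnit (cycMat (r g0)).det := by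
    rw [det_cycMat]
    have h1 : r g0 1 0 = 1 + (r g0 1 0 - 1) := by ring
    rw [h1]
    exact isUnit_add_of_mem isUnit_one h10
  have hP1 : EntriesIn (maximalIdeal A) (cycMat (r g0) - 1) := by
    intro i j
    fin_cases i <;> fin_cases j <;> simp [cycMat] <;> assumption
  have hPinv : IsUnit ((cycMat (r g0))⁻¹).det := by
    rw [Matrix.det_nonsing_inv]
    exact hPdet.ringInverse
  have hPinv1 := entriesIn_inv_sub_one hPdet hP1
  have hr1 : ∀ g, conjHom (cycMat (r g0))⁻¹ hPinv r g * (cycMat (r g0))⁻¹ =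
      (cycMat (r g0))⁻¹ * r g := conjHom_mul _ _ _
  have hN1 : conjHom (cycMat (r g0))⁻¹ hPinv r g0 = !![0, -(r g0).det; 1, (r g0).trace] := by
    rw [conjHom_apply, Matrix.nonsing_inv_nonsing_inv _ hPdet, Matrix.mul_assoc, mul_cycMat,
      ← Matrix.mul_assoc, Matrix.nonsing_inv_mul _ hPdet, Matrix.one_mul]
  have hC1 : IsComp (conjHom (cycMat (r g0))⁻¹ hPinv r g0) := hN1 ▸ isComp_of
  have hcong : ∀ g, EntriesIn (maximalIdeal A) (conjHom (cycMat (r g0))⁻¹ hPinv r g - r g) :=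
    fun g => entriesIn_sub_of_conj hPinv1 (hr1 g)
  generalize conjHom (cycMat (r g0))⁻¹ hPinv r = r1 at hr1 hC1 hcong
  -- Step 2: the quadratic equation
  have hp0 : r1 g1 i0 j0 - μ ∈ maximalIdeal A := by
    have h2 : r1 g1 i0 j0 - μ = (r1 g1 - r g1) i0 j0 + (r g1 i0 j0 - μ) := by
      rw [Matrix.sub_apply]; ring
    rw [h2]
    exact Ideal.add_mem _ (hcong g1 i0 j0) hμ
  have hcomm1 : IsUnit ((r1 g0 * r1 g1 - r1 g1 * r1 g0) i0 j0) := by
    have h2 : (r1 g0 * r1 g1 - r1 g1 * r1 g0) = (r g0 * r g1 - r g1 * r g0) +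
        ((r1 (g0 * g1) - r (g0 * g1)) - (r1 (g1 * g0) - r (g1 * g0))) := by
      rw [map_mul, map_mul, map_mul, map_mul]
      abel
    rw [h2, Matrix.add_apply]
    exact isUnit_add_of_mem hcomm (((hcong _).sub (hcong _)) i0 j0)
  have hp1 : IsUnit ((r1 g0 * r1 g1 - r1 g1 * r1 g0) i0 j0 +
      (r1 g0).trace * (r1 g1 i0 j0 - μ)) :=
    isUnit_add_of_mem hcomm1 (Ideal.mul_mem_left _ _ hp0)
  obtain ⟨c, hc, hroot⟩ := quadratic_root_exists (r1 g1 i0 j0 - μ) _
    (((r1 g0).trace • (r1 g0 * r1 g1) - r1 g0 * r1 g1 * r1 g0) i0 j0 - μ * (r1 g0).det) hp0 hp1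
  have hγ2det : IsUnit (1 + c • r1 g0 : Matrix (Fin 2) (Fin 2) A).det := by
    rw [det_one_add_smul, add_assoc]
    exact isUnit_add_of_mem isUnit_one (Ideal.add_mem _ (Ideal.mul_mem_left _ _ hc)
      (Ideal.mul_mem_left _ _ (Ideal.pow_mem_of_mem _ hc 2 two_pos)))
  have hγ21 : EntriesIn (maximalIdeal A) ((1 + c • r1 g0 : Matrix (Fin 2) (Fin 2) A) - 1) := by
    have h2 : (1 + c • r1 g0 : Matrix (Fin 2) (Fin 2) A) - 1 = c • r1 g0 := by abel
    rw [h2]
    exact entriesIn_smul_of_mem hc _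
  have hr2 : ∀ g, conjHom (1 + c • r1 g0) hγ2det r1 g * (1 + c • r1 g0) =
      (1 + c • r1 g0) * r1 g := conjHom_mul _ _ _
  have hr2g0 : conjHom (1 + c • r1 g0) hγ2det r1 g0 = r1 g0 := by
    rw [conjHom_apply]
    have hcommute : (1 + c • r1 g0 : Matrix (Fin 2) (Fin 2) A) * r1 g0 =
        r1 g0 * (1 + c • r1 g0) := by
      simp [Matrix.mul_add, Matrix.add_mul]
    rw [hcommute, Matrix.mul_assoc, Matrix.mul_nonsing_inv _ hγ2det, Matrix.mul_one]
  have hr2g1 : conjHom (1 + c • r1 g0) hγ2det r1 g1 i0 j0 = μ := by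
    have h3 : conjHom (1 + c • r1 g0) hγ2det r1 g1 =
        Ring.inverse (1 + c • r1 g0 : Matrix (Fin 2) (Fin 2) A).det •
          ((1 + c • r1 g0) * r1 g1 * adjugate (1 + c • r1 g0)) := by
      rw [conjHom_apply, Matrix.inv_def, Matrix.mul_smul]
    have h4 := conj_entry_quadratic hC1 (r1 g1) c μ i0 j0
    rw [hroot] at h4
    rw [h3, Matrix.smul_apply, smul_eq_mul, sub_eq_zero.mp h4, mul_comm μ, ← mul_assoc,
      Ring.inverse_mul_cancel _ hγ2det, one_mul]
  refine ⟨(1 + c • r1 g0) * (cycMat (r g0))⁻¹, conjHom (1 + c • r1 g0) hγ2det r1, ?_, ?_, ?_, ?_,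
    hr2g1⟩
  · rw [Matrix.det_mul]
    exact hγ2det.mul hPinv
  · have h2 : (1 + c • r1 g0) * (cycMat (r g0))⁻¹ - 1 =
        ((1 + c • r1 g0 : Matrix (Fin 2) (Fin 2) A) - 1) * (cycMat (r g0))⁻¹ +
          ((cycMat (r g0))⁻¹ - 1) := by
      rw [Matrix.sub_mul, Matrix.one_mul]
      abel
    rw [h2]
    exact (hγ21.mul_right _).add hPinv1
  · intro g
    rw [← Matrix.mul_assoc, hr2, Matrix.mul_assoc, hr1, Matrix.mul_assoc]
  · rw [hr2g0]
    exact hC1

/-- Uniqueness of rigid conjugates: two matrix-valued homs in rigid form that are conjugate by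
a matrix whose `(1, 0)` entry is in the maximal ideal are equal. -/
theorem rigid_unique (r r' : G →* Matrix (Fin 2) (Fin 2) A) (g0 g1 : G) (i0 j0 : Fin 2)
    (h0 : IsComp (r g0)) (h0' : IsComp (r' g0)) (h1 : r' g1 i0 j0 = r g1 i0 j0)
    (hcomm : IsUnit ((r g0 * r g1 - r g1 * r g0) i0 j0))
    (γ : Matrix (Fin 2) (Fin 2) A) (hγ : IsUnit γ.det) (hγr : ∀ g, r' g * γ = γ * r g)
    (hres : γ 1 0 ∈ maximalIdeal A) : r' = r := by
  have hN : r' g0 = r g0 := h0.eq_of_conj h0' hγ (hγr g0).symm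
  have hcommute : γ * r g0 = r g0 * γ := by rw [← hγr g0, hN]
  have hγeq := h0.eq_of_commute hcommute
  generalize γ 0 0 = a at hγeq
  generalize γ 1 0 = b at hγeq hres
  subst hγeq
  have hdet : (a • (1 : Matrix (Fin 2) (Fin 2) A) + b • r g0).det =
      a ^ 2 + ((r g0).trace * a * b + (r g0).det * b ^ 2) := by
    simp [Matrix.det_fin_two, Matrix.trace_fin_two, h0.1, h0.2]
    ring
  have ha : IsUnit a := by
    by_contra hna
    have ham : a ∈ maximalIdeal A := (IsLocalRing.mem_maximalIdeal _).mpr hna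
    have hdm : (a • (1 : Matrix (Fin 2) (Fin 2) A) + b • r g0).det ∈ maximalIdeal A := by
      rw [hdet]
      exact Ideal.add_mem _ (Ideal.pow_mem_of_mem _ ham 2 two_pos)
        (Ideal.add_mem _ (Ideal.mul_mem_left _ _ hres)
          (Ideal.mul_mem_left _ _ (Ideal.pow_mem_of_mem _ hres 2 two_pos)))
    exact ((IsLocalRing.mem_maximalIdeal _).mp hdm) hγ
  obtain ⟨v, hv⟩ := ha.exists_right_inv
  have hc : b * v ∈ maximalIdeal A := Ideal.mul_mem_right _ _ hres
  have hγ' : ∀ g, r' g * (1 + (b * v) • r g0) = (1 + (b * v) • r g0) * r g := by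
    intro g
    have h2 : (1 + (b * v) • r g0 : Matrix (Fin 2) (Fin 2) A) =
        v • (a • (1 : Matrix (Fin 2) (Fin 2) A) + b • r g0) := by
      rw [smul_add, smul_smul, smul_smul, mul_comm v a, hv, one_smul, mul_comm v b]
    rw [h2, Matrix.mul_smul, Matrix.smul_mul, hγr g]
  have h3 : (1 + (b * v) • r g0 : Matrix (Fin 2) (Fin 2) A).det • r' g1 =
      (1 + (b * v) • r g0) * r g1 * adjugate (1 + (b * v) • r g0) := by
    rw [← hγ' g1, Matrix.mul_assoc, Matrix.mul_adjugate, Matrix.mul_smul, Matrix.mul_one]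
  have h4 := conj_entry_quadratic h0 (r g1) (b * v) (r g1 i0 j0) i0 j0
  rw [← h3, Matrix.smul_apply, smul_eq_mul, h1, mul_comm, sub_self, sub_self, mul_zero,
    add_zero, zero_add] at h4
  have h5 : ((r g0 * r g1 - r g1 * r g0) i0 j0 +
      ((r g0).trace • (r g0 * r g1) - r g0 * r g1 * r g0) i0 j0 * (b * v) -
        r g1 i0 j0 * (r g0).det * (b * v)) * (b * v) = 0 := by
    linear_combination -h4
  have hu : IsUnit ((r g0 * r g1 - r g1 * r g0) i0 j0 +
      ((r g0).trace • (r g0 * r g1) - r g0 * r g1 * r g0) i0 j0 * (b * v) -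
        r g1 i0 j0 * (r g0).det * (b * v)) := by
    rw [add_sub_assoc]
    exact isUnit_add_of_mem hcomm (Ideal.sub_mem _ (Ideal.mul_mem_left _ _ hc)
      (Ideal.mul_mem_left _ _ hc))
  have hc0 : b * v = 0 := (hu.mul_right_eq_zero).mp h5
  ext g : 1
  have h6 := hγ' g
  rw [hc0, zero_smul, add_zero, Matrix.mul_one, Matrix.one_mul] at h6
  exact h6

end Local

end Fermat.Agent.S53.Mat2
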