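import Fermat.Agent.S53.Defs
import Fermat.Agent.S53.Mat2

/-!
# S53, work package W4: rigidification in terms of `RigidData` / `LiftsRes` / `IsRigid`

Wrappers around `Mat2.exists_rigid_conj` and `Mat2.rigid_unique`.
-/

set_option autoImplicit false

noncomputable section

namespace Fermat.Agent.S53

open IsLocalRing

section W4

variable {𝒪 : Type} [CommRing 𝒪] [IsLocalRing 𝒪] {ρbar : ResidualGaloisRep (ResidueField 𝒪)}
  (Rd : RigidData 𝒪 ρbar) {A : Type} [CommRing A] [IsLocalRing A] [Algebra 𝒪 A]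

namespace Rigidify

/-- Conjugation preserves adic continuity (local version, determinant form). -/
theorem matCont_conj {r r' : Gal →* M2 A} (hr : MatCont r) (γ : M2 A) (hγ : IsUnit γ.det)
    (h : ∀ g, γ * r g = r' g * γ) : MatCont r' := by
  intro n
  obtain ⟨L, hL, hLr⟩ := hr n
  refine ⟨L, hL, fun σ hσ => ?_⟩
  have h1 : r' σ - 1 = γ * (r σ - 1) * γ⁻¹ := by
    rw [Matrix.mul_sub, Matrix.sub_mul, h σ, Matrix.mul_one, Matrix.mul_assoc,
      Matrix.mul_nonsing_inv γ hγ, Matrix.mul_one]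
  rw [h1]
  exact ((show Mat2.EntriesIn (maximalIdeal A ^ n) (r σ - 1) from hLr σ hσ).mul_left γ).mul_right
    γ⁻¹

/-- For a lift of `rbar`, the distinguished commutator entry is a unit. -/
theorem comm_isUnit (r : Gal →* M2 A) (hres : LiftsRes Rd.rbar r) :
    IsUnit ((r Rd.g0 * r Rd.g1 - r Rd.g1 * r Rd.g0) Rd.i0 Rd.j0) := by
  choose c hc using fun g i j => IsLocalRing.residue_surjective (Rd.rbar g i j)
  have hq : ∀ g i j, residue A (r g i j) = residue A (algebraMap 𝒪 A (c g i j)) := by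
    intro g i j
    rw [← sub_eq_zero, ← map_sub, IsLocalRing.residue_eq_zero_iff]
    exact hres g i j _ (hc g i j)
  have hC : residue 𝒪 (∑ k, (c Rd.g0 Rd.i0 k * c Rd.g1 k Rd.j0 - c Rd.g1 Rd.i0 k * c Rd.g0 k Rd.j0))
      = (Rd.rbar Rd.g0 * Rd.rbar Rd.g1 - Rd.rbar Rd.g1 * Rd.rbar Rd.g0) Rd.i0 Rd.j0 := by
    simp only [Matrix.sub_apply, Matrix.mul_apply, map_sum, map_sub, map_mul, hc,
      Finset.sum_sub_distrib]
  have hCu : IsUnit
      (∑ k, (c Rd.g0 Rd.i0 k * c Rd.g1 k Rd.j0 - c Rd.g1 Rd.i0 k * c Rd.g0 k Rd.j0)) := by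
    by_contra hn
    have h0 := (IsLocalRing.residue_eq_zero_iff _).mpr ((IsLocalRing.mem_maximalIdeal _).mpr hn)
    exact Rd.comm_ne (hC ▸ h0)
  have hdiff : (r Rd.g0 * r Rd.g1 - r Rd.g1 * r Rd.g0) Rd.i0 Rd.j0 - algebraMap 𝒪 A
      (∑ k, (c Rd.g0 Rd.i0 k * c Rd.g1 k Rd.j0 - c Rd.g1 Rd.i0 k * c Rd.g0 k Rd.j0))
        ∈ maximalIdeal A := by
    rw [← IsLocalRing.residue_eq_zero_iff, map_sub, sub_eq_zero]
    simp only [Matrix.sub_apply, Matrix.mul_apply, map_sum, map_sub, map_mul, hq,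
      Finset.sum_sub_distrib]
  have hsplit : (r Rd.g0 * r Rd.g1 - r Rd.g1 * r Rd.g0) Rd.i0 Rd.j0 = algebraMap 𝒪 A
      (∑ k, (c Rd.g0 Rd.i0 k * c Rd.g1 k Rd.j0 - c Rd.g1 Rd.i0 k * c Rd.g0 k Rd.j0)) +
      ((r Rd.g0 * r Rd.g1 - r Rd.g1 * r Rd.g0) Rd.i0 Rd.j0 - algebraMap 𝒪 A
      (∑ k, (c Rd.g0 Rd.i0 k * c Rd.g1 k Rd.j0 - c Rd.g1 Rd.i0 k * c Rd.g0 k Rd.j0))) := by
    ring
  rw [hsplit]
  exact Mat2.isUnit_add_of_mem (hCu.map (algebraMap 𝒪 A)) hdiff

end Rigidify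

theorem exists_rigid_conj [IsAdicComplete (maximalIdeal A) A] (r : Gal →* M2 A) (hr : MatCont r)
    (hres : LiftsRes Rd.rbar r) :
    ∃ (r' : Gal →* M2 A) (γ : M2 A), IsRigid Rd r' ∧ IsUnit γ ∧ ∀ g, γ * r g = r' g * γ := by
  have h00 : r Rd.g0 0 0 ∈ maximalIdeal A := by
    have h1 := hres Rd.g0 0 0 0 (by rw [map_zero, Rd.c00])
    simpa using h1
  have h10 : r Rd.g0 1 0 - 1 ∈ maximalIdeal A := by
    have h1 := hres Rd.g0 1 0 1 (by rw [map_one, Rd.c10])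
    simpa using h1
  have hμ : r Rd.g1 Rd.i0 Rd.j0 - algebraMap 𝒪 A Rd.μ ∈ maximalIdeal A :=
    hres _ _ _ _ Rd.μ_spec
  obtain ⟨γ, r', hγdet, hγ1, hconj, hcomp, hc1⟩ := Mat2.exists_rigid_conj r Rd.g0 Rd.g1 Rd.i0
    Rd.j0 (algebraMap 𝒪 A Rd.μ) h00 h10 hμ (Rigidify.comm_isUnit Rd r hres)
  have hγ : IsUnit γ := (Matrix.isUnit_iff_isUnit_det γ).mpr hγdet
  refine ⟨r', γ, ⟨?_, ?_, hcomp.1, hcomp.2, hc1⟩, hγ, fun g => (hconj g).symm⟩
  · exact Rigidify.matCont_conj hr γ hγdet (fun g => (hconj g).symm)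
  · intro g i j c' hc'
    have h1 := Mat2.entriesIn_sub_of_conj hγ1 (hconj g) i j
    have h2 := hres g i j c' hc'
    have h3 : r' g i j - algebraMap 𝒪 A c' = (r' g - r g) i j + (r g i j - algebraMap 𝒪 A c') := by
      rw [Matrix.sub_apply]
      ring
    rw [h3]
    exact Ideal.add_mem _ h1 h2

theorem rigid_unique [IsLocalHom (algebraMap 𝒪 A)]
    (hsurj : Function.Surjective (residue A ∘ algebraMap 𝒪 A)) (r r' : Gal →* M2 A)
    (hr : IsRigid Rd r) (hr' : IsRigid Rd r') (γ : M2 A) (hγ : IsUnit γ)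
    (h : ∀ g, γ * r g = r' g * γ) : r = r' := by
  have hγdet : IsUnit γ.det := (Matrix.isUnit_iff_isUnit_det γ).mp hγ
  symm
  apply Mat2.rigid_unique r r' Rd.g0 Rd.g1 Rd.i0 Rd.j0 ⟨hr.c00, hr.c10⟩ ⟨hr'.c00, hr'.c10⟩
    (by rw [hr'.c1, hr.c1]) (Rigidify.comm_isUnit Rd r hr.res) γ hγdet (fun g => (h g).symm)
  -- it remains to see that the `(1, 0)` entry of `γ` is in the maximal ideal: Schur's lemma
  choose c hc using fun g i j => IsLocalRing.residue_surjective (Rd.rbar g i j)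
  choose Γ hΓ using fun i j => hsurj (residue A (γ i j))
  have hΓ' : ∀ i j, residue A (algebraMap 𝒪 A (Γ i j)) = residue A (γ i j) := hΓ
  have hq : ∀ g i j, residue A (algebraMap 𝒪 A (c g i j)) = residue A (r g i j) := by
    intro g i j
    rw [eq_comm, ← sub_eq_zero, ← map_sub, IsLocalRing.residue_eq_zero_iff]
    exact hr.res g i j _ (hc g i j)
  have hq' : ∀ g i j, residue A (algebraMap 𝒪 A (c g i j)) = residue A (r' g i j) := by
    intro g i j
    rw [eq_comm, ← sub_eq_zero, ← map_sub, IsLocalRing.residue_eq_zero_iff]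
    exact hr'.res g i j _ (hc g i j)
  have hcommΓ : ∀ g, ((Matrix.of Γ : M2 𝒪).map (residue 𝒪)) * Rd.rbar g =
      Rd.rbar g * ((Matrix.of Γ : M2 𝒪).map (residue 𝒪)) := by
    intro g
    ext i j
    have hL : (((Matrix.of Γ : M2 𝒪).map (residue 𝒪)) * Rd.rbar g) i j =
        residue 𝒪 (∑ k, Γ i k * c g k j) := by
      simp only [Matrix.mul_apply, Matrix.map_apply, Matrix.of_apply, map_sum, map_mul, hc]
    have hR : (Rd.rbar g * ((Matrix.of Γ : M2 𝒪).map (residue 𝒪))) i j =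
        residue 𝒪 (∑ k, c g i k * Γ k j) := by
      simp only [Matrix.mul_apply, Matrix.map_apply, Matrix.of_apply, map_sum, map_mul, hc]
    rw [hL, hR, ← sub_eq_zero, ← map_sub, IsLocalRing.residue_eq_zero_iff]
    by_contra hunit
    have hu : IsUnit (∑ k, Γ i k * c g k j - ∑ k, c g i k * Γ k j) := by
      by_contra hn
      exact hunit ((IsLocalRing.mem_maximalIdeal _).mpr hn)
    have hm : algebraMap 𝒪 A (∑ k, Γ i k * c g k j - ∑ k, c g i k * Γ k j) ∈ maximalIdeal A := by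
      rw [← IsLocalRing.residue_eq_zero_iff]
      have e1 : residue A (algebraMap 𝒪 A (∑ k, Γ i k * c g k j - ∑ k, c g i k * Γ k j)) =
          residue A ((γ * r g - r' g * γ) i j) := by
        simp only [Matrix.sub_apply, Matrix.mul_apply, map_sub, map_sum, map_mul, ← hΓ', ← hq,
          ← hq']
      rw [e1, h g, sub_self, Matrix.zero_apply, map_zero]
    exact ((IsLocalRing.mem_maximalIdeal _).mp hm) (hu.map (algebraMap 𝒪 A))
  obtain ⟨a, ha⟩ := Rd.schur _ hcommΓ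
  have h10 : residue 𝒪 (Γ 1 0) = 0 := by
    have h1 := congrFun (congrFun ha 1) 0
    simpa using h1
  have hΓm : Γ 1 0 ∈ maximalIdeal 𝒪 := (IsLocalRing.residue_eq_zero_iff _).mp h10
  rw [← IsLocalRing.residue_eq_zero_iff, ← hΓ' 1 0, IsLocalRing.residue_eq_zero_iff]
  exact map_nonunit (algebraMap 𝒪 A) _ hΓm

end W4

end Fermat.Agent.S53

end
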