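import Fermat.Agent.S53.MatDict
import Fermat.Agent.S53.ResDict
import Fermat.Agent.S53.Rigidify

/-!
# S53, work package W7: tangent data

* `dual_testAlgebra`: the dual numbers over the residue field are an Artinian test algebra.
* `exists_tangentData`: `TangentFinite` implies that the rigid lifts of type `𝒟` over the dual
  numbers form a finite set (they inject into the `TangentFinite` quotient by rigidity), hence
  are separated by finitely many matrix entries.
-/

set_option autoImplicit false

noncomputable section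

namespace Fermat.Agent.S53

open IsLocalRing

theorem dualAlg_algebraMap_apply (𝒪 : Type) [CommRing 𝒪] [IsLocalRing 𝒪] (c : 𝒪) :
    letI := dualAlg 𝒪
    algebraMap 𝒪 (DualNumber (ResidueField 𝒪)) c = TrivSqZeroExt.inl (residue 𝒪 c) := by
  rfl

theorem dual_mem_maximalIdeal_iff {K : Type} [Field K] (x : DualNumber K) :
    x ∈ maximalIdeal (DualNumber K) ↔ x.fst = 0 := by
  rw [IsLocalRing.mem_maximalIdeal, mem_nonunits_iff, TrivSqZeroExt.isUnit_iff_isUnit_fst]
  simp

instance dual_isArtinianRing {K : Type} [Field K] : IsArtinianRing (DualNumber K) := by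
  have : Module.Finite K (DualNumber K) := by
    have e : (K × K) ≃ₗ[K] DualNumber K := LinearEquiv.refl K (K × K)
    exact Module.Finite.equiv e
  exact IsArtinianRing.of_finite K (DualNumber K)

theorem dual_testAlgebra (𝒪 : Type) [CommRing 𝒪] [IsLocalRing 𝒪] :
    letI := dualAlg 𝒪
    GaloisRep.IsArtinianTestAlgebra 𝒪 (DualNumber (ResidueField 𝒪)) := by
  letI := dualAlg 𝒪
  refine ⟨⟨fun a ha => ?_⟩, ?_, inferInstance⟩
  · rw [dualAlg_algebraMap_apply, TrivSqZeroExt.isUnit_iff_isUnit_fst, TrivSqZeroExt.fst_inl] at ha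
    by_contra hna
    have : residue 𝒪 a = 0 := (residue_eq_zero_iff a).mpr hna
    rw [this] at ha
    exact not_isUnit_zero ha
  · intro q
    obtain ⟨x, rfl⟩ := Ideal.Quotient.mk_surjective q
    obtain ⟨c, hc⟩ := Ideal.Quotient.mk_surjective x.fst
    refine ⟨c, ?_⟩
    show residue _ (algebraMap 𝒪 (DualNumber (ResidueField 𝒪)) c) = residue _ x
    rw [← sub_eq_zero, ← map_sub, residue_eq_zero_iff, dual_mem_maximalIdeal_iff,
      dualAlg_algebraMap_apply, TrivSqZeroExt.fst_sub, TrivSqZeroExt.fst_inl, sub_eq_zero]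
    exact hc

section Tangent

variable {𝒪 : Type} [CommRing 𝒪] [IsLocalRing 𝒪]
  {ρbar : ResidualGaloisRep (ResidueField 𝒪)} (Rd : RigidData 𝒪 ρbar)
  {𝒟 : ∀ ⦃A : Type⦄ [CommRing A] [IsLocalRing A] [Algebra 𝒪 A], GaloisRepAdic A → Prop}

/-- The two `ResidueField 𝒪`-algebra structures on the residue field of the dual numbers agree. -/
theorem dual_residueField_map_eq :
    letI := dualAlg 𝒪
    haveI := (dual_testAlgebra 𝒪).isLocalHom
    ResidueField.map (algebraMap 𝒪 (DualNumber (ResidueField 𝒪))) =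
      (IsLocalRing.residue (DualNumber (ResidueField 𝒪))).comp
        (algebraMap (ResidueField 𝒪) (DualNumber (ResidueField 𝒪))) := by
  letI := dualAlg 𝒪
  haveI := (dual_testAlgebra 𝒪).isLocalHom
  refine RingHom.ext fun q => ?_
  obtain ⟨c, rfl⟩ := Ideal.Quotient.mk_surjective q
  rfl

/-- The set of rigid lifts of type `𝒟` over the dual numbers is finite. -/
theorem finite_rigidD_dual (hfin : GaloisRep.TangentFinite 𝒪 ρbar 𝒟) :
    letI := dualAlg 𝒪
    Finite {r : Gal →* M2 (DualNumber (ResidueField 𝒪)) // IsRigidD Rd 𝒟 r} := by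
  letI := dualAlg 𝒪
  haveI := (dual_testAlgebra 𝒪).isLocalHom
  letI alg2 : Algebra (ResidueField 𝒪) (ResidueField (DualNumber (ResidueField 𝒪))) :=
    ((IsLocalRing.residue (DualNumber (ResidueField 𝒪))).comp
      (algebraMap (ResidueField 𝒪) (DualNumber (ResidueField 𝒪)))).toAlgebra
  unfold GaloisRep.TangentFinite at hfin
  have key : ∀ r : {r : Gal →* M2 (DualNumber (ResidueField 𝒪)) // IsRigidD Rd 𝒟 r},
      (ofMat r.1 r.2.choose.cont).residual.IsEquiv
        (ρbar.baseChange (ResidueField (DualNumber (ResidueField 𝒪)))) := by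
    intro r
    have h := residual_isEquiv_of_liftsRes Rd r.1 r.2.choose.cont r.2.choose.res
    rw [dual_residueField_map_eq] at h
    exact h
  refine @Finite.of_injective _ _ hfin
    (fun r => Quotient.mk _ ⟨ofMat r.1 r.2.choose.cont, r.2.choose_spec, key r⟩) ?_
  intro r r' hrr'
  have h1 := Quotient.exact hrr'
  have h2 : (ofMat r.1 r.2.choose.cont).IsEquiv (ofMat r'.1 r'.2.choose.cont) := h1
  obtain ⟨γ, hγ, hγr⟩ := (ofMat_isEquiv_iff _ _ _ _).mp h2
  exact Subtype.ext (rigid_unique Rd (dual_testAlgebra 𝒪).residue_surjective r.1 r'.1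
    r.2.choose r'.2.choose γ hγ hγr)

theorem exists_tangentData (hfin : GaloisRep.TangentFinite 𝒪 ρbar 𝒟) :
    Nonempty (TangentData Rd 𝒟) := by
  classical
  letI := dualAlg 𝒪
  have hX := finite_rigidD_dual Rd hfin
  let X := {r : Gal →* M2 (DualNumber (ResidueField 𝒪)) // IsRigidD Rd 𝒟 r}
  let P := {p : X × X // p.1 ≠ p.2}
  haveI : Finite X := hX
  haveI : Finite P := inferInstance
  letI : Fintype P := Fintype.ofFinite P
  have hsep : ∀ p : P, ∃ (g : Gal) (i j : Fin 2), p.1.1.1 g i j ≠ p.1.2.1 g i j := by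
    intro p
    by_contra hcon
    push Not at hcon
    apply p.2
    apply Subtype.ext
    exact MonoidHom.ext fun g => Matrix.ext fun i j => hcon g i j
  choose G Ii Jj hG using hsep
  let e : Fin (Fintype.card P) ≃ P := (Fintype.equivFin P).symm
  have hν : ∀ s : Fin (Fintype.card P), ∃ c : 𝒪,
      residue 𝒪 c = Rd.rbar (G (e s)) (Ii (e s)) (Jj (e s)) :=
    fun s => Ideal.Quotient.mk_surjective _
  choose ν hν using hν
  refine ⟨{ d := Fintype.card P, h := fun s => G (e s), i := fun s => Ii (e s),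
            j := fun s => Jj (e s), ν := ν, ν_spec := hν, sep := ?_ }⟩
  intro r r' hr hr' hall
  by_contra hne
  let p : P := ⟨(⟨r, hr⟩, ⟨r', hr'⟩), fun h => hne (congrArg Subtype.val h)⟩
  have := hall (e.symm p)
  rw [Equiv.apply_symm_apply] at this
  exact hG p this

end Tangent

end Fermat.Agent.S53

end
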