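import Mathlib
import Fermat.Agent.Lib.MvPowerSeriesRegular

/-!
# Power series infrastructure for the universal deformation ring (S53, part L4)

`S = MvPowerSeries (Fin d) O` for a complete discrete valuation ring `O`:
completeness with respect to the maximal ideal, finiteness of `S ⧸ m ^ n`,
evaluation homomorphisms to local rings with nilpotent maximal ideal, and a
Chevalley-type compactness lemma.
-/

set_option linter.style.haveILetI false
set_option linter.unusedSectionVars false

namespace Fermat.Agent.S53.PS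

open MvPowerSeries IsLocalRing

section Precomplete

variable {R : Type*} [CommRing R]

/-- A ring that is precomplete for `I` and for the principal ideal `(a)` is precomplete
for `I ⊔ (a)`. -/
theorem isPrecomplete_sup_span (I : Ideal R) (a : R) [IsPrecomplete I R]
    [IsPrecomplete (Ideal.span {a}) R] : IsPrecomplete (I ⊔ Ideal.span {a}) R := by
  constructor
  intro f hf
  simp only [smul_eq_mul, Ideal.mul_top] at hf ⊢
  -- the subsequence `g n = f (2 n)`
  have hstep : ∀ n, f (2 * (n + 1)) - f (2 * n) ∈ I ^ n ⊔ Ideal.span {a} ^ n := by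
    intro n
    have h1 : f (2 * n) ≡ f (2 * (n + 1)) [SMOD (I ⊔ Ideal.span {a}) ^ (2 * n)] :=
      hf (by omega)
    have h2 := SModEq.sub_mem.mp h1.symm
    have h3 : (I ⊔ Ideal.span {a}) ^ (2 * n) ≤ I ^ n ⊔ Ideal.span {a} ^ n := by
      rw [two_mul]
      exact Ideal.sup_pow_add_le_pow_sup_pow
    exact h3 h2
  choose u hu v hv huv using fun n => Submodule.mem_sup.mp (hstep n)
  -- `v n ∈ span {a} ^ n = span {a ^ n}`
  let y : ℕ → R := fun n => ∑ i ∈ Finset.range n, u i
  let z : ℕ → R := fun n => ∑ i ∈ Finset.range n, v i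
  have hy : ∀ {m n}, m ≤ n → y m ≡ y n [SMOD (I ^ m • ⊤ : Submodule R R)] := by
    intro m n hmn
    simp only [smul_eq_mul, Ideal.mul_top]
    rw [SModEq.sub_mem]
    have : y m - y n = -∑ i ∈ Finset.Ico m n, u i := by
      simp only [y]
      rw [Finset.sum_Ico_eq_sub _ hmn]
      ring
    rw [this]
    refine neg_mem (sum_mem fun i hi => ?_)
    exact Ideal.pow_le_pow_right (Finset.mem_Ico.mp hi).1 (hu i)
  have hz : ∀ {m n}, m ≤ n → z m ≡ z n [SMOD (Ideal.span {a} ^ m • ⊤ : Submodule R R)] := by
    intro m n hmn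
    simp only [smul_eq_mul, Ideal.mul_top]
    rw [SModEq.sub_mem]
    have : z m - z n = -∑ i ∈ Finset.Ico m n, v i := by
      simp only [z]
      rw [Finset.sum_Ico_eq_sub _ hmn]
      ring
    rw [this]
    refine neg_mem (sum_mem fun i hi => ?_)
    exact Ideal.pow_le_pow_right (Finset.mem_Ico.mp hi).1 (hv i)
  obtain ⟨Y, hY⟩ := IsPrecomplete.prec' (I := I) y hy
  obtain ⟨Z, hZ⟩ := IsPrecomplete.prec' (I := Ideal.span {a}) z hz
  simp only [smul_eq_mul, Ideal.mul_top] at hY hZ
  have hg : ∀ n, f (2 * n) = f 0 + y n + z n := by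
    intro n
    induction n with
    | zero => simp [y, z]
    | succ n ih =>
      have := huv n
      simp only [y, z, Finset.sum_range_succ] at ih ⊢
      linear_combination ih - this
  refine ⟨f 0 + Y + Z, fun n => ?_⟩
  rw [SModEq.sub_mem]
  have h1 : f n - f (2 * n) ∈ (I ⊔ Ideal.span {a}) ^ n := SModEq.sub_mem.mp (hf (by omega))
  have h2 : y n - Y ∈ (I ⊔ Ideal.span {a}) ^ n :=
    Ideal.pow_right_mono le_sup_left n (SModEq.sub_mem.mp (hY n))
  have h3 : z n - Z ∈ (I ⊔ Ideal.span {a}) ^ n :=
    Ideal.pow_right_mono le_sup_right n (SModEq.sub_mem.mp (hZ n))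
  have : f n - (f 0 + Y + Z) = (f n - f (2 * n)) + (y n - Y) + (z n - Z) := by
    rw [hg n]; ring
  rw [this]
  exact add_mem (add_mem h1 h2) h3

end Precomplete

section Coefficientwise

variable {σ : Type*} {R : Type*} [CommRing R]

/-- Membership in the ideal generated by the `n`-th power of a constant. -/
theorem mem_span_C_pow_iff (a : R) (n : ℕ) (f : MvPowerSeries σ R) :
    f ∈ (Ideal.span {(C a : MvPowerSeries σ R)}) ^ n ↔ ∀ e, a ^ n ∣ coeff e f := by
  rw [Ideal.span_singleton_pow, Ideal.mem_span_singleton, ← map_pow]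
  constructor
  · rintro ⟨g, rfl⟩ e
    rw [coeff_C_mul]
    exact dvd_mul_right _ _
  · intro h
    choose c hc using h
    let g : MvPowerSeries σ R := fun e => c e
    have hg : ∀ e, coeff e g = c e := fun e => rfl
    refine ⟨g, ?_⟩
    ext e
    rw [coeff_C_mul, hc e, hg]

/-- If `R` is precomplete for the principal ideal `(a)` then so is `MvPowerSeries σ R` for `(C a)`. -/
theorem isPrecomplete_span_C (a : R) [IsPrecomplete (Ideal.span {a}) R] :
    IsPrecomplete (Ideal.span {(C a : MvPowerSeries σ R)}) (MvPowerSeries σ R) := by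
  constructor
  intro f hf
  simp only [smul_eq_mul, Ideal.mul_top] at hf ⊢
  have hc : ∀ e : σ →₀ ℕ, ∃ l : R, ∀ n, a ^ n ∣ coeff e (f n) - l := by
    intro e
    have hcauchy : ∀ {m n}, m ≤ n →
        coeff e (f m) ≡ coeff e (f n) [SMOD (Ideal.span {a} ^ m • ⊤ : Submodule R R)] := by
      intro m n hmn
      simp only [smul_eq_mul, Ideal.mul_top]
      rw [SModEq.sub_mem, Ideal.span_singleton_pow, Ideal.mem_span_singleton, ← map_sub]
      exact (mem_span_C_pow_iff a m _).mp (SModEq.sub_mem.mp (hf hmn)) e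
    obtain ⟨l, hl⟩ := IsPrecomplete.prec' (I := Ideal.span {a}) _ hcauchy
    refine ⟨l, fun n => ?_⟩
    have := SModEq.sub_mem.mp (hl n)
    simp only [smul_eq_mul, Ideal.mul_top] at this
    rwa [Ideal.span_singleton_pow, Ideal.mem_span_singleton] at this
  choose l hl using hc
  let L : MvPowerSeries σ R := fun e => l e
  have hL : ∀ e, coeff e L = l e := fun e => rfl
  refine ⟨L, fun n => ?_⟩
  rw [SModEq.sub_mem, mem_span_C_pow_iff]
  intro e
  rw [map_sub, hL]
  exact hl e n

end Coefficientwise

section MaximalIdeal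

variable {σ : Type*} [Finite σ] {O : Type*} [CommRing O]

/-- The maximal ideal of `O⟦X⟧` is generated by the variables and a uniformizer. -/
theorem maximalIdeal_eq_sup [IsLocalRing O] (ϖ : O)
    (hmax : maximalIdeal O = Ideal.span {ϖ}) :
    maximalIdeal (MvPowerSeries σ O) =
      Ideal.span (Set.range (X : σ → MvPowerSeries σ O)) ⊔ Ideal.span {C ϖ} := by
  classical
  haveI : Fintype σ := Fintype.ofFinite σ
  have h := Fermat.Agent.Lib.MvPowerSeriesRegular.ofList_X_append_C_eq_maximalIdeal
    (σ := σ) (O := O) (Finset.univ.toList) (fun s => by simp) ϖ hmax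
  rw [← h, Ideal.ofList_append, Ideal.ofList_singleton]
  congr 1
  unfold Ideal.ofList
  congr 1
  ext f
  simp

/-- The variables lie in the maximal ideal. -/
theorem X_mem_maximalIdeal [IsLocalRing O] (i : σ) :
    (X i : MvPowerSeries σ O) ∈ maximalIdeal (MvPowerSeries σ O) := by
  rw [mem_maximalIdeal, mem_nonunits_iff, MvPowerSeries.isUnit_iff_constantCoeff]
  simp

/-- `O⟦X⟧` is complete for its maximal ideal when `O` is a complete discrete valuation ring. -/
theorem isAdicComplete_maximalIdeal [IsDomain O] [IsDiscreteValuationRing O]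
    [IsAdicComplete (maximalIdeal O) O] :
    IsAdicComplete (maximalIdeal (MvPowerSeries σ O)) (MvPowerSeries σ O) := by
  obtain ⟨ϖ, hϖ⟩ := IsDiscreteValuationRing.exists_irreducible O
  have hmax := hϖ.maximalIdeal_eq
  haveI : IsPrecomplete (Ideal.span {ϖ}) O := by
    rw [← hmax]; infer_instance
  haveI := isPrecomplete_span_C (σ := σ) ϖ
  haveI : IsPrecomplete (Ideal.span (Set.range (X : σ → MvPowerSeries σ O)))
      (MvPowerSeries σ O) := inferInstance
  haveI : IsPrecomplete (maximalIdeal (MvPowerSeries σ O)) (MvPowerSeries σ O) := by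
    rw [maximalIdeal_eq_sup ϖ hmax]
    exact isPrecomplete_sup_span _ _
  exact { }

end MaximalIdeal

section Residue

variable {σ : Type*} {O : Type*} [CommRing O] [IsLocalRing O]

/-- The structure map `O → O⟦X⟧` is a local homomorphism. -/
instance isLocalHom_algebraMap : IsLocalHom (algebraMap O (MvPowerSeries σ O)) := by
  constructor
  intro a ha
  rw [MvPowerSeries.algebraMap_apply, Algebra.algebraMap_self, RingHom.id_apply,
    MvPowerSeries.isUnit_iff_constantCoeff, constantCoeff_C] at ha
  exact ha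

/-- The residue field of `O⟦X⟧` is that of `O`. -/
theorem residue_comp_algebraMap_surjective :
    Function.Surjective
      (residue (MvPowerSeries σ O) ∘ algebraMap O (MvPowerSeries σ O)) := by
  intro x
  obtain ⟨f, rfl⟩ := residue_surjective x
  refine ⟨constantCoeff f, ?_⟩
  rw [Function.comp_apply, MvPowerSeries.algebraMap_apply, Algebra.algebraMap_self,
    RingHom.id_apply]
  refine (Ideal.Quotient.eq).mpr ?_
  rw [mem_maximalIdeal, mem_nonunits_iff, MvPowerSeries.isUnit_iff_constantCoeff, map_sub,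
    constantCoeff_C, sub_self]
  exact not_isUnit_zero

end Residue

section FiniteResidue

/-- A local algebra whose residue field is reached from a ring with finite residue field
has finite residue field. -/
theorem finite_residueField_of_surjective {O A : Type*} [CommRing O] [IsLocalRing O]
    [CommRing A] [IsLocalRing A] [Algebra O A] [IsLocalHom (algebraMap O A)]
    [Finite (ResidueField O)]
    (h : Function.Surjective (residue A ∘ algebraMap O A)) : Finite (ResidueField A) := by
  refine Finite.of_surjective (ResidueField.map (algebraMap O A)) ?_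
  intro x
  obtain ⟨a, rfl⟩ := h x
  exact ⟨residue O a, by simp [ResidueField.map_residue]⟩

/-- A noetherian local ring with finite residue field has finite quotients by powers of the
maximal ideal. -/
theorem finite_quotient_maximalIdeal_pow_of_finite {A : Type*} [CommRing A] [IsLocalRing A]
    [IsNoetherianRing A] [Finite (ResidueField A)] (n : ℕ) :
    Finite (A ⧸ maximalIdeal A ^ n) := by
  haveI : Finite (A ⧸ maximalIdeal A) := ‹Finite (ResidueField A)›
  exact Ideal.finite_quotient_pow (IsNoetherian.noetherian _) n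

/-- `O⟦X⟧ ⧸ m ^ n` is finite when `O` is noetherian local with finite residue field. -/
theorem finite_quotient_pow {σ : Type*} [Finite σ] {O : Type*} [CommRing O] [IsLocalRing O]
    [IsNoetherianRing O] [Finite (ResidueField O)] (n : ℕ) :
    Finite (MvPowerSeries σ O ⧸ maximalIdeal (MvPowerSeries σ O) ^ n) := by
  haveI : Finite (ResidueField (MvPowerSeries σ O)) :=
    finite_residueField_of_surjective (O := O) residue_comp_algebraMap_surjective
  exact finite_quotient_maximalIdeal_pow_of_finite n

end FiniteResidue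

section Eval

variable {σ : Type*} [Finite σ] {O : Type*} [CommRing O] {A : Type*} [CommRing A] [Algebra O A]

/-- Restriction of an algebra map out of the power series ring to polynomials. -/
noncomputable def polyRestrict (φ : MvPowerSeries σ O →ₐ[O] A) : MvPolynomial σ O →ₐ[O] A :=
  φ.comp (MvPolynomial.coeToMvPowerSeries.algHom O)

theorem polyRestrict_apply (φ : MvPowerSeries σ O →ₐ[O] A) (p : MvPolynomial σ O) :
    polyRestrict φ p = φ (p : MvPowerSeries σ O) := by
  simp [polyRestrict, MvPolynomial.coeToMvPowerSeries.algHom_apply]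

theorem polyRestrict_eq_aeval (φ : MvPowerSeries σ O →ₐ[O] A) :
    polyRestrict φ = MvPolynomial.aeval fun i => φ (X i) := by
  apply MvPolynomial.algHom_ext
  intro i
  rw [polyRestrict_apply, MvPolynomial.coe_X, MvPolynomial.aeval_X]

theorem aeval_mem_of_mem_pow_idealOfVars (a : σ → A) (J : Ideal A) (ha : ∀ i, a i ∈ J) (n : ℕ)
    (r : MvPolynomial σ O) (hr : r ∈ MvPolynomial.idealOfVars σ O ^ n) :
    MvPolynomial.aeval a r ∈ J ^ n := by
  have h1 : Ideal.map (MvPolynomial.aeval a : MvPolynomial σ O →ₐ[O] A)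
      (MvPolynomial.idealOfVars σ O) ≤ J := by
    rw [MvPolynomial.idealOfVars, Ideal.map_span, Ideal.span_le]
    rintro _ ⟨_, ⟨i, rfl⟩, rfl⟩
    simpa using ha i
  have h2 := Ideal.mem_map_of_mem (MvPolynomial.aeval a : MvPolynomial σ O →ₐ[O] A) hr
  rw [Ideal.map_pow] at h2
  exact Ideal.pow_right_mono h1 n h2

/-- An algebra map out of the power series ring which sends the variables into an ideal `J`
with `J ^ n = 0` kills every power series without terms of degree `< n`. -/
theorem algHom_eq_zero_of_truncTotal_eq_zero (φ : MvPowerSeries σ O →ₐ[O] A) (J : Ideal A)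
    (hφ : ∀ i, φ (X i) ∈ J) (n : ℕ) (hJ : J ^ n = ⊥) (g : MvPowerSeries σ O)
    (hg : truncTotal n g = 0) : φ g = 0 := by
  let e := toAdicCompletionAlgEquiv σ O
  have h1 : e g ∈ LinearMap.ker
      (AdicCompletion.eval (MvPolynomial.idealOfVars σ O) (MvPolynomial σ O) n) := by
    rw [LinearMap.mem_ker, AdicCompletion.eval_apply]
    show (toAdicCompletion σ O g).val n = 0
    rw [toAdicCompletion_apply_eq_mk_truncTotal, hg]
    rfl
  rw [← AdicCompletion.pow_smul_top_eq_ker_eval (MvPolynomial.idealOfVars_fg σ O)] at h1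
  have key : ∀ x ∈ (MvPolynomial.idealOfVars σ O ^ n • ⊤ :
      Submodule (MvPolynomial σ O)
        (AdicCompletion (MvPolynomial.idealOfVars σ O) (MvPolynomial σ O))),
      φ (e.symm x) = 0 := by
    intro x hx
    refine Submodule.smul_induction_on (p := fun x => φ (e.symm x) = 0) hx ?_ ?_
    · intro r hr x _
      show φ (e.symm (r • x)) = 0
      rw [map_smul, Algebra.smul_def, map_mul]
      have h3 : φ (algebraMap (MvPolynomial σ O) (MvPowerSeries σ O) r) = polyRestrict φ r := rfl
      rw [h3, polyRestrict_eq_aeval]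
      have h4 := aeval_mem_of_mem_pow_idealOfVars (O := O) (fun i => φ (X i)) J hφ n r hr
      rw [hJ, Ideal.mem_bot] at h4
      rw [h4, zero_mul]
    · intro x y hx hy
      show φ (e.symm (x + y)) = 0
      rw [map_add, map_add, hx, hy, add_zero]
  have := key _ h1
  rwa [AlgEquiv.symm_apply_apply] at this

theorem truncTotal_sub_coe_truncTotal (n : ℕ) (f : MvPowerSeries σ O) :
    truncTotal n (f - ((truncTotal n f : MvPolynomial σ O) : MvPowerSeries σ O)) = 0 := by
  ext x
  rw [map_sub, MvPolynomial.coeff_sub, coeff_truncTotal_eq_ite, coeff_truncTotal_eq_ite,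
    MvPolynomial.coeff_coe, coeff_truncTotal_eq_ite]
  split_ifs <;> simp

/-- Algebra maps out of the power series ring into a ring where the images of the variables
are nilpotent (uniformly) are determined by the images of the variables. -/
theorem eval_unique (J : Ideal A) (n : ℕ) (hJ : J ^ n = ⊥)
    (φ ψ : MvPowerSeries σ O →ₐ[O] A) (hφ : ∀ i, φ (X i) ∈ J)
    (h : ∀ i, φ (X i) = ψ (X i)) : φ = ψ := by
  have hψ : ∀ i, ψ (X i) ∈ J := fun i => h i ▸ hφ i
  have hpoly : polyRestrict φ = polyRestrict ψ := by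
    rw [polyRestrict_eq_aeval, polyRestrict_eq_aeval]
    congr 1
    funext i
    exact h i
  ext f
  have hdec : f = (f - ((truncTotal n f : MvPolynomial σ O) : MvPowerSeries σ O)) +
      ((truncTotal n f : MvPolynomial σ O) : MvPowerSeries σ O) := by ring
  rw [hdec, map_add, map_add,
    algHom_eq_zero_of_truncTotal_eq_zero φ J hφ n hJ _ (truncTotal_sub_coe_truncTotal n f),
    algHom_eq_zero_of_truncTotal_eq_zero ψ J hψ n hJ _ (truncTotal_sub_coe_truncTotal n f),
    ← polyRestrict_apply, ← polyRestrict_apply, hpoly]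

/-- Existence of evaluation maps into rings where the prescribed images of the variables lie
in an ideal `J` with `J ^ n = 0`. -/
theorem exists_eval (J : Ideal A) (n : ℕ) (hJ : J ^ n = ⊥) (a : σ → A) (ha : ∀ i, a i ∈ J) :
    ∃ φ : MvPowerSeries σ O →ₐ[O] A, ∀ i, φ (X i) = a i := by
  have hker : ∀ r ∈ MvPolynomial.idealOfVars σ O ^ n,
      (MvPolynomial.aeval a : MvPolynomial σ O →ₐ[O] A) r = 0 := by
    intro r hr
    have := aeval_mem_of_mem_pow_idealOfVars (O := O) a J ha n r hr
    rwa [hJ, Ideal.mem_bot] at this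
  let lift : (MvPolynomial σ O ⧸ MvPolynomial.idealOfVars σ O ^ n) →ₐ[O] A :=
    Ideal.Quotient.liftₐ _ (MvPolynomial.aeval a) hker
  let tr : MvPowerSeries σ O →ₐ[O] (MvPolynomial σ O ⧸ MvPolynomial.idealOfVars σ O ^ n) :=
    (truncTotalAlgHom σ O n).restrictScalars O
  refine ⟨lift.comp tr, fun i => ?_⟩
  have h1 : tr (X i) = Ideal.Quotient.mk _ (MvPolynomial.X i) := by
    have := (truncTotalAlgHom σ O n).commutes (MvPolynomial.X i)
    have h2 : algebraMap (MvPolynomial σ O) (MvPowerSeries σ O) (MvPolynomial.X i) = X i := by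
      rw [MvPowerSeries.algebraMap_apply']
      simp
    rw [h2] at this
    exact this
  show lift (tr (X i)) = a i
  rw [h1]
  show (MvPolynomial.aeval a : MvPolynomial σ O →ₐ[O] A) (MvPolynomial.X i) = a i
  rw [MvPolynomial.aeval_X]

/-- The range of an evaluation map is the subalgebra generated by the images of the
variables. -/
theorem range_eq_adjoin (J : Ideal A) (n : ℕ) (hJ : J ^ n = ⊥) (φ : MvPowerSeries σ O →ₐ[O] A)
    (hφ : ∀ i, φ (X i) ∈ J) :
    φ.range = Algebra.adjoin O (Set.range fun i => φ (X i)) := by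
  apply le_antisymm
  · rintro _ ⟨f, rfl⟩
    have hdec : f = (f - ((truncTotal n f : MvPolynomial σ O) : MvPowerSeries σ O)) +
        ((truncTotal n f : MvPolynomial σ O) : MvPowerSeries σ O) := by ring
    show φ f ∈ _
    rw [hdec, map_add,
      algHom_eq_zero_of_truncTotal_eq_zero φ J hφ n hJ _ (truncTotal_sub_coe_truncTotal n f),
      zero_add, ← polyRestrict_apply, polyRestrict_eq_aeval, Algebra.adjoin_range_eq_range_aeval]
    exact ⟨_, rfl⟩
  · rw [Algebra.adjoin_le_iff]
    rintro _ ⟨i, rfl⟩
    exact ⟨X i, rfl⟩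

end Eval

section Chevalley

variable {S : Type*} [CommRing S] [IsLocalRing S]

/-- In a local ring with finite quotients `S ⧸ m ^ n`, a nonempty family of ideals closed
under intersection has a member which is smallest modulo `m ^ n`. -/
theorem exists_minimal_sup_pow (hfin : ∀ n, Finite (S ⧸ maximalIdeal S ^ n))
    (K : Set (Ideal S)) (hne : K.Nonempty) (hinf : ∀ a ∈ K, ∀ b ∈ K, a ⊓ b ∈ K) (n : ℕ) :
    ∃ a ∈ K, ∀ b ∈ K, a ⊔ maximalIdeal S ^ n ≤ b ⊔ maximalIdeal S ^ n := by
  haveI := hfin n
  haveI : IsArtinian S (S ⧸ maximalIdeal S ^ n) := isArtinian_of_finite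
  let F : Ideal S → Submodule S (S ⧸ maximalIdeal S ^ n) :=
    fun b => Submodule.map (Submodule.mkQ (maximalIdeal S ^ n)) b
  obtain ⟨M', ⟨a, haK, rfl⟩, hmin⟩ := IsArtinian.set_has_minimal (F '' K) (hne.image F)
  refine ⟨a, haK, fun b hbK => ?_⟩
  have h1 : F (a ⊓ b) ≤ F a := Submodule.map_mono inf_le_left
  have h2 : F (a ⊓ b) = F a :=
    eq_of_le_of_not_lt h1 (hmin _ ⟨a ⊓ b, hinf a haK b hbK, rfl⟩)
  have h3 : ∀ c : Ideal S, c ⊔ maximalIdeal S ^ n =
      Submodule.comap (Submodule.mkQ (maximalIdeal S ^ n)) (F c) := by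
    intro c
    rw [Submodule.comap_map_mkQ, sup_comm]
  rw [h3 a, ← h2, ← h3]
  exact sup_le_sup_right inf_le_right _

/-- Chevalley-type lemma: in a complete local ring with finite quotients `S ⧸ m ^ n`, a
nonempty family `K` of open ideals closed under intersection contains, for every `n`, a member
inside `sInf K ⊔ m ^ n`. -/
theorem exists_le_sInf_sup_pow [IsPrecomplete (maximalIdeal S) S]
    (hfin : ∀ n, Finite (S ⧸ maximalIdeal S ^ n))
    (K : Set (Ideal S)) (hne : K.Nonempty) (hinf : ∀ a ∈ K, ∀ b ∈ K, a ⊓ b ∈ K)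
    (hopen : ∀ a ∈ K, ∃ j, maximalIdeal S ^ j ≤ a) (n : ℕ) :
    ∃ a ∈ K, a ≤ sInf K ⊔ maximalIdeal S ^ n := by
  set m := maximalIdeal S with hm
  choose a haK hamin using exists_minimal_sup_pow hfin K hne hinf
  -- the ideals `Kn j = a j ⊔ m ^ j`
  let Kn : ℕ → Ideal S := fun j => a j ⊔ m ^ j
  have hKn_le : ∀ j, ∀ b ∈ K, Kn j ≤ b ⊔ m ^ j := fun j b hb => hamin j b hb
  have hKn_succ : ∀ j, Kn j ≤ Kn (j + 1) ⊔ m ^ j := by
    intro j
    have h1 : Kn j ≤ a (j + 1) ⊔ m ^ j := hKn_le j _ (haK (j + 1))
    exact h1.trans (sup_le_sup_right le_sup_left _)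
  refine ⟨a n, haK n, ?_⟩
  intro x hx
  have hx' : x ∈ Kn n := Ideal.mem_sup_left hx
  -- build the sequence
  have hstep : ∀ (i : ℕ) (y : {y : S // y ∈ Kn (n + i)}),
      ∃ z : {z : S // z ∈ Kn (n + i + 1)}, (y : S) - z ∈ m ^ (n + i) := by
    intro i y
    obtain ⟨z, hz, t, ht, hzt⟩ := Submodule.mem_sup.mp (hKn_succ (n + i) y.2)
    exact ⟨⟨z, hz⟩, by rw [← hzt]; simpa using ht⟩
  choose nxt hnxt using hstep
  let g : (i : ℕ) → {y : S // y ∈ Kn (n + i)} :=
    fun i => Nat.rec (motive := fun i => {y : S // y ∈ Kn (n + i)}) ⟨x, hx'⟩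
      (fun i y => nxt i y) i
  have hg0 : (g 0 : S) = x := rfl
  have hgs : ∀ i, (g i : S) - g (i + 1) ∈ m ^ (n + i) := fun i => hnxt i (g i)
  have hcauchy : ∀ i j, i ≤ j → (g i : S) - g j ∈ m ^ (n + i) := by
    intro i j hij
    induction j, hij using Nat.le_induction with
    | base => simp
    | succ j hij ih =>
      have h1 : (g j : S) - g (j + 1) ∈ m ^ (n + i) :=
        Ideal.pow_le_pow_right (by omega) (hgs j)
      have : (g i : S) - g (j + 1) = ((g i : S) - g j) + ((g j : S) - g (j + 1)) := by ring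
      rw [this]
      exact add_mem ih h1
  obtain ⟨y, hy⟩ := IsPrecomplete.prec' (I := m) (fun i => (g i : S)) (by
    intro i j hij
    rw [SModEq.sub_mem]
    simp only [smul_eq_mul, Ideal.mul_top]
    exact Ideal.pow_le_pow_right (by omega) (hcauchy i j hij))
  simp only [smul_eq_mul, Ideal.mul_top] at hy
  have hy' : ∀ i, (g i : S) - y ∈ m ^ i := fun i => SModEq.sub_mem.mp (hy i)
  have hyK : y ∈ sInf K := by
    rw [Ideal.mem_sInf]
    intro b hb
    obtain ⟨j, hj⟩ := hopen b hb
    have h1 : (g j : S) ∈ b := by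
      have h2 := hKn_le (n + j) b hb (g j).2
      have h3 : b ⊔ m ^ (n + j) ≤ b :=
        sup_le le_rfl ((Ideal.pow_le_pow_right (by omega)).trans hj)
      exact h3 h2
    have h4 : (g j : S) - y ∈ b := hj (hy' j)
    have : y = (g j : S) - ((g j : S) - y) := by ring
    rw [this]
    exact sub_mem h1 h4
  have hxy : x - y ∈ m ^ n := by
    have h1 : (g 0 : S) - g n ∈ m ^ n := by simpa using hcauchy 0 n (Nat.zero_le n)
    have h2 := hy' n
    have : x - y = ((g 0 : S) - g n) + ((g n : S) - y) := by rw [hg0]; ring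
    rw [this]
    exact add_mem h1 h2
  have : x = y + (x - y) := by ring
  rw [this]
  exact Submodule.add_mem_sup hyK hxy

end Chevalley

end Fermat.Agent.S53.PS

namespace Fermat.Agent.S53

/-- The range of an evaluation map out of a power series ring is the subalgebra generated by
the images of the variables (interface form of `PS.range_eq_adjoin`). -/
theorem eval_range {σ : Type} [Finite σ] {O : Type} [CommRing O] {A : Type} [CommRing A]
    [Algebra O A] (J : Ideal A) (n : ℕ) (hJ : J ^ n = ⊥) (φ : MvPowerSeries σ O →ₐ[O] A)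
    (hφ : ∀ i, φ (MvPowerSeries.X i) ∈ J) :
    φ.range = Algebra.adjoin O (Set.range fun i => φ (MvPowerSeries.X i)) :=
  PS.range_eq_adjoin J n hJ φ hφ

end Fermat.Agent.S53
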