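import Fermat.Agent.S53.MatDict
import Fermat.Agent.S53.PowerSeries

/-!
# S53, work package W5: test algebra toolkit

Finite-ness of Artinian test algebras, functoriality of rigid lifts, restriction of a rigid lift
to a subalgebra containing its entries, truncations of complete local algebras.
Helper lemmas live in `Fermat.Agent.S53.TA`.
-/

set_option autoImplicit false

noncomputable section

namespace Fermat.Agent.S53

open IsLocalRing

namespace TA

/-- The maximal ideal of an Artinian local ring is nilpotent. -/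
theorem exists_pow_maximalIdeal_eq_bot (A : Type*) [CommRing A] [IsLocalRing A]
    [IsArtinianRing A] : ∃ N : ℕ, maximalIdeal A ^ N = ⊥ := by
  have h := IsArtinianRing.isNilpotent_jacobson_bot (R := A)
  rw [IsLocalRing.jacobson_eq_maximalIdeal ⊥ bot_ne_top] at h
  exact h

/-- An injective ring homomorphism out of a finite commutative ring reflects units. -/
theorem isLocalHom_of_injective_of_finite {P Q : Type*} [CommRing P] [CommRing Q] [Finite P]
    (ψ : P →+* Q) (hψ : Function.Injective ψ) : IsLocalHom ψ := by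
  constructor
  intro x hx
  rw [isUnit_iff_mem_nonZeroDivisors_of_finite]
  exact mem_nonZeroDivisors_of_injective hψ hx.mem_nonZeroDivisors

/-- A matrix-valued homomorphism that is continuous over an Artinian local ring factors through
a finite level. -/
theorem exists_level {A : Type} [CommRing A] [IsLocalRing A] [IsArtinianRing A]
    {r : Gal →* M2 A} (hr : MatCont r) :
    ∃ L : IntermediateField ℚ (AlgebraicClosure ℚ), FiniteDimensional ℚ L ∧
      ∀ σ : Gal, (∀ x ∈ L, σ x = x) → r σ = 1 := by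
  obtain ⟨N, hN⟩ := exists_pow_maximalIdeal_eq_bot A
  obtain ⟨L, hL, h⟩ := hr N
  refine ⟨L, hL, fun σ hσ => ?_⟩
  rw [← sub_eq_zero]
  ext i j
  have := h σ hσ i j
  rwa [hN, Ideal.mem_bot] at this

/-- A matrix-valued homomorphism factoring through a finite level is continuous. -/
theorem matCont_of_level {A : Type} [CommRing A] [IsLocalRing A] {r : Gal →* M2 A}
    (h : ∃ L : IntermediateField ℚ (AlgebraicClosure ℚ), FiniteDimensional ℚ L ∧
      ∀ σ : Gal, (∀ x ∈ L, σ x = x) → r σ = 1) : MatCont r := by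
  obtain ⟨L, hL, h⟩ := h
  intro n
  refine ⟨L, hL, fun σ hσ i j => ?_⟩
  rw [h σ hσ, sub_self]
  exact zero_mem _

/-- Transport of a deformation condition along an equality of matrix-valued homomorphisms. -/
theorem D_congr {𝒪 : Type} [CommRing 𝒪] [IsLocalRing 𝒪]
    {𝒟 : ∀ ⦃A : Type⦄ [CommRing A] [IsLocalRing A] [Algebra 𝒪 A], GaloisRepAdic A → Prop}
    {A : Type} [CommRing A] [IsLocalRing A] [Algebra 𝒪 A] {r r' : Gal →* M2 A} (h : r = r')
    (hr : MatCont r) (hr' : MatCont r') (hD : 𝒟 (ofMat r hr)) : 𝒟 (ofMat r' hr') := by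
  subst h
  exact hD

/-- A matrix-valued homomorphism into a ring `T` from its entrywise images under two jointly
injective ring homomorphisms. -/
def liftMat {T A A' : Type} [CommRing T] [CommRing A] [CommRing A'] (p : T →+* A)
    (p' : T →+* A') (hinj : ∀ x y : T, p x = p y → p' x = p' y → x = y) (r : Gal →* M2 A)
    (r' : Gal →* M2 A') (e : Gal → M2 T) (he : ∀ g i j, p (e g i j) = r g i j)
    (he' : ∀ g i j, p' (e g i j) = r' g i j) : Gal →* M2 T where
  toFun := e
  map_one' := by
    ext i j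
    apply hinj
    · rw [he, map_one, Matrix.one_apply, Matrix.one_apply]
      split_ifs <;> simp
    · rw [he', map_one, Matrix.one_apply, Matrix.one_apply]
      split_ifs <;> simp
  map_mul' g h := by
    ext i j
    apply hinj
    · rw [he, map_mul, Matrix.mul_apply, Matrix.mul_apply, map_sum]
      exact Finset.sum_congr rfl fun k _ => by rw [map_mul, he, he]
    · rw [he', map_mul, Matrix.mul_apply, Matrix.mul_apply, map_sum]
      exact Finset.sum_congr rfl fun k _ => by rw [map_mul, he', he']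

@[simp] theorem liftMat_apply {T A A' : Type} [CommRing T] [CommRing A] [CommRing A']
    (p : T →+* A) (p' : T →+* A') (hinj : ∀ x y : T, p x = p y → p' x = p' y → x = y)
    (r : Gal →* M2 A) (r' : Gal →* M2 A') (e : Gal → M2 T)
    (he : ∀ g i j, p (e g i j) = r g i j) (he' : ∀ g i j, p' (e g i j) = r' g i j) (g : Gal) :
    liftMat p p' hinj r r' e he he' g = e g := rfl

theorem mapMat_liftMat {T A A' : Type} [CommRing T] [CommRing A] [CommRing A']
    (p : T →+* A) (p' : T →+* A') (hinj : ∀ x y : T, p x = p y → p' x = p' y → x = y)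
    (r : Gal →* M2 A) (r' : Gal →* M2 A') (e : Gal → M2 T)
    (he : ∀ g i j, p (e g i j) = r g i j) (he' : ∀ g i j, p' (e g i j) = r' g i j) :
    mapMat p (liftMat p p' hinj r r' e he he') = r := by
  ext g i j
  rw [mapMat_apply, liftMat_apply, he]

theorem mapMat_liftMat' {T A A' : Type} [CommRing T] [CommRing A] [CommRing A']
    (p : T →+* A) (p' : T →+* A') (hinj : ∀ x y : T, p x = p y → p' x = p' y → x = y)
    (r : Gal →* M2 A) (r' : Gal →* M2 A') (e : Gal → M2 T)
    (he : ∀ g i j, p (e g i j) = r g i j) (he' : ∀ g i j, p' (e g i j) = r' g i j) :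
    mapMat p' (liftMat p p' hinj r r' e he he') = r' := by
  ext g i j
  rw [mapMat_apply, liftMat_apply, he']

section

variable {𝒪 : Type} [CommRing 𝒪]

/-- A finite local `𝒪`-algebra with a `𝒪`-algebra homomorphism to a test algebra is a
test algebra. -/
theorem testAlgebra_of_isLocalHom {P A : Type} [CommRing P] [IsLocalRing P] [Algebra 𝒪 P]
    [Finite P] [CommRing A] [IsLocalRing A] [Algebra 𝒪 A]
    (hA : GaloisRep.IsArtinianTestAlgebra 𝒪 A) (φ : P →ₐ[𝒪] A) :
    GaloisRep.IsArtinianTestAlgebra 𝒪 P where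
  isLocalHom := by
    constructor
    intro c hc
    have h1 : IsUnit (algebraMap 𝒪 A c) := by
      rw [← φ.commutes c]
      exact hc.map φ
    exact hA.isLocalHom.map_nonunit c h1
  residue_surjective := by
    intro y
    obtain ⟨x, rfl⟩ := residue_surjective y
    obtain ⟨c, hc⟩ := hA.residue_surjective (residue A (φ x))
    refine ⟨c, ?_⟩
    rw [Function.comp_apply] at hc ⊢
    rw [← sub_eq_zero, ← map_sub, residue_eq_zero_iff] at hc ⊢
    rw [mem_maximalIdeal, mem_nonunits_iff] at hc ⊢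
    intro hu
    apply hc
    have := hu.map φ
    rwa [map_sub, φ.commutes] at this
  isArtinian := isArtinian_of_finite

/-- The quotient of a local ring by a proper ideal is local. -/
theorem quotient_isLocalRing {A : Type*} [CommRing A] [IsLocalRing A] (I : Ideal A)
    (hI : I ≠ ⊤) : IsLocalRing (A ⧸ I) := by
  have : Nontrivial (A ⧸ I) := Ideal.Quotient.nontrivial_iff.mpr hI
  exact IsLocalRing.of_surjective' (Ideal.Quotient.mk I) Ideal.Quotient.mk_surjective

/-- The quotient map of a local ring by a proper ideal reflects units. -/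
theorem quotient_mk_isLocalHom {A : Type*} [CommRing A] [IsLocalRing A] (I : Ideal A)
    (hI : I ≠ ⊤) : IsLocalHom (Ideal.Quotient.mk I) := by
  have hle : I ≤ maximalIdeal A := IsLocalRing.le_maximalIdeal hI
  constructor
  intro a ha
  by_contra hna
  have ha' : a ∈ maximalIdeal A := (mem_maximalIdeal a).mpr hna
  obtain ⟨b, hb⟩ := ha.exists_right_inv
  obtain ⟨b', rfl⟩ := Ideal.Quotient.mk_surjective b
  rw [← map_mul, ← map_one (Ideal.Quotient.mk I), Ideal.Quotient.eq] at hb
  have h1 : (1 : A) ∈ maximalIdeal A := by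
    have h2 := (maximalIdeal A).sub_mem ((maximalIdeal A).mul_mem_right b' ha') (hle hb)
    simp at h2
  exact (Ideal.ne_top_iff_one _).mp (Ideal.IsMaximal.ne_top inferInstance) h1

/-- Quotients of a noetherian local `𝒪`-algebra with residue field generated by `𝒪` by an open
proper ideal are test algebras. -/
theorem quotient_testAlgebra {A : Type} [CommRing A] [IsLocalRing A] [IsNoetherianRing A]
    [Algebra 𝒪 A] [IsLocalHom (algebraMap 𝒪 A)]
    (hsurj : Function.Surjective (residue A ∘ algebraMap 𝒪 A)) (I : Ideal A) (hI : I ≠ ⊤)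
    (N : ℕ) (hN : maximalIdeal A ^ N ≤ I) [IsLocalRing (A ⧸ I)] :
    GaloisRep.IsArtinianTestAlgebra 𝒪 (A ⧸ I) := by
  have hmk : IsLocalHom (Ideal.Quotient.mk I) := quotient_mk_isLocalHom I hI
  refine ⟨?_, ?_, ?_⟩
  · constructor
    intro c hc
    have h1 : IsUnit (algebraMap 𝒪 A c) := hmk.map_nonunit _ hc
    exact isUnit_of_map_unit (algebraMap 𝒪 A) c h1
  · intro y
    obtain ⟨q, rfl⟩ := residue_surjective y
    obtain ⟨a, rfl⟩ := Ideal.Quotient.mk_surjective q
    obtain ⟨c, hc⟩ := hsurj (residue A a)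
    refine ⟨c, ?_⟩
    rw [Function.comp_apply] at hc ⊢
    rw [← sub_eq_zero, ← map_sub, residue_eq_zero_iff] at hc ⊢
    have h2 : algebraMap 𝒪 (A ⧸ I) c - Ideal.Quotient.mk I a =
        Ideal.Quotient.mk I (algebraMap 𝒪 A c - a) := by
      rw [map_sub]; rfl
    rw [h2]
    exact map_nonunit (Ideal.Quotient.mk I) _ hc
  · rw [isArtinianRing_iff_isNilpotent_maximalIdeal]
    refine ⟨N, ?_⟩
    have hle : maximalIdeal (A ⧸ I) ≤ (maximalIdeal A).map (Ideal.Quotient.mk I) := by
      intro y hy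
      obtain ⟨a, rfl⟩ := Ideal.Quotient.mk_surjective y
      apply Ideal.mem_map_of_mem
      rw [mem_maximalIdeal, mem_nonunits_iff] at hy ⊢
      exact fun hu => hy (hu.map _)
    rw [Ideal.zero_eq_bot, eq_bot_iff]
    calc maximalIdeal (A ⧸ I) ^ N ≤ ((maximalIdeal A).map (Ideal.Quotient.mk I)) ^ N :=
          Ideal.pow_right_mono hle N
      _ = (maximalIdeal A ^ N).map (Ideal.Quotient.mk I) := (Ideal.map_pow _ _ _).symm
      _ ≤ I.map (Ideal.Quotient.mk I) := Ideal.map_mono hN
      _ = ⊥ := Ideal.map_quotient_self I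

end

end TA

section W5

variable {𝒪 : Type} [CommRing 𝒪] [IsLocalRing 𝒪] {ρbar : ResidualGaloisRep (ResidueField 𝒪)}
  (Rd : RigidData 𝒪 ρbar)
  {𝒟 : ∀ ⦃A : Type⦄ [CommRing A] [IsLocalRing A] [Algebra 𝒪 A], GaloisRepAdic A → Prop}

theorem finite_of_testAlgebra [Finite (ResidueField 𝒪)] {A : Type} [CommRing A] [IsLocalRing A]
    [Algebra 𝒪 A] (hA : GaloisRep.IsArtinianTestAlgebra 𝒪 A) : Finite A := by
  have := hA.isArtinian
  have := hA.isLocalHom
  have : Finite (ResidueField A) := PS.finite_residueField_of_surjective hA.residue_surjective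
  obtain ⟨N, hN⟩ := TA.exists_pow_maximalIdeal_eq_bot A
  have h1 : Finite (A ⧸ maximalIdeal A ^ N) := PS.finite_quotient_maximalIdeal_pow_of_finite N
  rw [hN] at h1
  exact Finite.of_equiv _ (RingEquiv.quotientBot A).toEquiv

theorem IsRigid.map {A B : Type} [CommRing A] [IsLocalRing A] [Algebra 𝒪 A] [CommRing B]
    [IsLocalRing B] [Algebra 𝒪 B] {r : Gal →* M2 A} (hr : IsRigid Rd r) (φ : A →ₐ[𝒪] B)
    (hφ : IsLocalHom (φ : A →+* B)) : IsRigid Rd (mapMat (φ : A →+* B) r) where
  cont := hr.cont.map _ hφ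
  res := by
    intro g i j c hc
    have h1 := hr.res g i j c hc
    have h2 := map_nonunit (φ : A →+* B) _ h1
    rw [mapMat_apply]
    rw [map_sub] at h2
    have h3 : (φ : A →+* B) (algebraMap 𝒪 A c) = algebraMap 𝒪 B c := φ.commutes c
    rwa [h3] at h2
  c00 := by rw [mapMat_apply, hr.c00, map_zero]
  c10 := by rw [mapMat_apply, hr.c10, map_one]
  c1 := by rw [mapMat_apply, hr.c1]; exact φ.commutes _

theorem IsRigidD.map (h𝒟 : GaloisRep.IsDeformationCondition 𝒪 𝒟) {A B : Type} [CommRing A]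
    [IsLocalRing A] [Algebra 𝒪 A] [CommRing B] [IsLocalRing B] [Algebra 𝒪 B]
    (hA : GaloisRep.IsArtinianTestAlgebra 𝒪 A) (hB : GaloisRep.IsArtinianTestAlgebra 𝒪 B)
    {r : Gal →* M2 A} (hr : IsRigidD Rd 𝒟 r) (φ : A →ₐ[𝒪] B) (hφ : IsLocalHom (φ : A →+* B)) :
    IsRigidD Rd 𝒟 (mapMat (φ : A →+* B) r) := by
  obtain ⟨h, hD⟩ := hr
  refine ⟨h.map Rd φ hφ, ?_⟩
  have h1 := h𝒟.baseChangeAlong hA hB φ hφ hD
  exact h𝒟.of_isEquiv hB (ofMat_baseChangeAlong_isEquiv _ hφ r h.cont _) h1

/-- Restriction of a rigid lift of type `𝒟` to a subalgebra containing all its entries. -/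
theorem exists_restrict [Finite (ResidueField 𝒪)] (h𝒟 : GaloisRep.IsDeformationCondition 𝒪 𝒟)
    {A : Type} [CommRing A] [IsLocalRing A] [Algebra 𝒪 A]
    (hA : GaloisRep.IsArtinianTestAlgebra 𝒪 A) (r : Gal →* M2 A) (hr : IsRigidD Rd 𝒟 r)
    (B : Subalgebra 𝒪 A) (hB : ∀ g i j, r g i j ∈ B) :
    ∃ (_ : IsLocalRing B) (_ : GaloisRep.IsArtinianTestAlgebra 𝒪 B) (rB : Gal →* M2 B),
      IsRigidD Rd 𝒟 rB ∧ mapMat (B.val : B →+* A) rB = r := by
  have hfinA : Finite A := finite_of_testAlgebra hA
  have hfinB : Finite B := Finite.of_injective (B.val) Subtype.val_injective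
  have hinjv : Function.Injective (B.val : B →+* A) := Subtype.val_injective
  have hval : IsLocalHom (B.val : B →+* A) := TA.isLocalHom_of_injective_of_finite _ hinjv
  have hloc : IsLocalRing B := RingHom.domain_isLocalRing (B.val : B →+* A)
  have htest : GaloisRep.IsArtinianTestAlgebra 𝒪 B := TA.testAlgebra_of_isLocalHom hA B.val
  have hartA : IsArtinianRing A := hA.isArtinian
  obtain ⟨h, hD⟩ := hr
  let rB : Gal →* M2 B := TA.liftMat (B.val : B →+* A) (B.val : B →+* A)
    (fun x y hxy _ => hinjv hxy) r r (fun g => Matrix.of fun i j => ⟨r g i j, hB g i j⟩)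
    (fun g i j => rfl) (fun g i j => rfl)
  have hmap : mapMat (B.val : B →+* A) rB = r := TA.mapMat_liftMat _ _ _ _ _ _ _ _
  have hentry : ∀ g i j, ((rB g i j : B) : A) = r g i j := fun g i j => rfl
  obtain ⟨L, hL, hfix⟩ := TA.exists_level h.cont
  have hcontB : MatCont rB := by
    refine TA.matCont_of_level ⟨L, hL, fun σ hσ => ?_⟩
    ext i j
    rw [hentry, hfix σ hσ, Matrix.one_apply, Matrix.one_apply]
    split_ifs <;> simp
  have hrigB : IsRigid Rd rB :=
    { cont := hcontB
      res := by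
        intro g i j c hc
        have h1 := h.res g i j c hc
        rw [mem_maximalIdeal, mem_nonunits_iff] at h1 ⊢
        intro hu
        apply h1
        have h2 := hu.map (B.val : B →+* A)
        rw [map_sub] at h2
        exact h2
      c00 := by
        apply hinjv
        have h1 : (B.val : B →+* A) (rB Rd.g0 0 0) = r Rd.g0 0 0 := rfl
        rw [h1, h.c00, map_zero]
      c10 := by
        apply hinjv
        have h1 : (B.val : B →+* A) (rB Rd.g0 1 0) = r Rd.g0 1 0 := rfl
        rw [h1, h.c10, map_one]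
      c1 := by
        apply hinjv
        have h1 : (B.val : B →+* A) (rB Rd.g1 Rd.i0 Rd.j0) = r Rd.g1 Rd.i0 Rd.j0 := rfl
        rw [h1, h.c1]
        rfl }
  refine ⟨hloc, htest, rB, ⟨hrigB, ?_⟩, hmap⟩
  apply h𝒟.of_baseChangeAlong_injective htest hA B.val hval hinjv
  have hc' : MatCont (mapMat (B.val : B →+* A) rB) := hcontB.map _ hval
  obtain ⟨e'⟩ := ofMat_baseChangeAlong_isEquiv (B.val : B →+* A) hval rB hcontB hc'
  refine h𝒟.of_isEquiv hA ⟨e'.symm⟩ ?_
  exact TA.D_congr hmap.symm h.cont hc' hD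

/-- Truncations of a complete noetherian local `𝒪`-algebra are test algebras. -/
theorem quotient_pow_testAlgebra {A : Type} [CommRing A] [IsLocalRing A] [IsNoetherianRing A]
    [Algebra 𝒪 A] [IsLocalHom (algebraMap 𝒪 A)]
    (hsurj : Function.Surjective (residue A ∘ algebraMap 𝒪 A)) (n : ℕ) :
    ∃ (_ : IsLocalRing (A ⧸ maximalIdeal A ^ (n + 1))),
      GaloisRep.IsArtinianTestAlgebra 𝒪 (A ⧸ maximalIdeal A ^ (n + 1)) ∧
      IsLocalHom (Ideal.Quotient.mk (maximalIdeal A ^ (n + 1))) := by
  have hne : maximalIdeal A ^ (n + 1) ≠ ⊤ := by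
    intro h
    have h1 : maximalIdeal A ^ (n + 1) ≤ maximalIdeal A := Ideal.pow_le_self (by omega)
    rw [h] at h1
    exact (Ideal.IsMaximal.ne_top inferInstance) (top_le_iff.mp h1)
  have hloc : IsLocalRing (A ⧸ maximalIdeal A ^ (n + 1)) := TA.quotient_isLocalRing _ hne
  exact ⟨hloc, TA.quotient_testAlgebra hsurj _ hne (n + 1) le_rfl, TA.quotient_mk_isLocalHom _ hne⟩

end W5

end Fermat.Agent.S53

end
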