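import Fermat.Agent.S53.DualHoms
import Fermat.Agent.S53.TestAlg
import Fermat.Agent.S53.Tangent

/-!
# S53, W8: the distinguished coordinates generate

For a rigid lift `r` of type `𝒟` over an Artinian test algebra, every matrix entry `r g i j`
lies in the `𝒪`-subalgebra generated by the coordinates `coord Td r s`.
-/

set_option autoImplicit false
set_option linter.style.haveILetI false

noncomputable section

namespace Fermat.Agent.S53

open IsLocalRing

variable {𝒪 : Type} [CommRing 𝒪] [IsLocalRing 𝒪] {ρbar : ResidualGaloisRep (ResidueField 𝒪)}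
  {Rd : RigidData 𝒪 ρbar}
  {𝒟 : ∀ ⦃A : Type⦄ [CommRing A] [IsLocalRing A] [Algebra 𝒪 A], GaloisRepAdic A → Prop}

/-- If the entries of a rigid lift of type `𝒟` generate the test algebra, then so do its
coordinates. -/
theorem gen_of_adjoin_eq_top (h𝒟 : GaloisRep.IsDeformationCondition 𝒪 𝒟)
    (Td : TangentData Rd 𝒟) {A : Type} [CommRing A] [IsLocalRing A] [Algebra 𝒪 A]
    (hA : GaloisRep.IsArtinianTestAlgebra 𝒪 A) (r : Gal →* M2 A) (hr : IsRigidD Rd 𝒟 r)
    (htop : Algebra.adjoin 𝒪 {a : A | ∃ g i j, r g i j = a} = ⊤) :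
    Algebra.adjoin 𝒪 (Set.range (coord Td r)) = ⊤ := by
  by_contra hne
  letI := dualAlg 𝒪
  obtain ⟨ψ, ψ', hψ, hψ', hagree, hneq⟩ := exists_dualNumber_homs_of_testAlgebra hA _ hne
  have hD := dual_testAlgebra 𝒪
  have h1 : IsRigidD Rd 𝒟 (mapMat (ψ : A →+* DualNumber (ResidueField 𝒪)) r) :=
    IsRigidD.map Rd h𝒟 hA hD hr ψ hψ
  have h2 : IsRigidD Rd 𝒟 (mapMat (ψ' : A →+* DualNumber (ResidueField 𝒪)) r) :=
    IsRigidD.map Rd h𝒟 hA hD hr ψ' hψ'
  have h3 : mapMat (ψ : A →+* DualNumber (ResidueField 𝒪)) r =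
      mapMat (ψ' : A →+* DualNumber (ResidueField 𝒪)) r := by
    apply Td.sep _ _ h1 h2
    intro s
    have hc : coord Td r s ∈ Algebra.adjoin 𝒪 (Set.range (coord Td r)) :=
      Algebra.subset_adjoin ⟨s, rfl⟩
    have h4 := hagree _ hc
    have e : r (Td.h s) (Td.i s) (Td.j s) = coord Td r s + algebraMap 𝒪 A (Td.ν s) := by
      simp [coord]
    rw [mapMat_apply, mapMat_apply, e]
    show ψ (coord Td r s + algebraMap 𝒪 A (Td.ν s)) = ψ' (coord Td r s + algebraMap 𝒪 A (Td.ν s))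
    rw [map_add, map_add, h4, AlgHom.commutes, AlgHom.commutes]
  apply hneq
  apply AlgHom.ext_of_adjoin_eq_top htop
  rintro _ ⟨g, i, j, rfl⟩
  have h5 := congrFun (congrFun (DFunLike.congr_fun h3 g) i) j
  rw [mapMat_apply, mapMat_apply] at h5
  exact h5

/-- **GEN.** Every entry of a rigid lift of type `𝒟` over an Artinian test algebra lies in the
`𝒪`-subalgebra generated by its coordinates. -/
theorem gen [Finite (ResidueField 𝒪)] (h𝒟 : GaloisRep.IsDeformationCondition 𝒪 𝒟)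
    (Td : TangentData Rd 𝒟) {A : Type} [CommRing A] [IsLocalRing A] [Algebra 𝒪 A]
    (hA : GaloisRep.IsArtinianTestAlgebra 𝒪 A) (r : Gal →* M2 A) (hr : IsRigidD Rd 𝒟 r)
    (g : Gal) (i j : Fin 2) : r g i j ∈ Algebra.adjoin 𝒪 (Set.range (coord Td r)) := by
  obtain ⟨B, hBdef⟩ : ∃ B : Subalgebra 𝒪 A,
      B = Algebra.adjoin 𝒪 {a : A | ∃ g i j, r g i j = a} := ⟨_, rfl⟩
  have hB : ∀ g i j, r g i j ∈ B := fun g i j => by
    rw [hBdef]
    exact Algebra.subset_adjoin ⟨g, i, j, rfl⟩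
  obtain ⟨_, hBt, rB, hrB, hmap⟩ := exists_restrict Rd h𝒟 hA r hr B hB
  have hval : ∀ g i j, ((rB g i j : B) : A) = r g i j := by
    intro g i j
    exact congrFun (congrFun (DFunLike.congr_fun hmap g) i) j
  have hset : {b : B | ∃ g i j, rB g i j = b} =
      ((↑) : B → A) ⁻¹' {a : A | ∃ g i j, r g i j = a} := by
    ext b
    constructor
    · rintro ⟨g, i, j, rfl⟩
      exact ⟨g, i, j, (hval g i j).symm⟩
    · rintro ⟨g, i, j, h⟩
      exact ⟨g, i, j, Subtype.ext ((hval g i j).trans h)⟩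
  have htop : Algebra.adjoin 𝒪 {b : B | ∃ g i j, rB g i j = b} = ⊤ := by
    rw [hset]
    subst hBdef
    exact Algebra.adjoin_adjoin_coe_preimage
  have key := gen_of_adjoin_eq_top h𝒟 Td hBt rB hrB htop
  have hmem : rB g i j ∈ Algebra.adjoin 𝒪 (Set.range (coord Td rB)) := by
    rw [key]
    exact Algebra.mem_top
  have hmapadj : (Algebra.adjoin 𝒪 (Set.range (coord Td rB))).map B.val =
      Algebra.adjoin 𝒪 (Set.range (coord Td r)) := by
    rw [AlgHom.map_adjoin, ← Set.range_comp]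
    congr 2
    funext s
    show ((coord Td rB s : B) : A) = coord Td r s
    simp only [coord]
    rw [← hval]
    rfl
  rw [← hval g i j, ← hmapadj]
  exact ⟨_, hmem, rfl⟩

end Fermat.Agent.S53

end
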