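import Fermat.Agent.S53.Defs

/-!
# S53, work package W3: normal-form data from absolute irreducibility

`exists_rigidData`: an absolutely irreducible residual representation has a matrix form in which
some `rbar g0` is a companion matrix, some commutator `[rbar g0, rbar g1]` has a non-zero entry,
and Schur's lemma holds.
-/

set_option autoImplicit false

noncomputable section

namespace Fermat.Agent.S53

open IsLocalRing
open scoped TensorProduct

section W3

variable {k : Type} [Field k]

/-- Schur's lemma over the algebraic closure, module form. -/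
theorem rde_schur_module (ρ : ResidualGaloisRep k) (habs : ρ.IsAbsolutelyIrreducible)
    (T : Module.End (AlgebraicClosure k) (AlgebraicClosure k ⊗[k] ρ.V))
    (hT : ∀ σ : Gal, T ∘ₗ (ρ.ρ σ).baseChange (AlgebraicClosure k) =
      (ρ.ρ σ).baseChange (AlgebraicClosure k) ∘ₗ T) :
    ∃ c : AlgebraicClosure k, ∀ x, T x = c • x := by
  have : Nontrivial (AlgebraicClosure k ⊗[k] ρ.V) := by
    apply Module.nontrivial_of_finrank_pos (R := AlgebraicClosure k)
    rw [Module.finrank_baseChange, ρ.finrank_eq]
    norm_num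
  obtain ⟨c, hc⟩ := Module.End.exists_eigenvalue T
  refine ⟨c, ?_⟩
  have hW := habs (Module.End.eigenspace T c) (by
    intro σ x hx
    rw [Module.End.mem_eigenspace_iff] at hx ⊢
    show T ((ρ.ρ σ).baseChange (AlgebraicClosure k) x) =
      c • (ρ.ρ σ).baseChange (AlgebraicClosure k) x
    have h1 := LinearMap.congr_fun (hT σ) x
    rw [LinearMap.comp_apply, LinearMap.comp_apply] at h1
    rw [h1, hx, map_smul])
  rcases hW with h | h
  · exact absurd h hc
  · intro x
    have hx : x ∈ Module.End.eigenspace T c := h ▸ Submodule.mem_top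
    exact Module.End.mem_eigenspace_iff.mp hx

/-- Schur's lemma for matrices over the ground field commuting with a matrix form. -/
theorem rde_schur_matrix (ρ : ResidualGaloisRep k) (habs : ρ.IsAbsolutelyIrreducible)
    (b : Module.Basis (Fin 2) k ρ.V) (γ : M2 k)
    (hγ : ∀ g : Gal, γ * LinearMap.toMatrix b b (ρ.ρ g) = LinearMap.toMatrix b b (ρ.ρ g) * γ) :
    ∃ c : k, γ = c • (1 : M2 k) := by
  set T0 : Module.End k ρ.V := Matrix.toLin b b γ with hT0
  have hcomm : ∀ g : Gal, T0 ∘ₗ ρ.ρ g = ρ.ρ g ∘ₗ T0 := by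
    intro g
    apply (LinearMap.toMatrix b b).injective
    rw [LinearMap.toMatrix_comp b b b, LinearMap.toMatrix_comp b b b, hT0,
      LinearMap.toMatrix_toLin]
    exact hγ g
  obtain ⟨c, hc⟩ := rde_schur_module ρ habs (T0.baseChange (AlgebraicClosure k)) (by
    intro σ
    rw [← LinearMap.baseChange_comp, ← LinearMap.baseChange_comp, hcomm])
  have hmat : γ.map (algebraMap k (AlgebraicClosure k)) = c • (1 : M2 (AlgebraicClosure k)) := by
    have h1 := LinearMap.toMatrix_baseChange (AlgebraicClosure k) T0 b b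
    rw [hT0, LinearMap.toMatrix_toLin] at h1
    rw [← h1]
    ext i j
    rw [LinearMap.toMatrix_apply, hc, map_smul]
    simp [Matrix.one_apply, Finsupp.single_apply, eq_comm]
  have hinj := (algebraMap k (AlgebraicClosure k)).injective
  have h01 : γ 0 1 = 0 := hinj (by
    have := congrFun (congrFun hmat 0) 1
    simpa using this)
  have h10 : γ 1 0 = 0 := hinj (by
    have := congrFun (congrFun hmat 1) 0
    simpa using this)
  have h11 : γ 1 1 = γ 0 0 := hinj (by
    have h0 := congrFun (congrFun hmat 0) 0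
    have h1 := congrFun (congrFun hmat 1) 1
    simp at h0 h1
    rw [h0, h1])
  refine ⟨γ 0 0, ?_⟩
  ext i j
  fin_cases i <;> fin_cases j <;> simp [h01, h10, h11]

/-- Some group element acts non-scalarly: there is a cyclic basis. -/
theorem rde_exists_cyclic (ρ : ResidualGaloisRep k) (habs : ρ.IsAbsolutelyIrreducible) :
    ∃ (g0 : Gal) (b : Module.Basis (Fin 2) k ρ.V), ρ.ρ g0 (b 0) = b 1 := by
  classical
  by_contra hcon
  push Not at hcon
  let e : Module.Basis (Fin 2) k ρ.V := Module.finBasisOfFinrankEq k ρ.V ρ.finrank_eq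
  have he0 : e 0 ≠ 0 := e.ne_zero 0
  have hw0 : ((1 : AlgebraicClosure k) ⊗ₜ[k] e 0 : AlgebraicClosure k ⊗[k] ρ.V) ≠ 0 := by
    rw [← Algebra.TensorProduct.basis_apply (A := AlgebraicClosure k) e 0]
    exact (Algebra.TensorProduct.basis (AlgebraicClosure k) e).ne_zero 0
  have hstab : ∀ σ : Gal, ∃ a : k, a • e 0 = ρ.ρ σ (e 0) := by
    intro σ
    by_contra hne
    push Not at hne
    have hli : LinearIndependent k ![e 0, ρ.ρ σ (e 0)] :=
      (LinearIndependent.pair_iff' he0).mpr hne
    have hcard : Fintype.card (Fin 2) = Module.finrank k ρ.V := by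
      rw [ρ.finrank_eq, Fintype.card_fin]
    refine hcon σ (basisOfLinearIndependentOfCardEqFinrank hli hcard) ?_
    rw [coe_basisOfLinearIndependentOfCardEqFinrank]
    rfl
  have hW := habs (Submodule.span (AlgebraicClosure k)
      {((1 : AlgebraicClosure k) ⊗ₜ[k] e 0 : AlgebraicClosure k ⊗[k] ρ.V)}) (by
    intro σ x hx
    obtain ⟨a, rfl⟩ := Submodule.mem_span_singleton.mp hx
    obtain ⟨a', ha'⟩ := hstab σ
    show (ρ.ρ σ).baseChange (AlgebraicClosure k) (a • (1 : AlgebraicClosure k) ⊗ₜ[k] e 0) ∈ _
    rw [map_smul, LinearMap.baseChange_tmul, ← ha', TensorProduct.tmul_smul]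
    refine Submodule.smul_mem _ _ ?_
    rw [← algebraMap_smul (AlgebraicClosure k) a']
    exact Submodule.smul_mem _ _ (Submodule.mem_span_singleton_self _))
  rcases hW with h | h
  · rw [Submodule.span_singleton_eq_bot] at h
    exact hw0 h
  · have h1 : Module.finrank (AlgebraicClosure k) (Submodule.span (AlgebraicClosure k)
        {((1 : AlgebraicClosure k) ⊗ₜ[k] e 0 : AlgebraicClosure k ⊗[k] ρ.V)}) = 1 :=
      finrank_span_singleton hw0
    rw [h, finrank_top, Module.finrank_baseChange, ρ.finrank_eq] at h1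
    norm_num at h1

end W3

theorem exists_rigidData {𝒪 : Type} [CommRing 𝒪] [IsLocalRing 𝒪]
    (ρbar : ResidualGaloisRep (ResidueField 𝒪)) (habs : ρbar.IsAbsolutelyIrreducible) :
    Nonempty (RigidData 𝒪 ρbar) := by
  classical
  obtain ⟨g0, b, hb⟩ := rde_exists_cyclic ρbar habs
  -- the matrix form
  let rbar : Gal →* M2 (ResidueField 𝒪) :=
    ((LinearMap.toMatrixAlgEquiv b : Module.End (ResidueField 𝒪) ρbar.V ≃ₐ[ResidueField 𝒪] _) :
      Module.End (ResidueField 𝒪) ρbar.V →* M2 (ResidueField 𝒪)).comp ρbar.ρ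
  have hrbar : ∀ g, rbar g = LinearMap.toMatrix b b (ρbar.ρ g) := fun g => rfl
  have hfin : MatFin rbar := by
    obtain ⟨L, hL, h⟩ := ρbar.factorsThroughFiniteLevel
    exact ⟨L, hL, fun σ hσ => by rw [hrbar, h σ hσ]; exact LinearMap.toMatrix_one b⟩
  have hschur : ∀ γ : M2 (ResidueField 𝒪), (∀ g, γ * rbar g = rbar g * γ) →
      ∃ c : ResidueField 𝒪, γ = c • (1 : M2 (ResidueField 𝒪)) := fun γ hγ =>
    rde_schur_matrix ρbar habs b γ hγ
  have hc00 : rbar g0 0 0 = 0 := by
    rw [hrbar, LinearMap.toMatrix_apply, hb]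
    simp
  have hc10 : rbar g0 1 0 = 1 := by
    rw [hrbar, LinearMap.toMatrix_apply, hb]
    simp
  have hcomm : ∃ (g1 : Gal) (i0 j0 : Fin 2),
      (rbar g0 * rbar g1 - rbar g1 * rbar g0) i0 j0 ≠ 0 := by
    by_contra hcon
    push Not at hcon
    obtain ⟨c, hc⟩ := hschur (rbar g0) (fun g => by
      ext i j
      have := hcon g i j
      rw [Matrix.sub_apply, sub_eq_zero] at this
      exact this)
    rw [hc] at hc10
    simp at hc10
  obtain ⟨g1, i0, j0, hne⟩ := hcomm
  obtain ⟨μ, hμ⟩ := residue_surjective (R := 𝒪) (rbar g1 i0 j0)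
  exact ⟨{ rbar := rbar
           fin := hfin
           equiv := ⟨{ toLinearEquiv := b.equivFun
                       map_apply := fun σ x => by
                         show b.equivFun (ρbar.ρ σ x) = (rbar σ).mulVec (b.equivFun x)
                         rw [hrbar]
                         ext i
                         rw [Module.Basis.equivFun_apply]
                         exact (congrFun (LinearMap.toMatrix_mulVec_repr b b (ρbar.ρ σ) x) i).symm }⟩
           g0 := g0
           g1 := g1
           i0 := i0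
           j0 := j0
           μ := μ
           c00 := hc00
           c10 := hc10
           comm_ne := hne
           μ_spec := hμ
           schur := hschur }⟩

end Fermat.Agent.S53

end
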