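import Fermat.Agent.S53.Defs

/-!
# S53, work package W1: the matrix dictionary for `GaloisRepAdic`

* `MatCont.map`, `MatCont.conj`: continuity is stable under push-forward and conjugation;
* `ofMat_baseChangeAlong_isEquiv`: base change of `ofMat r` is `ofMat` of the push-forward;
* `ofMat_isEquiv_iff`: equivalence of matrix representations is conjugation;
* `exists_ofMat_isEquiv`: every `GaloisRepAdic` is equivalent to a matrix one.
-/

set_option autoImplicit false

open scoped TensorProduct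

noncomputable section

namespace Fermat.Agent.S53

open IsLocalRing

namespace MatDict

theorem ofMat_ρ_apply {A : Type} [CommRing A] [IsLocalRing A] (r : Gal →* M2 A)
    (hc : MatCont r) (σ : Gal) (v : Fin 2 → A) : (ofMat r hc).ρ σ v = (r σ).mulVec v := rfl

theorem mulMulMem {A : Type} [CommRing A] (I : Ideal A) (P X Q : M2 A)
    (hX : ∀ i j, X i j ∈ I) (i j : Fin 2) : (P * X * Q) i j ∈ I := by
  simp only [Matrix.mul_apply]
  exact Ideal.sum_mem _ fun l _ => Ideal.mul_mem_right _ _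
    (Ideal.sum_mem _ fun k _ => Ideal.mul_mem_left _ _ (hX k l))

/-- The linear equivalence attached to an invertible matrix. -/
def unitLinearEquiv {A : Type} [CommRing A] (g : (M2 A)ˣ) : (Fin 2 → A) ≃ₗ[A] (Fin 2 → A) :=
  LinearEquiv.ofLinear (Matrix.mulVecLin (g : M2 A))
    (Matrix.mulVecLin ((g⁻¹ : (M2 A)ˣ) : M2 A))
    (by rw [← Matrix.mulVecLin_mul, Units.mul_inv, Matrix.mulVecLin_one])
    (by rw [← Matrix.mulVecLin_mul, Units.inv_mul, Matrix.mulVecLin_one])

theorem unitLinearEquiv_apply {A : Type} [CommRing A] (g : (M2 A)ˣ) (v : Fin 2 → A) :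
    unitLinearEquiv g v = (g : M2 A).mulVec v := rfl

/-- The invertible matrix attached to a linear automorphism of `Fin 2 → A`. -/
def linearEquivUnit {A : Type} [CommRing A] (e : (Fin 2 → A) ≃ₗ[A] (Fin 2 → A)) : (M2 A)ˣ where
  val := LinearMap.toMatrix' e.toLinearMap
  inv := LinearMap.toMatrix' e.symm.toLinearMap
  val_inv := by rw [← LinearMap.toMatrix'_comp]; simp
  inv_val := by rw [← LinearMap.toMatrix'_comp]; simp

theorem linearEquivUnit_mulVec {A : Type} [CommRing A] (e : (Fin 2 → A) ≃ₗ[A] (Fin 2 → A))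
    (v : Fin 2 → A) : ((linearEquivUnit e : (M2 A)ˣ) : M2 A).mulVec v = e v := by
  show (LinearMap.toMatrix' e.toLinearMap).mulVec v = e v
  rw [← Matrix.toLin'_apply, Matrix.toLin'_toMatrix']
  rfl

/-- Compatibility of `TensorProduct.piScalarRight` with matrix actions. -/
theorem piScalarRight_baseChange {A B : Type} [CommRing A] [CommRing B] [Algebra A B]
    (m : M2 A) (f : (Fin 2 → A) →ₗ[A] (Fin 2 → A)) (hf : ∀ v, f v = m.mulVec v)
    (x : B ⊗[A] (Fin 2 → A)) :
    TensorProduct.piScalarRight A B B (Fin 2) (f.baseChange B x) =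
      (m.map (algebraMap A B)).mulVec (TensorProduct.piScalarRight A B B (Fin 2) x) := by
  induction x using TensorProduct.induction_on with
  | zero => simp
  | tmul b v =>
    rw [LinearMap.baseChange_tmul, TensorProduct.piScalarRight_apply,
      TensorProduct.piScalarRightHom_tmul, TensorProduct.piScalarRight_apply,
      TensorProduct.piScalarRightHom_tmul, hf]
    funext i
    simp only [Matrix.mulVec, dotProduct, Algebra.smul_def, Matrix.map_apply,
      map_sum, map_mul, Finset.sum_mul, mul_assoc]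
  | add x y hx hy => simp only [map_add, hx, hy, Matrix.mulVec_add]

end MatDict

open MatDict

section W1

variable {A B : Type} [CommRing A] [IsLocalRing A] [CommRing B] [IsLocalRing B]

theorem MatCont.map {r : Gal →* M2 A} (hr : MatCont r) (φ : A →+* B) (hφ : IsLocalHom φ) :
    MatCont (mapMat φ r) := by
  intro n
  obtain ⟨L, hL, h⟩ := hr n
  refine ⟨L, hL, fun σ hσ i j => ?_⟩
  have hmap : (maximalIdeal A ^ n).map φ ≤ maximalIdeal B ^ n := by
    rw [Ideal.map_pow]
    exact Ideal.pow_right_mono (Ideal.map_le_iff_le_comap.mpr fun a ha =>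
      Ideal.mem_comap.mpr (haveI := hφ; map_nonunit φ a ha)) n
  have h1 : (mapMat φ r σ - 1) i j = φ ((r σ - 1) i j) := by
    rw [Matrix.sub_apply, Matrix.sub_apply, mapMat_apply, map_sub, Matrix.one_apply,
      Matrix.one_apply]
    split_ifs <;> simp
  rw [h1]
  exact hmap (Ideal.mem_map_of_mem φ (h σ hσ i j))

theorem MatCont.conj {r r' : Gal →* M2 A} (hr : MatCont r) (γ : M2 A) (hγ : IsUnit γ)
    (h : ∀ g, γ * r g = r' g * γ) : MatCont r' := by
  obtain ⟨u, rfl⟩ := hγ
  intro n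
  obtain ⟨L, hL, hL'⟩ := hr n
  refine ⟨L, hL, fun σ hσ i j => ?_⟩
  have h1 : r' σ - 1 = (u : M2 A) * (r σ - 1) * ((u⁻¹ : (M2 A)ˣ) : M2 A) := by
    rw [mul_sub, sub_mul, h σ, mul_one, mul_assoc, Units.mul_inv, mul_one]
  rw [h1]
  exact mulMulMem _ _ _ _ (hL' σ hσ) i j

theorem ofMat_baseChangeAlong_isEquiv (φ : A →+* B) (hφ : IsLocalHom φ) (r : Gal →* M2 A)
    (hr : MatCont r) (hr' : MatCont (mapMat φ r)) :
    ((ofMat r hr).baseChangeAlong φ hφ).IsEquiv (ofMat (mapMat φ r) hr') := by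
  let _ : Algebra A B := φ.toAlgebra
  exact ⟨⟨TensorProduct.piScalarRight A B B (Fin 2), fun σ x =>
    piScalarRight_baseChange (r σ) ((ofMat r hr).ρ σ) (fun _ => rfl) x⟩⟩

theorem ofMat_isEquiv_iff (r r' : Gal →* M2 A) (hr : MatCont r) (hr' : MatCont r') :
    (ofMat r hr).IsEquiv (ofMat r' hr') ↔ ∃ γ : M2 A, IsUnit γ ∧ ∀ g, γ * r g = r' g * γ := by
  constructor
  · rintro ⟨e⟩
    obtain ⟨e', he⟩ : ∃ e' : (Fin 2 → A) ≃ₗ[A] (Fin 2 → A), ∀ (σ : Gal) (x : Fin 2 → A),
        e' ((r σ).mulVec x) = (r' σ).mulVec (e' x) :=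
      ⟨e.toLinearEquiv, fun σ x => e.map_apply σ x⟩
    let u : (M2 A)ˣ := linearEquivUnit e'
    refine ⟨u, u.isUnit, fun σ => ?_⟩
    apply Matrix.toLin'.injective
    refine LinearMap.ext fun x => ?_
    rw [Matrix.toLin'_apply, Matrix.toLin'_apply, ← Matrix.mulVec_mulVec,
      ← Matrix.mulVec_mulVec, linearEquivUnit_mulVec, linearEquivUnit_mulVec, he]
  · rintro ⟨γ, hγ, h⟩
    obtain ⟨u, rfl⟩ := hγ
    have key : ∀ (σ : Gal) (x : Fin 2 → A),
        unitLinearEquiv u ((r σ).mulVec x) = (r' σ).mulVec (unitLinearEquiv u x) := by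
      intro σ x
      rw [unitLinearEquiv_apply, unitLinearEquiv_apply, Matrix.mulVec_mulVec,
        Matrix.mulVec_mulVec, h]
    exact ⟨⟨unitLinearEquiv u, fun σ x => key σ x⟩⟩

theorem exists_ofMat_isEquiv (ρ : GaloisRepAdic A) :
    ∃ (r : Gal →* M2 A) (hr : MatCont r), ρ.IsEquiv (ofMat r hr) := by
  classical
  let b : Module.Basis (Fin 2) A ρ.V := Module.finBasisOfFinrankEq A ρ.V ρ.finrank_eq
  let r : Gal →* M2 A := (LinearMap.toMatrixAlgEquiv b).toAlgHom.toMonoidHom.comp ρ.ρ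
  have hr : ∀ σ, r σ = LinearMap.toMatrix b b (ρ.ρ σ) := fun σ => rfl
  have hrepr : ∀ (I : Ideal A) (w : ρ.V), w ∈ I • (⊤ : Submodule A ρ.V) →
      ∀ i, b.repr w i ∈ I := by
    intro I w hw i
    refine Submodule.smul_induction_on (p := fun w => b.repr w i ∈ I) hw ?_ ?_
    · intro a ha v _
      simpa using I.mul_mem_right _ ha
    · intro x y hx hy
      simpa using I.add_mem hx hy
  have hc : MatCont r := by
    intro n
    obtain ⟨L, hL, h⟩ := ρ.isAdicContinuous n
    refine ⟨L, hL, fun σ hσ i j => ?_⟩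
    have h1 : (r σ - 1) i j = b.repr (ρ.ρ σ (b j) - b j) i := by
      rw [hr, Matrix.sub_apply, LinearMap.toMatrix_apply, map_sub, Finsupp.sub_apply,
        Matrix.one_apply, b.repr_self, Finsupp.single_apply]
      congr 1
      by_cases hij : i = j
      · simp [hij]
      · simp [hij, Ne.symm hij]
    rw [h1]
    exact hrepr _ _ (h σ hσ (b j)) i
  refine ⟨r, hc, ⟨⟨b.equivFun, fun σ x => ?_⟩⟩⟩
  rw [ofMat_ρ_apply, hr]
  exact (LinearMap.toMatrix_mulVec_repr b b (ρ.ρ σ) x).symm

end W1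

end Fermat.Agent.S53

end
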