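import Fermat.Agent.S53.Defs
import Fermat.Agent.S53.MatDict
import Fermat.Agent.S53.ResDict
import Fermat.Agent.S53.Rigidify
import Fermat.Agent.S53.TestAlg

/-!
# S53: from Artinian representability to the universal property

If a rigid lift `rR` over a local `𝒪`-algebra `R` represents rigid lifts of type `𝒟` over all
Artinian test algebras, then `ofMat rR` satisfies the universal property of
`GaloisRep.DeformationRingData` for all complete noetherian local `𝒪`-algebras.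
-/

set_option autoImplicit false

noncomputable section

namespace Fermat.Agent.S53

open IsLocalRing

namespace UnivProp

theorem isEquiv_symm {A : Type} [CommRing A] [IsLocalRing A] {ρ₁ ρ₂ : GaloisRepAdic A}
    (h : ρ₁.IsEquiv ρ₂) : ρ₂.IsEquiv ρ₁ := by
  obtain ⟨e⟩ := h
  exact ⟨e.symm⟩

theorem isEquiv_trans {A : Type} [CommRing A] [IsLocalRing A] {ρ₁ ρ₂ ρ₃ : GaloisRepAdic A}
    (h : ρ₁.IsEquiv ρ₂) (h' : ρ₂.IsEquiv ρ₃) : ρ₁.IsEquiv ρ₃ := by
  obtain ⟨e⟩ := h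
  obtain ⟨e'⟩ := h'
  exact ⟨e.trans e'⟩

theorem ofMat_isEquiv_of_eq {A : Type} [CommRing A] [IsLocalRing A] {r r' : Gal →* M2 A}
    (h : r = r') (hr : MatCont r) (hr' : MatCont r') : (ofMat r hr).IsEquiv (ofMat r' hr') := by
  subst h
  exact ⟨GaloisRepAdic.Equiv.refl _⟩

/-- An algebra homomorphism between local `𝒪`-algebras is local as soon as the residue field of
the target is a quotient of `𝒪`. -/
theorem isLocalHom_of_residue_surjective {𝒪 R A : Type} [CommRing 𝒪] [CommRing R] [IsLocalRing R]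
    [Algebra 𝒪 R] [CommRing A] [IsLocalRing A] [Algebra 𝒪 A]
    (hsurj : Function.Surjective (residue A ∘ algebraMap 𝒪 A)) (φ : R →ₐ[𝒪] A) :
    IsLocalHom (φ : R →+* A) := by
  have hψ : Function.Surjective ((residue A).comp (φ : R →+* A)) := by
    intro y
    obtain ⟨c, hc⟩ := hsurj y
    refine ⟨algebraMap 𝒪 R c, ?_⟩
    rw [RingHom.comp_apply, AlgHom.coe_toRingHom, AlgHom.commutes]
    exact hc
  have hker : RingHom.ker ((residue A).comp (φ : R →+* A)) = maximalIdeal R :=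
    IsLocalRing.eq_maximalIdeal (RingHom.ker_isMaximal_of_surjective _ hψ)
  constructor
  intro x hx
  by_contra hnx
  have hxm : x ∈ maximalIdeal R := (IsLocalRing.mem_maximalIdeal x).mpr hnx
  rw [← hker, RingHom.mem_ker, RingHom.comp_apply] at hxm
  exact ((IsLocalRing.mem_maximalIdeal _).mp ((IsLocalRing.residue_eq_zero_iff _).mp hxm)) hx

/-- The truncation map `A → A ⧸ 𝔪 ^ (n + 1)` as an algebra homomorphism. -/
abbrev trunc (𝒪 A : Type) [CommRing 𝒪] [CommRing A] [IsLocalRing A] [Algebra 𝒪 A] (n : ℕ) :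
    A →ₐ[𝒪] A ⧸ maximalIdeal A ^ (n + 1) :=
  Ideal.Quotient.mkₐ 𝒪 (maximalIdeal A ^ (n + 1))

end UnivProp

open UnivProp in
theorem universal_of_artinian {𝒪 : Type} [CommRing 𝒪] [IsLocalRing 𝒪]
    {ρbar : ResidualGaloisRep (ResidueField 𝒪)}
    {𝒟 : ∀ ⦃A : Type⦄ [CommRing A] [IsLocalRing A] [Algebra 𝒪 A], GaloisRepAdic A → Prop}
    (h𝒟 : GaloisRep.IsDeformationCondition 𝒪 𝒟) (Rd : RigidData 𝒪 ρbar)
    {R : Type} [CommRing R] [IsLocalRing R] [Algebra 𝒪 R]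
    (rR : Gal →* M2 R) (hrR : IsRigid Rd rR)
    (hart : ∀ (B : Type) [CommRing B] [IsLocalRing B] [Algebra 𝒪 B],
      GaloisRep.IsArtinianTestAlgebra 𝒪 B → ∀ rB : Gal →* M2 B, IsRigidD Rd 𝒟 rB →
        ∃! φ : R →ₐ[𝒪] B, mapMat (φ : R →+* B) rR = rB)
    (A : Type) [CommRing A] [IsLocalRing A] [IsNoetherianRing A]
    [IsAdicComplete (maximalIdeal A) A] [Algebra 𝒪 A] [IsLocalHom (algebraMap 𝒪 A)]
    (hsurj : Function.Surjective (residue A ∘ algebraMap 𝒪 A))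
    (ρA : GaloisRepAdic A) (hρA : 𝒟 ρA)
    (hres : ρA.residual.IsEquiv (ρbar.baseChangeAlong (ResidueField.map (algebraMap 𝒪 A)))) :
    ∃! φ : R →ₐ[𝒪] A, ∃ hφ : IsLocalHom (φ : R →+* A),
      ((ofMat rR hrR.cont).baseChangeAlong (φ : R →+* A) hφ).IsEquiv ρA := by
  classical
  -- Step 1: a rigid matrix form of `ρA`
  obtain ⟨r0, hr0, hlift0, he0⟩ := exists_lift_isEquiv Rd ρA hres
  obtain ⟨rA, γ, hrig, hγ, hconj⟩ := exists_rigid_conj Rd r0 hr0 hlift0
  have heA : ρA.IsEquiv (ofMat rA hrig.cont) :=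
    isEquiv_trans he0 ((ofMat_isEquiv_iff r0 rA hr0 hrig.cont).mpr ⟨γ, hγ, hconj⟩)
  -- Step 2: truncations
  have htr := fun n : ℕ => quotient_pow_testAlgebra (𝒪 := 𝒪) (A := A) hsurj n
  have hloc : ∀ n : ℕ, IsLocalRing (A ⧸ maximalIdeal A ^ (n + 1)) := fun n => (htr n).choose
  have htest : ∀ n : ℕ, GaloisRep.IsArtinianTestAlgebra 𝒪 (A ⧸ maximalIdeal A ^ (n + 1)) :=
    fun n => (htr n).choose_spec.1
  have hq : ∀ n : ℕ, IsLocalHom (trunc 𝒪 A n : A →+* A ⧸ maximalIdeal A ^ (n + 1)) :=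
    fun n => (htr n).choose_spec.2
  have hrign : ∀ n : ℕ, IsRigid Rd (mapMat (trunc 𝒪 A n : A →+* A ⧸ maximalIdeal A ^ (n + 1)) rA) :=
    fun n => IsRigid.map Rd hrig (trunc 𝒪 A n) (hq n)
  have hDA := (h𝒟.iff_forall_surjective inferInstance hsurj ρA).mp hρA
  have hDn : ∀ n : ℕ, 𝒟 (ofMat _ (hrign n).cont) := by
    intro n
    have hD1 := hDA (htest n) (trunc 𝒪 A n) (hq n) (Ideal.Quotient.mkₐ_surjective 𝒪 _)
    obtain ⟨e⟩ := heA
    exact h𝒟.of_isEquiv (htest n) (isEquiv_trans ⟨e.baseChangeAlong _ (hq n)⟩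
      (ofMat_baseChangeAlong_isEquiv _ (hq n) rA hrig.cont (hrign n).cont)) hD1
  have hex := fun n : ℕ => hart _ (htest n) _ ⟨hrign n, hDn n⟩
  choose φn hφn using fun n => (hex n).exists
  have huniq : ∀ (n : ℕ) (ψ ψ' : R →ₐ[𝒪] A ⧸ maximalIdeal A ^ (n + 1)),
      mapMat (ψ : R →+* A ⧸ maximalIdeal A ^ (n + 1)) rR =
        mapMat (trunc 𝒪 A n : A →+* A ⧸ maximalIdeal A ^ (n + 1)) rA →
      mapMat (ψ' : R →+* A ⧸ maximalIdeal A ^ (n + 1)) rR =
        mapMat (trunc 𝒪 A n : A →+* A ⧸ maximalIdeal A ^ (n + 1)) rA → ψ = ψ' :=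
    fun n ψ ψ' h h' => (hex n).unique h h'
  -- Step 3: compatibility of the `φn`
  have hentry : ∀ (n : ℕ) (g : Gal) (i j : Fin 2),
      φn n (rR g i j) = Ideal.Quotient.mk (maximalIdeal A ^ (n + 1)) (rA g i j) := by
    intro n g i j
    have h1 := congrArg (fun r : Gal →* M2 (A ⧸ maximalIdeal A ^ (n + 1)) => r g i j) (hφn n)
    exact h1
  have hkey : ∀ (m n : ℕ) (hle : m ≤ n),
      (Ideal.Quotient.factorₐ 𝒪 (Ideal.pow_le_pow_right (Nat.succ_le_succ hle)) :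
        A ⧸ maximalIdeal A ^ (n + 1) →ₐ[𝒪] A ⧸ maximalIdeal A ^ (m + 1)).comp (φn n) = φn m := by
    intro m n hle
    apply huniq m _ _ _ (hφn m)
    ext g i j
    rw [mapMat_apply, mapMat_apply]
    show (Ideal.Quotient.factorₐ 𝒪 (Ideal.pow_le_pow_right (Nat.succ_le_succ hle)))
      (φn n (rR g i j)) = _
    rw [hentry n g i j]
    rfl
  have hf : ∀ {m n : ℕ} (hle : m ≤ n),
      (Ideal.Quotient.factorₐ 𝒪 (Ideal.pow_le_pow_right hle) :
        A ⧸ maximalIdeal A ^ n →ₐ[𝒪] A ⧸ maximalIdeal A ^ m).comp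
          ((Ideal.Quotient.factorₐ 𝒪 (Ideal.pow_le_pow_right (Nat.le_succ n))).comp (φn n)) =
        (Ideal.Quotient.factorₐ 𝒪 (Ideal.pow_le_pow_right (Nat.le_succ m))).comp (φn m) := by
    intro m n hle
    rw [← hkey m n hle]
    ext x
    obtain ⟨a, ha⟩ := Ideal.Quotient.mk_surjective (φn n x)
    simp only [AlgHom.comp_apply]
    rw [← ha]
    rfl
  -- Step 4: the lift
  let φ : R →ₐ[𝒪] A := IsAdicComplete.liftAlgHom (maximalIdeal A)
    (fun n => (Ideal.Quotient.factorₐ 𝒪 (Ideal.pow_le_pow_right (Nat.le_succ n))).comp (φn n)) hf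
  have hφmk : ∀ (n : ℕ) (x : R), Ideal.Quotient.mk (maximalIdeal A ^ n) (φ x) =
      (Ideal.Quotient.factorₐ 𝒪 (Ideal.pow_le_pow_right (Nat.le_succ n))) (φn n x) :=
    fun n x => IsAdicComplete.mk_liftAlgHom (maximalIdeal A) _ hf n x
  have hmap : mapMat (φ : R →+* A) rR = rA := by
    ext g i j
    rw [mapMat_apply]
    show φ (rR g i j) = rA g i j
    rw [IsHausdorff.eq_iff_smodEq (I := maximalIdeal A)]
    intro n
    rw [SModEq.sub_mem, smul_eq_mul, Ideal.mul_top, ← Ideal.Quotient.eq, hφmk n, hentry n g i j]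
    rfl
  have hφloc : IsLocalHom (φ : R →+* A) := isLocalHom_of_residue_surjective hsurj φ
  refine ⟨φ, ⟨hφloc, ?_⟩, ?_⟩
  · exact isEquiv_trans (ofMat_baseChangeAlong_isEquiv _ hφloc rR hrR.cont (hrR.cont.map _ hφloc))
      (isEquiv_trans (ofMat_isEquiv_of_eq hmap _ _) (isEquiv_symm heA))
  · rintro φ' ⟨hφ', he'⟩
    have hr' : IsRigid Rd (mapMat (φ' : R →+* A) rR) := IsRigid.map Rd hrR φ' hφ'
    have h1 : (ofMat (mapMat (φ' : R →+* A) rR) hr'.cont).IsEquiv (ofMat rA hrig.cont) :=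
      isEquiv_trans (isEquiv_symm (ofMat_baseChangeAlong_isEquiv _ hφ' rR hrR.cont hr'.cont))
        (isEquiv_trans he' heA)
    obtain ⟨γ', hγ', hconj'⟩ := (ofMat_isEquiv_iff _ _ _ _).mp h1
    have h2 : mapMat (φ' : R →+* A) rR = rA := rigid_unique Rd hsurj _ _ hr' hrig γ' hγ' hconj'
    apply IsAdicComplete.algHom_ext (maximalIdeal A)
    intro n
    have h3 : (trunc 𝒪 A n).comp φ' = φn n := by
      apply huniq n _ _ _ (hφn n)
      ext g i j
      rw [mapMat_apply, mapMat_apply, ← h2]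
      rfl
    ext x
    show Ideal.Quotient.mk (maximalIdeal A ^ n) (φ' x) = Ideal.Quotient.mk (maximalIdeal A ^ n) (φ x)
    rw [hφmk n x, ← h3]
    rfl

end Fermat.Agent.S53

end
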