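import Fermat.Agent.S53.MatDict
import Fermat.Agent.S53.ResDict
import Fermat.Agent.S53.RigidDataExists
import Fermat.Agent.S53.Rigidify
import Fermat.Agent.S53.TestAlg
import Fermat.Agent.S53.FibProd
import Fermat.Agent.S53.Tangent
import Fermat.Agent.S53.UnivProp
import Fermat.Agent.S53.Gen
import Fermat.Agent.S53.PowerSeries
import Fermat.Agent.S53.Compact
import Fermat.Prelude.Thm_IsLocalRing_isAdicComplete_of_module_finite

/-!
# S53: assembly of the universal deformation ring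

`R = 𝒪⟦X_1..X_d⟧ ⧸ J`, where `J` is the intersection of the kernels of the classifying maps of
all rigid lifts of type `𝒟` over Artinian test algebras.
-/

set_option autoImplicit false
set_option linter.style.haveILetI false
set_option linter.unusedSectionVars false

noncomputable section

namespace Fermat.Agent.S53

open IsLocalRing

section Pairs

variable {𝒪 : Type} [CommRing 𝒪] [IsLocalRing 𝒪]
  {ρbar : ResidualGaloisRep (ResidueField 𝒪)}
  {𝒟 : ∀ ⦃A : Type⦄ [CommRing A] [IsLocalRing A] [Algebra 𝒪 A], GaloisRepAdic A → Prop}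
  {Rd : RigidData 𝒪 ρbar}

/-- A rigid lift of type `𝒟` over an Artinian test algebra together with a classifying map. -/
structure Pair (Rd : RigidData 𝒪 ρbar)
    (𝒟 : ∀ ⦃A : Type⦄ [CommRing A] [IsLocalRing A] [Algebra 𝒪 A], GaloisRepAdic A → Prop)
    (Td : TangentData Rd 𝒟) : Type 1 where
  A : Type
  [cr : CommRing A]
  [lr : IsLocalRing A]
  [alg : Algebra 𝒪 A]
  test : GaloisRep.IsArtinianTestAlgebra 𝒪 A
  r : Gal →* M2 A
  rigid : IsRigidD Rd 𝒟 r
  φ : MvPowerSeries (Fin Td.d) 𝒪 →ₐ[𝒪] A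
  hφ : ∀ s, φ (MvPowerSeries.X s) = coord Td r s

attribute [instance] Pair.cr Pair.lr Pair.alg

variable {Td : TangentData Rd 𝒟}

theorem exists_pow_maximalIdeal_eq_bot {A : Type} [CommRing A] [IsLocalRing A]
    [IsArtinianRing A] : ∃ n, maximalIdeal A ^ n = ⊥ := by
  have h := IsArtinianRing.isNilpotent_jacobson_bot (R := A)
  rw [IsLocalRing.jacobson_eq_maximalIdeal ⊥ bot_ne_top] at h
  exact h

theorem coord_mem_maximalIdeal {A : Type} [CommRing A] [IsLocalRing A] [Algebra 𝒪 A]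
    {r : Gal →* M2 A} (hr : IsRigid Rd r) (Td : TangentData Rd 𝒟) (s : Fin Td.d) :
    coord Td r s ∈ maximalIdeal A :=
  hr.res _ _ _ _ (Td.ν_spec s)

theorem Pair.coord_mem (P : Pair Rd 𝒟 Td) (s : Fin Td.d) :
    coord Td P.r s ∈ maximalIdeal P.A :=
  coord_mem_maximalIdeal P.rigid.1 Td s

theorem Pair.exists_pow (P : Pair Rd 𝒟 Td) : ∃ n, maximalIdeal P.A ^ n = ⊥ :=
  haveI := P.test.isArtinian
  exists_pow_maximalIdeal_eq_bot

/-- Existence of a classifying map. -/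
theorem exists_classifying {A : Type} [CommRing A] [IsLocalRing A] [Algebra 𝒪 A]
    (hA : GaloisRep.IsArtinianTestAlgebra 𝒪 A) {r : Gal →* M2 A} (hr : IsRigid Rd r)
    (Td : TangentData Rd 𝒟) :
    ∃ φ : MvPowerSeries (Fin Td.d) 𝒪 →ₐ[𝒪] A, ∀ s, φ (MvPowerSeries.X s) = coord Td r s := by
  haveI := hA.isArtinian
  obtain ⟨n, hn⟩ := exists_pow_maximalIdeal_eq_bot (A := A)
  exact PS.exists_eval (maximalIdeal A) n hn _ (coord_mem_maximalIdeal hr Td)

/-- The pair attached to a rigid lift of type `𝒟`. -/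
def Pair.ofRigid {A : Type} [CommRing A] [IsLocalRing A] [Algebra 𝒪 A]
    (hA : GaloisRep.IsArtinianTestAlgebra 𝒪 A) (r : Gal →* M2 A) (hr : IsRigidD Rd 𝒟 r)
    (Td : TangentData Rd 𝒟) : Pair Rd 𝒟 Td where
  A := A
  test := hA
  r := r
  rigid := hr
  φ := Classical.choose (exists_classifying hA hr.1 Td)
  hφ := Classical.choose_spec (exists_classifying hA hr.1 Td)

/-- Two algebra maps from the power series ring to an Artinian local ring agreeing on the
variables, which are sent into the maximal ideal, are equal. -/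
theorem algHom_ext_X {d : ℕ} {A : Type} [CommRing A] [IsLocalRing A] [Algebra 𝒪 A]
    [IsArtinianRing A] (φ ψ : MvPowerSeries (Fin d) 𝒪 →ₐ[𝒪] A)
    (hφ : ∀ s, φ (MvPowerSeries.X s) ∈ maximalIdeal A)
    (h : ∀ s, φ (MvPowerSeries.X s) = ψ (MvPowerSeries.X s)) : φ = ψ := by
  obtain ⟨n, hn⟩ := exists_pow_maximalIdeal_eq_bot (A := A)
  exact PS.eval_unique (maximalIdeal A) n hn φ ψ hφ h

/-- An algebra map between local `𝒪`-algebras, the target having residue field reached from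
`𝒪`, sends the maximal ideal into the maximal ideal. -/
theorem algHom_mem_maximalIdeal {S A : Type} [CommRing S] [IsLocalRing S] [Algebra 𝒪 S]
    [CommRing A] [IsLocalRing A] [Algebra 𝒪 A]
    (hsurj : Function.Surjective (residue A ∘ algebraMap 𝒪 A)) (φ : S →ₐ[𝒪] A) {f : S}
    (hf : f ∈ maximalIdeal S) : φ f ∈ maximalIdeal A := by
  let ψ : S →+* ResidueField A := (residue A).comp (φ : S →+* A)
  have hψ : Function.Surjective ψ := by
    intro y
    obtain ⟨o, ho⟩ := hsurj y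
    refine ⟨algebraMap 𝒪 S o, ?_⟩
    show residue A (φ (algebraMap 𝒪 S o)) = y
    rw [AlgHom.commutes]
    exact ho
  have hmax : (RingHom.ker ψ).IsMaximal := RingHom.ker_isMaximal_of_surjective ψ hψ
  have hker : RingHom.ker ψ = maximalIdeal S := IsLocalRing.eq_maximalIdeal hmax
  have h1 : ψ f = 0 := by
    rw [← RingHom.mem_ker, hker]
    exact hf
  exact (IsLocalRing.residue_eq_zero_iff _).mp h1

theorem algHom_isLocalHom {S A : Type} [CommRing S] [IsLocalRing S] [Algebra 𝒪 S]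
    [CommRing A] [IsLocalRing A] [Algebra 𝒪 A]
    (hsurj : Function.Surjective (residue A ∘ algebraMap 𝒪 A)) (φ : S →ₐ[𝒪] A) :
    IsLocalHom (φ : S →+* A) := by
  constructor
  intro f hf
  by_contra hnu
  exact (IsLocalRing.mem_maximalIdeal _).mp
    (algHom_mem_maximalIdeal hsurj φ ((IsLocalRing.mem_maximalIdeal _).mpr hnu)) hf

theorem Pair.map_mem (P : Pair Rd 𝒟 Td) {f : MvPowerSeries (Fin Td.d) 𝒪}
    (hf : f ∈ maximalIdeal (MvPowerSeries (Fin Td.d) 𝒪)) : P.φ f ∈ maximalIdeal P.A :=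
  algHom_mem_maximalIdeal P.test.residue_surjective P.φ hf

/-- The kernel of the classifying map of a pair. -/
def Pair.ker (P : Pair Rd 𝒟 Td) : Ideal (MvPowerSeries (Fin Td.d) 𝒪) :=
  RingHom.ker (P.φ : MvPowerSeries (Fin Td.d) 𝒪 →+* P.A)

theorem Pair.mem_ker (P : Pair Rd 𝒟 Td) (f : MvPowerSeries (Fin Td.d) 𝒪) :
    f ∈ P.ker ↔ P.φ f = 0 := Iff.rfl

theorem Pair.pow_le_ker (P : Pair Rd 𝒟 Td) :
    ∃ n, maximalIdeal (MvPowerSeries (Fin Td.d) 𝒪) ^ n ≤ P.ker := by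
  obtain ⟨n, hn⟩ := P.exists_pow
  refine ⟨n, fun f hf => ?_⟩
  have h1 : Ideal.map (P.φ : MvPowerSeries (Fin Td.d) 𝒪 →+* P.A)
      (maximalIdeal (MvPowerSeries (Fin Td.d) 𝒪)) ≤ maximalIdeal P.A := by
    rw [Ideal.map_le_iff_le_comap]
    intro x hx
    exact P.map_mem hx
  have h2 := Ideal.mem_map_of_mem (P.φ : MvPowerSeries (Fin Td.d) 𝒪 →+* P.A) hf
  rw [Ideal.map_pow] at h2
  have h3 := Ideal.pow_right_mono h1 n h2
  rw [hn, Ideal.mem_bot] at h3
  exact h3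

section Finite

variable [Finite (ResidueField 𝒪)] (h𝒟 : GaloisRep.IsDeformationCondition 𝒪 𝒟)

include h𝒟

/-- Every entry of the lift is in the image of the classifying map. -/
theorem Pair.exists_entry (P : Pair Rd 𝒟 Td) (g : Gal) (i j : Fin 2) :
    ∃ f : MvPowerSeries (Fin Td.d) 𝒪, P.φ f = P.r g i j := by
  have h1 := gen h𝒟 Td P.test P.r P.rigid g i j
  obtain ⟨n, hn⟩ := P.exists_pow
  have h2 := eval_range (maximalIdeal P.A) n hn P.φ (fun s => by rw [P.hφ]; exact P.coord_mem s)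
  have h3 : (fun s => P.φ (MvPowerSeries.X s)) = coord Td P.r := funext P.hφ
  rw [h3] at h2
  rw [← h2] at h1
  exact h1

omit h𝒟 in
theorem Pair.exists_inf_aux (P Q T : Pair Rd 𝒟 Td) (pA : T.A →ₐ[𝒪] P.A) (pB : T.A →ₐ[𝒪] Q.A)
    (hinj : Function.Injective (fun x => (pA x, pB x)))
    (hA : mapMat (pA : T.A →+* P.A) T.r = P.r) (hA' : mapMat (pB : T.A →+* Q.A) T.r = Q.r) :
    pA.comp T.φ = P.φ ∧ pB.comp T.φ = Q.φ ∧ T.ker = P.ker ⊓ Q.ker := by
  have hcoordA : ∀ s, pA (coord Td T.r s) = coord Td P.r s := by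
    intro s
    have := congrArg (fun m => m (Td.h s) (Td.i s) (Td.j s)) hA
    simp only [mapMat_apply] at this
    simp only [coord, map_sub, AlgHom.commutes]
    rw [← this]
    rfl
  have hcoordB : ∀ s, pB (coord Td T.r s) = coord Td Q.r s := by
    intro s
    have := congrArg (fun m => m (Td.h s) (Td.i s) (Td.j s)) hA'
    simp only [mapMat_apply] at this
    simp only [coord, map_sub, AlgHom.commutes]
    rw [← this]
    rfl
  have h1 : pA.comp T.φ = P.φ := by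
    haveI := P.test.isArtinian
    refine algHom_ext_X _ _ (fun s => ?_) (fun s => ?_)
    · rw [AlgHom.comp_apply, T.hφ, hcoordA]
      exact P.coord_mem s
    · rw [AlgHom.comp_apply, T.hφ, P.hφ]
      exact hcoordA s
  have h2 : pB.comp T.φ = Q.φ := by
    haveI := Q.test.isArtinian
    refine algHom_ext_X _ _ (fun s => ?_) (fun s => ?_)
    · rw [AlgHom.comp_apply, T.hφ, hcoordB]
      exact Q.coord_mem s
    · rw [AlgHom.comp_apply, T.hφ, Q.hφ]
      exact hcoordB s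
  refine ⟨h1, h2, ?_⟩
  ext f
  rw [Ideal.mem_inf, Pair.mem_ker, Pair.mem_ker, Pair.mem_ker, ← h1, ← h2, AlgHom.comp_apply,
    AlgHom.comp_apply]
  constructor
  · intro h
    rw [h, map_zero, map_zero]
    exact ⟨rfl, rfl⟩
  · rintro ⟨ha, hb⟩
    exact hinj (Prod.ext (ha.trans (map_zero pA).symm) (hb.trans (map_zero pB).symm))

/-- The fibre product of two pairs. -/
theorem Pair.exists_inf (P Q : Pair Rd 𝒟 Td) :
    ∃ (T : Pair Rd 𝒟 Td) (pA : T.A →ₐ[𝒪] P.A) (pB : T.A →ₐ[𝒪] Q.A),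
      pA.comp T.φ = P.φ ∧ pB.comp T.φ = Q.φ ∧ mapMat (pA : T.A →+* P.A) T.r = P.r ∧
      mapMat (pB : T.A →+* Q.A) T.r = Q.r ∧ T.ker = P.ker ⊓ Q.ker := by
  obtain ⟨B, iCR, iLR, iAlg, hB, pA, pB, rB, hinj, hrB, hA, hA'⟩ :=
    exists_fibProd Rd h𝒟 P.test Q.test P.r Q.r P.rigid Q.rigid
  obtain ⟨h1, h2, h3⟩ := Pair.exists_inf_aux P Q (Pair.ofRigid hB rB hrB Td) pA pB hinj hA hA'
  exact ⟨Pair.ofRigid hB rB hrB Td, pA, pB, h1, h2, hA, hA', h3⟩

/-- Compatibility of classifying maps. -/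
theorem Pair.compat (P Q : Pair Rd 𝒟 Td) (hle : P.ker ≤ Q.ker)
    (f : MvPowerSeries (Fin Td.d) 𝒪) (g : Gal) (i j : Fin 2) (hf : P.φ f = P.r g i j) :
    Q.φ f = Q.r g i j := by
  obtain ⟨T, pA, pB, h1, h2, hA, hB, -⟩ := Pair.exists_inf h𝒟 P Q
  obtain ⟨f', hf'⟩ := T.exists_entry h𝒟 g i j
  have hP : P.φ f' = P.r g i j := by
    rw [← h1, AlgHom.comp_apply, hf', ← hA]
    rfl
  have hQ : Q.φ f' = Q.r g i j := by
    rw [← h2, AlgHom.comp_apply, hf', ← hB]
    rfl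
  have h3 : f - f' ∈ P.ker := by
    rw [Pair.mem_ker, map_sub, hf, hP, sub_self]
  have h5 := (Q.mem_ker _).mp (hle h3)
  rw [map_sub, sub_eq_zero] at h5
  rw [h5, hQ]

end Finite

end Pairs

section Glue

variable {𝒪 : Type} [CommRing 𝒪] [IsDomain 𝒪] [IsDiscreteValuationRing 𝒪]
  [IsAdicComplete (maximalIdeal 𝒪) 𝒪] [Finite (ResidueField 𝒪)]
  {ρbar : ResidualGaloisRep (ResidueField 𝒪)}
  {𝒟 : ∀ ⦃A : Type⦄ [CommRing A] [IsLocalRing A] [Algebra 𝒪 A], GaloisRepAdic A → Prop}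
  {Rd : RigidData 𝒪 ρbar} (h𝒟 : GaloisRep.IsDeformationCondition 𝒪 𝒟)

include h𝒟

/-- Gluing the entries of all pairs: a power series mapping to the `(i, j)` entry of `P.r g`
under the classifying map of every pair `P`. -/
theorem exists_xi (Td : TangentData Rd 𝒟) (g : Gal) (i j : Fin 2) :
    ∃ ξ : MvPowerSeries (Fin Td.d) 𝒪, ∀ P : Pair Rd 𝒟 Td, P.φ ξ = P.r g i j := by
  classical
  haveI : IsAdicComplete (maximalIdeal (MvPowerSeries (Fin Td.d) 𝒪))
      (MvPowerSeries (Fin Td.d) 𝒪) := PS.isAdicComplete_maximalIdeal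
  have hfin : ∀ n, Finite (MvPowerSeries (Fin Td.d) 𝒪 ⧸
      maximalIdeal (MvPowerSeries (Fin Td.d) 𝒪) ^ n) := fun n => PS.finite_quotient_pow n
  let ι : Type := {𝔞 : Ideal (MvPowerSeries (Fin Td.d) 𝒪) // ∃ P : Pair Rd 𝒟 Td, P.ker = 𝔞}
  have hdir : ∀ a b : ι, ∃ c, c ≤ a ∧ c ≤ b := by
    rintro ⟨_, P, rfl⟩ ⟨_, Q, rfl⟩
    obtain ⟨T, -, -, -, -, -, -, hT⟩ := Pair.exists_inf h𝒟 P Q
    refine ⟨⟨T.ker, T, rfl⟩, ?_, ?_⟩
    · show T.ker ≤ P.ker
      rw [hT]
      exact inf_le_left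
    · show T.ker ≤ Q.ker
      rw [hT]
      exact inf_le_right
  have hpair : ∀ a : ι, ∃ P : Pair Rd 𝒟 Td, P.ker = a.1 := fun a => a.2
  choose Pa hPa using hpair
  have hentry : ∀ a : ι, ∃ f : MvPowerSeries (Fin Td.d) 𝒪, (Pa a).φ f = (Pa a).r g i j :=
    fun a => (Pa a).exists_entry h𝒟 g i j
  choose x hx using hentry
  have hopen : ∀ a : ι, ∃ n, maximalIdeal (MvPowerSeries (Fin Td.d) 𝒪) ^ n ≤ a.1 := by
    intro a
    rw [← hPa a]
    exact (Pa a).pow_le_ker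
  have hcompat : ∀ a b : ι, a ≤ b → x a - x b ∈ b.1 := by
    intro a b hab
    have hle : (Pa a).ker ≤ (Pa b).ker := by
      rw [hPa a, hPa b]
      exact hab
    have h1 := Pair.compat h𝒟 (Pa a) (Pa b) hle (x a) g i j (hx a)
    rw [← hPa b, Pair.mem_ker, map_sub, h1, hx b, sub_self]
  obtain ⟨y, hy⟩ := compact_lift (maximalIdeal (MvPowerSeries (Fin Td.d) 𝒪)) hfin hdir
    (fun a : ι => a.1) (fun a b hab => hab) hopen x hcompat
  refine ⟨y, fun P => ?_⟩
  have h1 := hy ⟨P.ker, P, rfl⟩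
  have hle : (Pa ⟨P.ker, P, rfl⟩).ker ≤ P.ker := le_of_eq (hPa ⟨P.ker, P, rfl⟩)
  have h2 := Pair.compat h𝒟 (Pa ⟨P.ker, P, rfl⟩) P hle (x ⟨P.ker, P, rfl⟩) g i j (hx _)
  have h3 : P.φ (y - x ⟨P.ker, P, rfl⟩) = 0 := (P.mem_ker _).mp h1
  rw [map_sub, sub_eq_zero] at h3
  rw [h3, h2]

end Glue

section Ring

variable {𝒪 : Type} [CommRing 𝒪] [IsDomain 𝒪] [IsDiscreteValuationRing 𝒪]
  [IsAdicComplete (maximalIdeal 𝒪) 𝒪] [Finite (ResidueField 𝒪)]
  {ρbar : ResidualGaloisRep (ResidueField 𝒪)}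
  {𝒟 : ∀ ⦃A : Type⦄ [CommRing A] [IsLocalRing A] [Algebra 𝒪 A], GaloisRepAdic A → Prop}
  {Rd : RigidData 𝒪 ρbar}

/-- The ideal of relations: the intersection of the kernels of all classifying maps. -/
def relIdeal (Td : TangentData Rd 𝒟) : Ideal (MvPowerSeries (Fin Td.d) 𝒪) :=
  ⨅ P : Pair Rd 𝒟 Td, P.ker

theorem mem_relIdeal (Td : TangentData Rd 𝒟) (f : MvPowerSeries (Fin Td.d) 𝒪) :
    f ∈ relIdeal Td ↔ ∀ P : Pair Rd 𝒟 Td, P.φ f = 0 := by
  rw [relIdeal, Submodule.mem_iInf]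
  exact Iff.rfl

/-- The universal deformation ring. -/
abbrev URing (Td : TangentData Rd 𝒟) : Type := MvPowerSeries (Fin Td.d) 𝒪 ⧸ relIdeal Td

variable {Td : TangentData Rd 𝒟}

/-- The classifying map of a pair, on the universal ring. -/
def Pair.lift (P : Pair Rd 𝒟 Td) : URing Td →ₐ[𝒪] P.A :=
  Ideal.Quotient.liftₐ (relIdeal Td) P.φ (fun f hf => (mem_relIdeal Td f).mp hf P)

theorem Pair.lift_mk (P : Pair Rd 𝒟 Td) (f : MvPowerSeries (Fin Td.d) 𝒪) :
    P.lift (Ideal.Quotient.mk (relIdeal Td) f) = P.φ f := rfl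

theorem URing.ext_pairs {x y : URing Td} (h : ∀ P : Pair Rd 𝒟 Td, P.lift x = P.lift y) :
    x = y := by
  obtain ⟨f, rfl⟩ := Ideal.Quotient.mk_surjective x
  obtain ⟨f', rfl⟩ := Ideal.Quotient.mk_surjective y
  rw [Ideal.Quotient.eq, mem_relIdeal]
  intro P
  rw [map_sub, sub_eq_zero]
  exact h P

theorem URing.matrix_ext_pairs {m m' : M2 (URing Td)}
    (h : ∀ P : Pair Rd 𝒟 Td, (P.lift : URing Td →+* P.A).mapMatrix m =
      (P.lift : URing Td →+* P.A).mapMatrix m') : m = m' := by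
  ext i j
  refine URing.ext_pairs fun P => ?_
  exact congrArg (fun M : M2 P.A => M i j) (h P)

theorem relIdeal_ne_top [hne : Fact (Nonempty (Pair Rd 𝒟 Td))] : relIdeal Td ≠ ⊤ := by
  obtain ⟨P⟩ := hne.out
  intro h
  have h1 : (1 : MvPowerSeries (Fin Td.d) 𝒪) ∈ relIdeal Td := by
    rw [h]
    trivial
  have h2 := (mem_relIdeal Td 1).mp h1 P
  rw [map_one] at h2
  exact one_ne_zero h2

instance instNontrivialURing [Fact (Nonempty (Pair Rd 𝒟 Td))] : Nontrivial (URing Td) :=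
  Ideal.Quotient.nontrivial_iff.mpr relIdeal_ne_top

instance instIsLocalRingURing [Fact (Nonempty (Pair Rd 𝒟 Td))] : IsLocalRing (URing Td) :=
  IsLocalRing.of_surjective' (Ideal.Quotient.mk (relIdeal Td)) Ideal.Quotient.mk_surjective

instance instIsLocalHomMkURing [Fact (Nonempty (Pair Rd 𝒟 Td))] :
    IsLocalHom (Ideal.Quotient.mk (relIdeal Td)) :=
  IsLocalHom.of_surjective _ Ideal.Quotient.mk_surjective

theorem URing.maximalIdeal_eq [Fact (Nonempty (Pair Rd 𝒟 Td))] :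
    maximalIdeal (URing Td) =
      (maximalIdeal (MvPowerSeries (Fin Td.d) 𝒪)).map (Ideal.Quotient.mk (relIdeal Td)) :=
  (IsLocalRing.map_maximalIdeal_of_surjective _ Ideal.Quotient.mk_surjective).symm

instance instIsLocalHomURing [hne : Fact (Nonempty (Pair Rd 𝒟 Td))] :
    IsLocalHom (algebraMap 𝒪 (URing Td)) := by
  obtain ⟨P⟩ := hne.out
  constructor
  intro a ha
  have h1 : IsUnit (P.lift (algebraMap 𝒪 (URing Td) a)) := ha.map P.lift
  rw [AlgHom.commutes] at h1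
  haveI := P.test.isLocalHom
  exact (isUnit_map_iff (algebraMap 𝒪 P.A) a).mp h1

theorem URing.residue_surjective [Fact (Nonempty (Pair Rd 𝒟 Td))] :
    Function.Surjective (residue (URing Td) ∘ algebraMap 𝒪 (URing Td)) := by
  intro x
  obtain ⟨y, rfl⟩ := IsLocalRing.residue_surjective x
  obtain ⟨f, rfl⟩ := Ideal.Quotient.mk_surjective y
  obtain ⟨a, ha⟩ := PS.residue_comp_algebraMap_surjective (σ := Fin Td.d) (O := 𝒪)
    (residue _ f)
  refine ⟨a, ?_⟩
  rw [Function.comp_apply] at ha ⊢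
  have h1 : algebraMap 𝒪 (MvPowerSeries (Fin Td.d) 𝒪) a - f ∈
      maximalIdeal (MvPowerSeries (Fin Td.d) 𝒪) := by
    rw [← Ideal.Quotient.eq]
    exact ha
  have h2 : Ideal.Quotient.mk (relIdeal Td) (algebraMap 𝒪 (MvPowerSeries (Fin Td.d) 𝒪) a - f) ∈
      maximalIdeal (URing Td) := by
    rw [URing.maximalIdeal_eq]
    exact Ideal.mem_map_of_mem _ h1
  rw [map_sub] at h2
  exact (Ideal.Quotient.eq).mpr h2

instance instIsAdicCompleteURing [Fact (Nonempty (Pair Rd 𝒟 Td))] :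
    IsAdicComplete (maximalIdeal (URing Td)) (URing Td) := by
  haveI : IsAdicComplete (maximalIdeal (MvPowerSeries (Fin Td.d) 𝒪))
      (MvPowerSeries (Fin Td.d) 𝒪) := PS.isAdicComplete_maximalIdeal
  haveI : IsLocalHom (algebraMap (MvPowerSeries (Fin Td.d) 𝒪) (URing Td)) :=
    instIsLocalHomMkURing
  exact IsLocalRing.isAdicComplete_of_module_finite (𝒪 := MvPowerSeries (Fin Td.d) 𝒪)

end Ring

section Rep

variable {𝒪 : Type} [CommRing 𝒪] [IsDomain 𝒪] [IsDiscreteValuationRing 𝒪]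
  [IsAdicComplete (maximalIdeal 𝒪) 𝒪] [Finite (ResidueField 𝒪)]
  {ρbar : ResidualGaloisRep (ResidueField 𝒪)}
  {𝒟 : ∀ ⦃A : Type⦄ [CommRing A] [IsLocalRing A] [Algebra 𝒪 A], GaloisRepAdic A → Prop}
  {Rd : RigidData 𝒪 ρbar} (h𝒟 : GaloisRep.IsDeformationCondition 𝒪 𝒟)
  (Td : TangentData Rd 𝒟)

include h𝒟

/-- The glued entries of the universal lift. -/
def xi (g : Gal) (i j : Fin 2) : MvPowerSeries (Fin Td.d) 𝒪 :=
  Classical.choose (exists_xi h𝒟 Td g i j)

theorem xi_spec (g : Gal) (i j : Fin 2) (P : Pair Rd 𝒟 Td) :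
    P.φ (xi h𝒟 Td g i j) = P.r g i j :=
  Classical.choose_spec (exists_xi h𝒟 Td g i j) P

/-- The matrices of the universal lift. -/
def rawR (g : Gal) : M2 (URing Td) :=
  Matrix.of fun i j => Ideal.Quotient.mk (relIdeal Td) (xi h𝒟 Td g i j)

theorem lift_rawR (P : Pair Rd 𝒟 Td) (g : Gal) :
    (P.lift : URing Td →+* P.A).mapMatrix (rawR h𝒟 Td g) = P.r g := by
  ext i j
  exact xi_spec h𝒟 Td g i j P

/-- The universal rigid lift. -/
def rR : Gal →* M2 (URing Td) where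
  toFun := rawR h𝒟 Td
  map_one' := URing.matrix_ext_pairs fun P => by rw [lift_rawR, map_one, map_one]
  map_mul' g h := URing.matrix_ext_pairs fun P => by
    rw [map_mul, lift_rawR, lift_rawR, lift_rawR, map_mul]

theorem rR_apply (g : Gal) (i j : Fin 2) :
    rR h𝒟 Td g i j = Ideal.Quotient.mk (relIdeal Td) (xi h𝒟 Td g i j) := rfl

theorem lift_rR_apply (P : Pair Rd 𝒟 Td) (g : Gal) (i j : Fin 2) :
    P.lift (rR h𝒟 Td g i j) = P.r g i j :=
  xi_spec h𝒟 Td g i j P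

theorem mapMat_lift (P : Pair Rd 𝒟 Td) :
    mapMat (P.lift : URing Td →+* P.A) (rR h𝒟 Td) = P.r := by
  refine MonoidHom.ext fun g => ?_
  ext i j
  exact lift_rR_apply h𝒟 Td P g i j

/-- Every rigid lift of type `𝒟` over a test algebra is classified by a map from the universal
ring. -/
theorem exists_lift_of_rigidD {A : Type} [CommRing A] [IsLocalRing A] [Algebra 𝒪 A]
    (hA : GaloisRep.IsArtinianTestAlgebra 𝒪 A) (r : Gal →* M2 A) (hr : IsRigidD Rd 𝒟 r) :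
    ∃ F : URing Td →ₐ[𝒪] A, mapMat (F : URing Td →+* A) (rR h𝒟 Td) = r :=
  ⟨(Pair.ofRigid hA r hr Td).lift, mapMat_lift h𝒟 Td (Pair.ofRigid hA r hr Td)⟩

theorem coord_rR (s : Fin Td.d) :
    coord Td (rR h𝒟 Td) s = Ideal.Quotient.mk (relIdeal Td) (MvPowerSeries.X s) := by
  refine URing.ext_pairs fun P => ?_
  rw [Pair.lift_mk, P.hφ]
  simp only [coord, map_sub, AlgHom.commutes]
  rw [lift_rR_apply]

variable [hne : Fact (Nonempty (Pair Rd 𝒟 Td))]

omit h𝒟 in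
theorem mem_maximalIdeal_of_lift {Td : TangentData Rd 𝒟} [Fact (Nonempty (Pair Rd 𝒟 Td))]
    (P : Pair Rd 𝒟 Td) {x : URing Td}
    (h : P.lift x ∈ maximalIdeal P.A) : x ∈ maximalIdeal (URing Td) := by
  rw [mem_maximalIdeal, mem_nonunits_iff] at h ⊢
  exact fun hx => h (hx.map P.lift)

/-- Chevalley: some pair has kernel inside the relation ideal modulo `𝔪 ^ n`. -/
theorem exists_pair_ker_le (n : ℕ) :
    ∃ P : Pair Rd 𝒟 Td,
      P.ker ≤ relIdeal Td ⊔ maximalIdeal (MvPowerSeries (Fin Td.d) 𝒪) ^ n := by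
  haveI : IsAdicComplete (maximalIdeal (MvPowerSeries (Fin Td.d) 𝒪))
      (MvPowerSeries (Fin Td.d) 𝒪) := PS.isAdicComplete_maximalIdeal
  have hfin : ∀ n, Finite (MvPowerSeries (Fin Td.d) 𝒪 ⧸
      maximalIdeal (MvPowerSeries (Fin Td.d) 𝒪) ^ n) := fun n => PS.finite_quotient_pow n
  haveI : Nonempty (Pair Rd 𝒟 Td) := hne.out
  have hinf : ∀ a ∈ Set.range (fun P : Pair Rd 𝒟 Td => P.ker),
      ∀ b ∈ Set.range (fun P : Pair Rd 𝒟 Td => P.ker),
      a ⊓ b ∈ Set.range (fun P : Pair Rd 𝒟 Td => P.ker) := by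
    rintro _ ⟨P, rfl⟩ _ ⟨Q, rfl⟩
    obtain ⟨T, -, -, -, -, -, -, hT⟩ := Pair.exists_inf h𝒟 P Q
    exact ⟨T, hT⟩
  have hopen : ∀ a ∈ Set.range (fun P : Pair Rd 𝒟 Td => P.ker),
      ∃ j, maximalIdeal (MvPowerSeries (Fin Td.d) 𝒪) ^ j ≤ a := by
    rintro _ ⟨P, rfl⟩
    exact P.pow_le_ker
  obtain ⟨a, ⟨P, rfl⟩, hle⟩ := PS.exists_le_sInf_sup_pow hfin
    (Set.range (fun P : Pair Rd 𝒟 Td => P.ker)) (Set.range_nonempty _) hinf hopen n
  exact ⟨P, hle⟩

theorem rR_matCont : MatCont (rR h𝒟 Td) := by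
  intro n
  obtain ⟨P, hP⟩ := exists_pair_ker_le h𝒟 Td n
  obtain ⟨N, hN⟩ := P.exists_pow
  obtain ⟨L, hL, h⟩ := P.rigid.1.cont N
  refine ⟨L, hL, fun σ hσ i j => ?_⟩
  have h1 : (P.r σ - 1) i j = 0 := by
    have := h σ hσ i j
    rwa [hN, Ideal.mem_bot] at this
  have hone : ∀ (B : Type) [CommRing B] (ψ : MvPowerSeries (Fin Td.d) 𝒪 →+* B),
      ψ ((1 : M2 (MvPowerSeries (Fin Td.d) 𝒪)) i j) = (1 : M2 B) i j := by
    intro B _ ψ
    rw [Matrix.one_apply, Matrix.one_apply]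
    split_ifs
    · exact map_one ψ
    · exact map_zero ψ
  have h2 : xi h𝒟 Td σ i j - (1 : M2 (MvPowerSeries (Fin Td.d) 𝒪)) i j ∈ P.ker := by
    rw [Pair.mem_ker, map_sub, xi_spec]
    have := hone P.A (P.φ : MvPowerSeries (Fin Td.d) 𝒪 →+* P.A)
    rw [AlgHom.coe_toRingHom] at this
    rw [this, ← Matrix.sub_apply]
    exact h1
  have h3 := hP h2
  have h4 : Ideal.Quotient.mk (relIdeal Td)
      (xi h𝒟 Td σ i j - (1 : M2 (MvPowerSeries (Fin Td.d) 𝒪)) i j) ∈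
      maximalIdeal (URing Td) ^ n := by
    rw [URing.maximalIdeal_eq, ← Ideal.map_pow]
    obtain ⟨a, ha, b, hb, hab⟩ := Submodule.mem_sup.mp h3
    rw [← hab, map_add, Ideal.Quotient.eq_zero_iff_mem.mpr ha, zero_add]
    exact Ideal.mem_map_of_mem _ hb
  rw [map_sub, hone] at h4
  rw [Matrix.sub_apply]
  exact h4

theorem rR_isRigid : IsRigid Rd (rR h𝒟 Td) := by
  obtain ⟨P₀⟩ := hne.out
  refine ⟨rR_matCont h𝒟 Td, ?_, ?_, ?_, ?_⟩
  · intro g i j c hc
    refine mem_maximalIdeal_of_lift P₀ ?_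
    rw [map_sub, lift_rR_apply, AlgHom.commutes]
    exact P₀.rigid.1.res g i j c hc
  · refine URing.ext_pairs fun P => ?_
    rw [lift_rR_apply, map_zero]
    exact P.rigid.1.c00
  · refine URing.ext_pairs fun P => ?_
    rw [lift_rR_apply, map_one]
    exact P.rigid.1.c10
  · refine URing.ext_pairs fun P => ?_
    rw [lift_rR_apply, AlgHom.commutes]
    exact P.rigid.1.c1

end Rep

section Univ

variable {𝒪 : Type} [CommRing 𝒪] [IsDomain 𝒪] [IsDiscreteValuationRing 𝒪]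
  [IsAdicComplete (maximalIdeal 𝒪) 𝒪] [Finite (ResidueField 𝒪)]
  {ρbar : ResidualGaloisRep (ResidueField 𝒪)}
  {𝒟 : ∀ ⦃A : Type⦄ [CommRing A] [IsLocalRing A] [Algebra 𝒪 A], GaloisRepAdic A → Prop}
  {Rd : RigidData 𝒪 ρbar} (h𝒟 : GaloisRep.IsDeformationCondition 𝒪 𝒟)
  (Td : TangentData Rd 𝒟)

include h𝒟

/-- Two algebra maps out of the universal ring into an algebra with a nilpotent ideal containing
the images of the coordinates are equal as soon as they push the universal lift to the same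
matrix-valued homomorphism. -/
theorem algHom_ext_rR {B : Type} [CommRing B] [Algebra 𝒪 B] (J : Ideal B) (n : ℕ)
    (hJ : J ^ n = ⊥) (ψ ψ' : URing Td →ₐ[𝒪] B)
    (h : mapMat (ψ : URing Td →+* B) (rR h𝒟 Td) = mapMat (ψ' : URing Td →+* B) (rR h𝒟 Td))
    (hJψ : ∀ s, ψ (coord Td (rR h𝒟 Td) s) ∈ J) : ψ = ψ' := by
  have key : ψ.comp (Ideal.Quotient.mkₐ 𝒪 (relIdeal Td)) =
      ψ'.comp (Ideal.Quotient.mkₐ 𝒪 (relIdeal Td)) := by
    refine PS.eval_unique J n hJ _ _ (fun s => ?_) (fun s => ?_)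
    · show ψ (Ideal.Quotient.mk (relIdeal Td) (MvPowerSeries.X s)) ∈ J
      rw [← coord_rR h𝒟 Td s]
      exact hJψ s
    · show ψ (Ideal.Quotient.mk (relIdeal Td) (MvPowerSeries.X s)) =
        ψ' (Ideal.Quotient.mk (relIdeal Td) (MvPowerSeries.X s))
      rw [← coord_rR h𝒟 Td s]
      simp only [coord, map_sub, AlgHom.commutes]
      congr 1
      exact congrArg (fun m : Gal →* M2 B => m (Td.h s) (Td.i s) (Td.j s)) h
  refine AlgHom.ext fun x => ?_
  obtain ⟨f, rfl⟩ := Ideal.Quotient.mk_surjective x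
  exact DFunLike.congr_fun key f

/-- Artinian representability. -/
theorem existsUnique_lift_of_rigidD (B : Type) [CommRing B] [IsLocalRing B] [Algebra 𝒪 B]
    (hB : GaloisRep.IsArtinianTestAlgebra 𝒪 B) (rB : Gal →* M2 B) (hrB : IsRigidD Rd 𝒟 rB) :
    ∃! φ : URing Td →ₐ[𝒪] B, mapMat (φ : URing Td →+* B) (rR h𝒟 Td) = rB := by
  obtain ⟨F, hF⟩ := exists_lift_of_rigidD h𝒟 Td hB rB hrB
  refine ⟨F, hF, fun F' hF' => ?_⟩
  haveI := hB.isArtinian
  obtain ⟨n, hn⟩ := exists_pow_maximalIdeal_eq_bot (A := B)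
  refine algHom_ext_rR h𝒟 Td (maximalIdeal B) n hn F' F (hF'.trans hF.symm) (fun s => ?_)
  have h1 : F' (coord Td (rR h𝒟 Td) s) = coord Td rB s := by
    simp only [coord, map_sub, AlgHom.commutes]
    congr 1
    exact congrArg (fun m : Gal →* M2 B => m (Td.h s) (Td.i s) (Td.j s)) hF'
  rw [h1]
  exact coord_mem_maximalIdeal hrB.1 Td s

variable [hne : Fact (Nonempty (Pair Rd 𝒟 Td))]

/-- The universal lift is of type `𝒟`. -/
theorem rR_isOfType (hcont : MatCont (rR h𝒟 Td)) : 𝒟 (ofMat (rR h𝒟 Td) hcont) := by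
  refine (h𝒟.iff_forall_surjective (A := URing Td) inferInstance URing.residue_surjective
    (ofMat (rR h𝒟 Td) hcont)).mpr ?_
  intro B _ _ _ hB q hq hqs
  haveI := hB.isArtinian
  obtain ⟨n, hn⟩ := exists_pow_maximalIdeal_eq_bot (A := B)
  obtain ⟨P, hP⟩ := exists_pair_ker_le h𝒟 Td n
  -- the composite `S → R → B` kills `P.ker`
  let qS : MvPowerSeries (Fin Td.d) 𝒪 →ₐ[𝒪] B := q.comp (Ideal.Quotient.mkₐ 𝒪 (relIdeal Td))
  have hqS : ∀ f, qS f = q (Ideal.Quotient.mk (relIdeal Td) f) := fun f => rfl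
  have hker : ∀ f ∈ P.ker, qS f = 0 := by
    intro f hf
    obtain ⟨a, ha, b, hb, rfl⟩ := Submodule.mem_sup.mp (hP hf)
    have h1 : qS a = 0 := by
      rw [hqS, Ideal.Quotient.eq_zero_iff_mem.mpr ha, map_zero]
    have h2 : qS b = 0 := by
      have h3 : Ideal.map (qS : MvPowerSeries (Fin Td.d) 𝒪 →+* B)
          (maximalIdeal (MvPowerSeries (Fin Td.d) 𝒪)) ≤ maximalIdeal B := by
        rw [Ideal.map_le_iff_le_comap]
        intro x hx
        exact algHom_mem_maximalIdeal hB.residue_surjective qS hx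
      have h4 := Ideal.mem_map_of_mem (qS : MvPowerSeries (Fin Td.d) 𝒪 →+* B) hb
      rw [Ideal.map_pow] at h4
      have h5 := Ideal.pow_right_mono h3 n h4
      rwa [hn, Ideal.mem_bot] at h5
    rw [map_add, h1, h2, add_zero]
  -- restrict `P.r` to the range of the classifying map
  obtain ⟨iL, hB', rB', hrB', hval⟩ := exists_restrict Rd h𝒟 P.test P.r P.rigid P.φ.range
    (fun g i j => P.exists_entry h𝒟 g i j)
  -- the induced map from the range to `B`
  have hle : RingHom.ker P.φ.rangeRestrict.toRingHom ≤ RingHom.ker qS.toRingHom := by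
    intro f hf
    rw [RingHom.mem_ker] at hf ⊢
    refine hker f ?_
    rw [Pair.mem_ker]
    exact congrArg Subtype.val hf
  let θ : P.φ.range →ₐ[𝒪] B :=
    AlgHom.liftOfSurjective P.φ.rangeRestrict P.φ.rangeRestrict_surjective qS hle
  have hθ : ∀ f, θ (P.φ.rangeRestrict f) = qS f := fun f =>
    AlgHom.liftOfSurjective_apply P.φ.rangeRestrict P.φ.rangeRestrict_surjective qS hle f
  have hθloc : IsLocalHom (θ : P.φ.range →+* B) := algHom_isLocalHom hB.residue_surjective θ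
  have key : mapMat (θ : P.φ.range →+* B) rB' = mapMat (q : URing Td →+* B) (rR h𝒟 Td) := by
    refine MonoidHom.ext fun g => ?_
    ext i j
    have h1 : rB' g i j = P.φ.rangeRestrict (xi h𝒟 Td g i j) := by
      apply Subtype.ext
      have h2 := congrArg (fun m : Gal →* M2 P.A => m g i j) hval
      simp only [mapMat_apply] at h2
      show (rB' g i j : P.A) = P.φ (xi h𝒟 Td g i j)
      rw [xi_spec]
      exact h2
    show θ (rB' g i j) = q (rR h𝒟 Td g i j)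
    rw [h1, hθ, hqS, rR_apply]
  obtain ⟨hrig, hD⟩ := IsRigidD.map Rd h𝒟 hB' hB hrB' θ hθloc
  have hcont' : MatCont (mapMat (q : URing Td →+* B) (rR h𝒟 Td)) := key ▸ hrig.cont
  have hD' : 𝒟 (ofMat (mapMat (q : URing Td →+* B) (rR h𝒟 Td)) hcont') :=
    TA.D_congr key hrig.cont hcont' hD
  have hE := ofMat_baseChangeAlong_isEquiv (q : URing Td →+* B) hq (rR h𝒟 Td) hcont hcont'
  exact h𝒟.of_isEquiv hB (UnivProp.isEquiv_symm hE) hD'

end Univ

section Final

variable {𝒪 : Type} [CommRing 𝒪] [IsDomain 𝒪] [IsDiscreteValuationRing 𝒪]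
  [IsAdicComplete (maximalIdeal 𝒪) 𝒪] [Finite (ResidueField 𝒪)]
  {ρbar : ResidualGaloisRep (ResidueField 𝒪)}
  {𝒟 : ∀ ⦃A : Type⦄ [CommRing A] [IsLocalRing A] [Algebra 𝒪 A], GaloisRepAdic A → Prop}
  {Rd : RigidData 𝒪 ρbar}

/-- The residual representation itself gives a pair over the residue field. -/
theorem nonempty_pair (h𝒟 : GaloisRep.IsDeformationCondition 𝒪 𝒟)
    (hbar : 𝒟 (GaloisRepAdic.ofResidualGaloisRep ρbar)) (Td : TangentData Rd 𝒟) :
    Nonempty (Pair Rd 𝒟 Td) := by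
  have hT : GaloisRep.IsArtinianTestAlgebra 𝒪 (ResidueField 𝒪) := TA.residueField_testAlgebra
  have hrig : IsRigid Rd Rd.rbar := by
    refine ⟨matCont_rbar Rd, ?_, Rd.c00, Rd.c10, ?_⟩
    · intro g i j c hc
      rw [ResidueField.algebraMap_eq, hc, sub_self]
      exact zero_mem _
    · rw [ResidueField.algebraMap_eq]
      exact Rd.μ_spec.symm
  have hD : 𝒟 (ofMat Rd.rbar hrig.cont) :=
    h𝒟.of_isEquiv hT (ofResidual_isEquiv_ofMat Rd) hbar
  exact ⟨Pair.ofRigid hT Rd.rbar ⟨hrig, hD⟩ Td⟩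

/-- Existence of the universal deformation ring, given the normal-form and tangent data. -/
theorem nonempty_deformationRingData_of_data (habs : ρbar.IsAbsolutelyIrreducible)
    (h𝒟 : GaloisRep.IsDeformationCondition 𝒪 𝒟)
    (hbar : 𝒟 (GaloisRepAdic.ofResidualGaloisRep ρbar)) (Td : TangentData Rd 𝒟) :
    Nonempty (GaloisRep.DeformationRingData 𝒪 ρbar 𝒟) := by
  haveI : Fact (Nonempty (Pair Rd 𝒟 Td)) := ⟨nonempty_pair h𝒟 hbar Td⟩
  have hrig : IsRigid Rd (rR h𝒟 Td) := rR_isRigid h𝒟 Td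
  exact ⟨{
    R := URing Td
    residue_surjective := URing.residue_surjective
    absIrr := habs
    ρ := ofMat (rR h𝒟 Td) hrig.cont
    isOfType := rR_isOfType h𝒟 Td hrig.cont
    residual_isEquiv := residual_isEquiv_of_liftsRes Rd (rR h𝒟 Td) hrig.cont hrig.res
    universal := universal_of_artinian h𝒟 Rd (rR h𝒟 Td) hrig
      (existsUnique_lift_of_rigidD h𝒟 Td) }⟩

end Final

end Fermat.Agent.S53

end
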