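import Fermat.Statements.S53

/-!
# S53 (existence of universal deformation rings): shared definitions

Matrix-valued Galois representations, rigid lifts, tangent data.
All declarations live in `Fermat.Agent.S53`.
-/

set_option autoImplicit false

noncomputable section

namespace Fermat.Agent.S53

open IsLocalRing

/-- The absolute Galois group of `ℚ`. -/
abbrev Gal : Type := AlgebraicClosure ℚ ≃ₐ[ℚ] AlgebraicClosure ℚ

/-- Two by two matrices. -/
abbrev M2 (A : Type) : Type := Matrix (Fin 2) (Fin 2) A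

/-- Push a matrix-valued homomorphism forward along a ring homomorphism. -/
def mapMat {A B : Type} [CommRing A] [CommRing B] (φ : A →+* B) (r : Gal →* M2 A) : Gal →* M2 B :=
  (φ.mapMatrix : M2 A →+* M2 B).toMonoidHom.comp r

@[simp] theorem mapMat_apply {A B : Type} [CommRing A] [CommRing B] (φ : A →+* B) (r : Gal →* M2 A)
    (g : Gal) (i j : Fin 2) : mapMat φ r g i j = φ (r g i j) := rfl

/-- Adic continuity of a matrix-valued homomorphism: trivial modulo `𝔪 ^ n` on the subgroup fixing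
a finite extension. -/
def MatCont {A : Type} [CommRing A] [IsLocalRing A] (r : Gal →* M2 A) : Prop :=
  ∀ n : ℕ, ∃ L : IntermediateField ℚ (AlgebraicClosure ℚ), FiniteDimensional ℚ L ∧
    ∀ σ : Gal, (∀ x ∈ L, σ x = x) → ∀ i j, (r σ - 1) i j ∈ maximalIdeal A ^ n

/-- A matrix-valued homomorphism over a field factoring through a finite level. -/
def MatFin {K : Type} [Field K] (r : Gal →* M2 K) : Prop :=
  ∃ L : IntermediateField ℚ (AlgebraicClosure ℚ), FiniteDimensional ℚ L ∧
    ∀ σ : Gal, (∀ x ∈ L, σ x = x) → r σ = 1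

/-- The monoid homomorphism from matrices to endomorphisms of `Fin 2 → A`. -/
def matEnd (A : Type) [CommRing A] : M2 A →* Module.End A (Fin 2 → A) :=
  ((Matrix.toLinAlgEquiv' : M2 A ≃ₐ[A] Module.End A (Fin 2 → A)) : M2 A →* Module.End A (Fin 2 → A))

theorem matEnd_apply (A : Type) [CommRing A] (m : M2 A) (v : Fin 2 → A) :
    matEnd A m v = m.mulVec v := rfl

theorem mem_smul_top_of_forall_mem {A : Type} [CommRing A] (I : Ideal A) (w : Fin 2 → A)
    (hw : ∀ i, w i ∈ I) : w ∈ I • (⊤ : Submodule A (Fin 2 → A)) := by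
  have : w = ∑ i, w i • (Pi.single i (1 : A) : Fin 2 → A) := by
    funext j
    simp [Finset.sum_apply, Pi.single_apply]
  rw [this]
  exact Submodule.sum_mem _ fun i _ => Submodule.smul_mem_smul (hw i) Submodule.mem_top

/-- The `GaloisRepAdic` attached to a continuous matrix-valued homomorphism. -/
def ofMat {A : Type} [CommRing A] [IsLocalRing A] (r : Gal →* M2 A) (hr : MatCont r) :
    GaloisRepAdic A where
  V := Fin 2 → A
  finrank_eq := by simp
  ρ := (matEnd A).comp r
  isAdicContinuous := by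
    intro n
    obtain ⟨L, hL, h⟩ := hr n
    refine ⟨L, hL, fun σ hσ v => ?_⟩
    apply mem_smul_top_of_forall_mem
    intro i
    have h1 : ((matEnd A).comp r) σ v - v = (r σ - 1).mulVec v := by
      rw [MonoidHom.comp_apply, matEnd_apply, Matrix.sub_mulVec, Matrix.one_mulVec]
    rw [h1, Matrix.mulVec, dotProduct]
    exact Ideal.sum_mem _ fun j _ => Ideal.mul_mem_right _ _ (h σ hσ i j)

/-- The `ResidualGaloisRep` attached to a finite-level matrix-valued homomorphism. -/
def ofMatRes {K : Type} [Field K] (r : Gal →* M2 K) (hr : MatFin r) :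
    ResidualGaloisRep K where
  V := Fin 2 → K
  finrank_eq := by simp
  ρ := (matEnd K).comp r
  factorsThroughFiniteLevel := by
    obtain ⟨L, hL, h⟩ := hr
    refine ⟨L, hL, fun σ hσ => ?_⟩
    rw [MonoidHom.comp_apply, h σ hσ, map_one]

section Rigid

variable {𝒪 : Type} [CommRing 𝒪] [IsLocalRing 𝒪]

/-- Normal-form data for an absolutely irreducible residual representation: a matrix form `rbar`
of `ρbar` in which `rbar g0` is a companion matrix, a second element `g1` and a matrix position at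
which the commutator of `rbar g0` and `rbar g1` does not vanish, a lift `μ` of the corresponding
entry of `rbar g1`, and Schur's lemma. -/
structure RigidData (𝒪 : Type) [CommRing 𝒪] [IsLocalRing 𝒪]
    (ρbar : ResidualGaloisRep (ResidueField 𝒪)) where
  rbar : Gal →* M2 (ResidueField 𝒪)
  fin : MatFin rbar
  equiv : ρbar.IsEquiv (ofMatRes rbar fin)
  g0 : Gal
  g1 : Gal
  i0 : Fin 2
  j0 : Fin 2
  μ : 𝒪
  c00 : rbar g0 0 0 = 0
  c10 : rbar g0 1 0 = 1
  comm_ne : (rbar g0 * rbar g1 - rbar g1 * rbar g0) i0 j0 ≠ 0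
  μ_spec : residue 𝒪 μ = rbar g1 i0 j0
  schur : ∀ γ : M2 (ResidueField 𝒪), (∀ g, γ * rbar g = rbar g * γ) →
    ∃ c : ResidueField 𝒪, γ = c • (1 : M2 (ResidueField 𝒪))

variable {ρbar : ResidualGaloisRep (ResidueField 𝒪)}

/-- `r` reduces to `rbar` modulo the maximal ideal (formulated without residue field maps). -/
def LiftsRes (rbar : Gal →* M2 (ResidueField 𝒪)) {A : Type} [CommRing A] [IsLocalRing A]
    [Algebra 𝒪 A] (r : Gal →* M2 A) : Prop :=
  ∀ (g : Gal) (i j : Fin 2) (c : 𝒪), residue 𝒪 c = rbar g i j →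
    r g i j - algebraMap 𝒪 A c ∈ maximalIdeal A

/-- A rigid lift of `rbar`: continuous, reduces to `rbar`, `r g0` has first column `(0, 1)` and
the `(i0, j0)` entry of `r g1` is the fixed scalar `μ`. -/
structure IsRigid (Rd : RigidData 𝒪 ρbar) {A : Type} [CommRing A] [IsLocalRing A] [Algebra 𝒪 A]
    (r : Gal →* M2 A) : Prop where
  cont : MatCont r
  res : LiftsRes Rd.rbar r
  c00 : r Rd.g0 0 0 = 0
  c10 : r Rd.g0 1 0 = 1
  c1 : r Rd.g1 Rd.i0 Rd.j0 = algebraMap 𝒪 A Rd.μ

/-- A rigid lift of type `𝒟`. -/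
def IsRigidD (Rd : RigidData 𝒪 ρbar)
    (𝒟 : ∀ ⦃A : Type⦄ [CommRing A] [IsLocalRing A] [Algebra 𝒪 A], GaloisRepAdic A → Prop)
    {A : Type} [CommRing A] [IsLocalRing A] [Algebra 𝒪 A] (r : Gal →* M2 A) : Prop :=
  ∃ h : IsRigid Rd r, 𝒟 (ofMat r h.cont)

/-- The `𝒪`-algebra structure on the dual numbers used in `GaloisRep.TangentFinite`. -/
@[reducible] def dualAlg (𝒪 : Type) [CommRing 𝒪] [IsLocalRing 𝒪] :
    Algebra 𝒪 (DualNumber (ResidueField 𝒪)) :=
  ((algebraMap (ResidueField 𝒪) (DualNumber (ResidueField 𝒪))).comp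
    (algebraMap 𝒪 (ResidueField 𝒪))).toAlgebra

/-- Tangent data: finitely many (group element, matrix position) pairs separating the rigid
lifts of type `𝒟` over the dual numbers, with lifts `ν s` of the corresponding entries of `rbar`. -/
structure TangentData (Rd : RigidData 𝒪 ρbar)
    (𝒟 : ∀ ⦃A : Type⦄ [CommRing A] [IsLocalRing A] [Algebra 𝒪 A], GaloisRepAdic A → Prop) where
  d : ℕ
  h : Fin d → Gal
  i : Fin d → Fin 2
  j : Fin d → Fin 2
  ν : Fin d → 𝒪
  ν_spec : ∀ s, residue 𝒪 (ν s) = Rd.rbar (h s) (i s) (j s)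
  sep : letI := dualAlg 𝒪
    ∀ r r' : Gal →* M2 (DualNumber (ResidueField 𝒪)), IsRigidD Rd 𝒟 r → IsRigidD Rd 𝒟 r' →
      (∀ s, r (h s) (i s) (j s) = r' (h s) (i s) (j s)) → r = r'

variable {𝒟 : ∀ ⦃A : Type⦄ [CommRing A] [IsLocalRing A] [Algebra 𝒪 A], GaloisRepAdic A → Prop}

/-- The coordinates of a lift: the distinguished entries minus their fixed scalar lifts. -/
def coord {Rd : RigidData 𝒪 ρbar} (Td : TangentData Rd 𝒟) {A : Type} [CommRing A] [Algebra 𝒪 A]
    (r : Gal →* M2 A) (s : Fin Td.d) : A :=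
  r (Td.h s) (Td.i s) (Td.j s) - algebraMap 𝒪 A (Td.ν s)

end Rigid

end Fermat.Agent.S53

end
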