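import Fermat.Agent.S53.Defs

/-!
# S53: proper subalgebras of test algebras are detected by the dual numbers

Let `A` be a local `𝒪`-algebra with nilpotent maximal ideal and residue field `k = 𝒪 / 𝔪`.
If `B` is a proper `𝒪`-subalgebra of `A`, then there are two distinct local `𝒪`-algebra
homomorphisms `A → k[ε]` which agree on `B`.
-/

set_option autoImplicit false
set_option linter.style.haveILetI false

noncomputable section

namespace Fermat.Agent.S53

open IsLocalRing

section ResO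

variable {𝒪 : Type} [CommRing 𝒪] [IsLocalRing 𝒪] {A : Type} [CommRing A] [IsLocalRing A]
  [Algebra 𝒪 A] [IsLocalHom (algebraMap 𝒪 A)]

theorem residueFieldMap_bijective
    (hsurj : Function.Surjective (residue A ∘ algebraMap 𝒪 A)) :
    Function.Bijective (ResidueField.map (algebraMap 𝒪 A)) := by
  refine ⟨(ResidueField.map (algebraMap 𝒪 A)).injective, fun x => ?_⟩
  obtain ⟨c, hc⟩ := hsurj x
  exact ⟨residue 𝒪 c, by rw [ResidueField.map_residue]; exact hc⟩

/-- The residue map of a local `𝒪`-algebra with residue field `k = 𝒪 / 𝔪`, with values in `k`. -/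
def resO (hsurj : Function.Surjective (residue A ∘ algebraMap 𝒪 A)) : A →ₐ[𝒪] ResidueField 𝒪 where
  toRingHom := ((RingEquiv.ofBijective (ResidueField.map (algebraMap 𝒪 A))
    (residueFieldMap_bijective hsurj)).symm : ResidueField A →+* ResidueField 𝒪).comp (residue A)
  commutes' c := by
    show (RingEquiv.ofBijective (ResidueField.map (algebraMap 𝒪 A))
      (residueFieldMap_bijective hsurj)).symm (residue A (algebraMap 𝒪 A c)) = residue 𝒪 c
    rw [RingEquiv.symm_apply_eq]
    show _ = ResidueField.map (algebraMap 𝒪 A) (residue 𝒪 c)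
    rw [ResidueField.map_residue]

theorem resO_algebraMap (hsurj : Function.Surjective (residue A ∘ algebraMap 𝒪 A)) (c : 𝒪) :
    resO hsurj (algebraMap 𝒪 A c) = residue 𝒪 c :=
  (resO hsurj).commutes c

theorem resO_eq_zero_iff (hsurj : Function.Surjective (residue A ∘ algebraMap 𝒪 A)) (a : A) :
    resO hsurj a = 0 ↔ a ∈ maximalIdeal A := by
  show (RingEquiv.ofBijective (ResidueField.map (algebraMap 𝒪 A))
      (residueFieldMap_bijective hsurj)).symm (residue A a) = 0 ↔ _
  rw [map_eq_zero_iff _ (RingEquiv.injective _), residue_eq_zero_iff]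

omit [IsLocalRing 𝒪] [IsLocalHom (algebraMap 𝒪 A)] in
theorem exists_sub_algebraMap_mem (hsurj : Function.Surjective (residue A ∘ algebraMap 𝒪 A))
    (a : A) : ∃ c : 𝒪, a - algebraMap 𝒪 A c ∈ maximalIdeal A := by
  obtain ⟨c, hc⟩ := hsurj (residue A a)
  refine ⟨c, ?_⟩
  rw [← residue_eq_zero_iff, map_sub, sub_eq_zero]
  exact hc.symm

theorem algebraMap_mem_maximalIdeal {c : 𝒪} (hc : c ∈ maximalIdeal 𝒪) :
    algebraMap 𝒪 A c ∈ maximalIdeal A := by
  rw [mem_maximalIdeal, mem_nonunits_iff] at hc ⊢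
  exact fun h => hc (isUnit_of_map_unit (algebraMap 𝒪 A) c h)

theorem resO_eq_residue_of_sub_mem (hsurj : Function.Surjective (residue A ∘ algebraMap 𝒪 A))
    {a : A} {c : 𝒪} (h : a - algebraMap 𝒪 A c ∈ maximalIdeal A) :
    resO hsurj a = residue 𝒪 c := by
  rw [← resO_algebraMap hsurj c, ← sub_eq_zero, ← map_sub, resO_eq_zero_iff]
  exact h

end ResO

section Derivation

variable {𝒪 : Type} [CommRing 𝒪] [IsLocalRing 𝒪] {A : Type} [CommRing A] [IsLocalRing A]
  [Algebra 𝒪 A] [IsLocalHom (algebraMap 𝒪 A)]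

/-- A proper subalgebra of a local `𝒪`-algebra with nilpotent maximal ideal and residue field
`k = 𝒪 / 𝔪` is killed by a nonzero `k`-valued `𝒪`-derivation. -/
theorem exists_derivation (hsurj : Function.Surjective (residue A ∘ algebraMap 𝒪 A))
    (hnil : ∃ N : ℕ, maximalIdeal A ^ N = ⊥) (B : Subalgebra 𝒪 A) (hB : B ≠ ⊤) :
    ∃ δ : A →+ ResidueField 𝒪, (∀ b ∈ B, δ b = 0) ∧
      (∀ a a' : A, δ (a * a') = resO hsurj a * δ a' + resO hsurj a' * δ a) ∧
      ∃ a, δ a ≠ 0 := by
  classical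
  obtain ⟨N, hN⟩ := hnil
  let P : ℕ → Prop := fun n => ∀ a : A, ∃ b ∈ B, a - b ∈ maximalIdeal A ^ n
  have hPN : ¬ P N := by
    intro h
    apply hB
    rw [eq_top_iff]
    intro a _
    obtain ⟨b, hb, hab⟩ := h a
    rw [hN, Ideal.mem_bot, sub_eq_zero] at hab
    rw [hab]
    exact hb
  have hex : ∃ n, ¬ P n := ⟨N, hPN⟩
  have hP1 : P 1 := by
    intro a
    obtain ⟨c, hc⟩ := exists_sub_algebraMap_mem hsurj a
    exact ⟨algebraMap 𝒪 A c, B.algebraMap_mem c, by simpa using hc⟩
  have hj : ∃ j, 1 ≤ j ∧ P j ∧ ¬ P (j + 1) := by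
    have h0 : Nat.find hex ≠ 0 := by
      intro h0
      apply Nat.find_spec hex
      rw [h0]
      intro a
      exact ⟨0, B.zero_mem, by simp⟩
    have h1 : Nat.find hex ≠ 1 := by
      intro h1
      apply Nat.find_spec hex
      rw [h1]
      exact hP1
    refine ⟨Nat.find hex - 1, by omega, ?_, ?_⟩
    · exact not_not.mp (Nat.find_min hex (by omega))
    · have : Nat.find hex - 1 + 1 = Nat.find hex := by omega
      rw [this]
      exact Nat.find_spec hex
  obtain ⟨j, hj1, hPj, hPj1⟩ := hj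
  -- the submodule `U = B + 𝔪 ^ (j + 1)`
  let U : Submodule 𝒪 A :=
    Subalgebra.toSubmodule B ⊔ (maximalIdeal A ^ (j + 1)).restrictScalars 𝒪
  have hBU : ∀ b ∈ B, b ∈ U := fun b hb =>
    Submodule.mem_sup_left (show b ∈ Subalgebra.toSubmodule B from hb)
  have hmU : ∀ z ∈ maximalIdeal A ^ (j + 1), z ∈ U := fun z hz =>
    Submodule.mem_sup_right hz
  have hU : ∃ a₀, a₀ ∉ U := by
    by_contra hcon
    rw [not_exists] at hcon
    apply hPj1
    intro a
    obtain ⟨b, hb, z, hz, hbz⟩ := Submodule.mem_sup.mp (not_not.mp (hcon a))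
    refine ⟨b, hb, ?_⟩
    rw [← hbz, add_sub_cancel_left]
    exact hz
  obtain ⟨a₀, ha₀⟩ := hU
  have hpow : ∀ y ∈ maximalIdeal A, ∀ z ∈ maximalIdeal A ^ j, y * z ∈ maximalIdeal A ^ (j + 1) := by
    intro y hy z hz
    rw [pow_succ']
    exact Ideal.mul_mem_mul hy hz
  have hpow2 : ∀ z ∈ maximalIdeal A ^ j, ∀ z' ∈ maximalIdeal A ^ j,
      z * z' ∈ maximalIdeal A ^ (j + 1) := by
    intro z hz z' hz'
    have h1 : z * z' ∈ maximalIdeal A ^ (j + j) := by
      rw [pow_add]
      exact Ideal.mul_mem_mul hz hz'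
    exact Ideal.pow_le_pow_right (by omega) h1
  have hle : maximalIdeal A ^ j ≤ maximalIdeal A := by
    calc maximalIdeal A ^ j ≤ maximalIdeal A ^ 1 := Ideal.pow_le_pow_right hj1
      _ = maximalIdeal A := pow_one _
  -- `𝔪_𝒪 • A ⊆ U`
  have htors : Module.IsTorsionBySet 𝒪 (A ⧸ U) (maximalIdeal 𝒪 : Set 𝒪) := by
    rintro x ⟨c, hc⟩
    induction x using Submodule.Quotient.induction_on with
    | H a =>
      show c • Submodule.Quotient.mk a = 0
      rw [← Submodule.Quotient.mk_smul, Submodule.Quotient.mk_eq_zero]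
      obtain ⟨b, hb, hab⟩ := hPj a
      have : c • a = c • b + algebraMap 𝒪 A c * (a - b) := by
        rw [Algebra.smul_def, Algebra.smul_def]
        ring
      rw [this]
      exact U.add_mem (hBU _ (B.smul_mem hb c))
        (hmU _ (hpow _ (algebraMap_mem_maximalIdeal hc) _ hab))
  let _inst : Module (ResidueField 𝒪) (A ⧸ U) := Module.IsTorsionBySet.module htors
  have hne : (Submodule.Quotient.mk a₀ : A ⧸ U) ≠ 0 := by
    rw [Ne, Submodule.Quotient.mk_eq_zero]
    exact ha₀
  obtain ⟨f, hf⟩ : ∃ f : Module.Dual (ResidueField 𝒪) (A ⧸ U),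
      f (Submodule.Quotient.mk a₀) ≠ 0 := by
    by_contra hcon
    rw [not_exists] at hcon
    exact hne ((Module.forall_dual_apply_eq_zero_iff (ResidueField 𝒪) _).mp
      fun φ => not_not.mp (hcon φ))
  -- the derivation
  let δ : A →+ ResidueField 𝒪 :=
    { toFun := fun a => f (Submodule.Quotient.mk a)
      map_zero' := by rw [Submodule.Quotient.mk_zero, map_zero]
      map_add' := fun a a' => by rw [Submodule.Quotient.mk_add, map_add] }
  have hδU : ∀ u ∈ U, δ u = 0 := by
    intro u hu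
    show f (Submodule.Quotient.mk u) = 0
    rw [(Submodule.Quotient.mk_eq_zero U).mpr hu, map_zero]
  have hδsmul : ∀ (c : 𝒪) (a : A), δ (algebraMap 𝒪 A c * a) = residue 𝒪 c * δ a := by
    intro c a
    show f (Submodule.Quotient.mk (algebraMap 𝒪 A c * a)) =
      residue 𝒪 c * f (Submodule.Quotient.mk a)
    have h1 : (Submodule.Quotient.mk (algebraMap 𝒪 A c * a) : A ⧸ U) =
        (residue 𝒪 c : ResidueField 𝒪) • (Submodule.Quotient.mk a : A ⧸ U) := by
      rw [← Algebra.smul_def, Submodule.Quotient.mk_smul]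
      rfl
    rw [h1, map_smul, smul_eq_mul]
  -- `δ (b * z) = res b * δ z` for `z ∈ 𝔪 ^ j`
  have hδmul : ∀ (b : A) (z : A), z ∈ maximalIdeal A ^ j → δ (b * z) = resO hsurj b * δ z := by
    intro b z hz
    obtain ⟨c, hc⟩ := exists_sub_algebraMap_mem hsurj b
    have h1 : b * z = algebraMap 𝒪 A c * z + (b - algebraMap 𝒪 A c) * z := by ring
    rw [h1, map_add, hδU _ (hmU _ (hpow _ hc _ hz)), add_zero, hδsmul,
      resO_eq_residue_of_sub_mem hsurj hc]
  refine ⟨δ, fun b hb => hδU b (hBU b hb), ?_, a₀, hf⟩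
  intro a a'
  obtain ⟨b, hb, hab⟩ := hPj a
  obtain ⟨b', hb', hab'⟩ := hPj a'
  have hres : ∀ (x y : A), x - y ∈ maximalIdeal A ^ j → resO hsurj x = resO hsurj y := by
    intro x y hxy
    rw [← sub_eq_zero, ← map_sub, resO_eq_zero_iff]
    exact hle hxy
  have hδeq : ∀ (x y : A), y ∈ B → δ x = δ (x - y) := by
    intro x y hy
    rw [map_sub, hδU y (hBU y hy), sub_zero]
  have h1 : a * a' = b * b' + b * (a' - b') + b' * (a - b) + (a - b) * (a' - b') := by ring
  rw [h1, map_add, map_add, map_add, hδU _ (hBU _ (B.mul_mem hb hb')),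
    hδU _ (hmU _ (hpow2 _ hab _ hab')), hδmul _ _ hab', hδmul _ _ hab, hres a b hab,
    hres a' b' hab', hδeq a' b' hb', hδeq a b hb]
  ring

end Derivation

section DualHoms

variable {𝒪 : Type} [CommRing 𝒪] [IsLocalRing 𝒪] {A : Type} [CommRing A] [IsLocalRing A]
  [Algebra 𝒪 A] [IsLocalHom (algebraMap 𝒪 A)]

/-- The local `𝒪`-algebra homomorphism `a ↦ res a + d a • ε` to the dual numbers attached to a
`k`-valued derivation `d` vanishing on the image of `𝒪`. -/
theorem exists_dualHom (hsurj : Function.Surjective (residue A ∘ algebraMap 𝒪 A))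
    (d : A →+ ResidueField 𝒪)
    (hd : ∀ a a' : A, d (a * a') = resO hsurj a * d a' + resO hsurj a' * d a)
    (hd0 : ∀ c : 𝒪, d (algebraMap 𝒪 A c) = 0) :
    letI := dualAlg 𝒪
    ∃ ψ : A →ₐ[𝒪] DualNumber (ResidueField 𝒪),
      IsLocalHom (ψ : A →+* DualNumber (ResidueField 𝒪)) ∧
      ∀ a, ψ a = TrivSqZeroExt.inl (resO hsurj a) + TrivSqZeroExt.inr (d a) := by
  letI := dualAlg 𝒪
  have hd1 : d 1 = 0 := by simpa using hd0 1
  refine ⟨{ toFun := fun a => TrivSqZeroExt.inl (resO hsurj a) + TrivSqZeroExt.inr (d a)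
            map_one' := by
              rw [hd1, map_one, TrivSqZeroExt.inr_zero, add_zero, TrivSqZeroExt.inl_one]
            map_mul' := fun a a' => by
              apply TrivSqZeroExt.ext
              · simp
              · simp [hd]
                ring
            map_zero' := by simp
            map_add' := fun a a' => by
              rw [map_add, map_add, TrivSqZeroExt.inl_add, TrivSqZeroExt.inr_add]
              abel
            commutes' := fun c => by
              show TrivSqZeroExt.inl (resO hsurj (algebraMap 𝒪 A c)) +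
                TrivSqZeroExt.inr (d (algebraMap 𝒪 A c)) = _
              rw [hd0, resO_algebraMap, TrivSqZeroExt.inr_zero, add_zero]
              rfl }, ?_, fun a => rfl⟩
  constructor
  intro a ha
  have h1 : IsUnit (resO hsurj a) := by
    have h2 := TrivSqZeroExt.isUnit_iff_isUnit_fst.mp ha
    simpa using h2
  by_contra hcon
  exact h1.ne_zero ((resO_eq_zero_iff hsurj a).mpr ((mem_maximalIdeal a).mpr hcon))

/-- **Detection of proper subalgebras by the dual numbers.** Let `A` be a local `𝒪`-algebra with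
nilpotent maximal ideal and residue field `k = 𝒪 / 𝔪`, and `B` a proper `𝒪`-subalgebra. Then
there are two distinct local `𝒪`-algebra homomorphisms `A → k[ε]` which agree on `B`. -/
theorem exists_dualNumber_homs (hsurj : Function.Surjective (residue A ∘ algebraMap 𝒪 A))
    (hnil : ∃ N : ℕ, maximalIdeal A ^ N = ⊥) (B : Subalgebra 𝒪 A) (hB : B ≠ ⊤) :
    letI := dualAlg 𝒪
    ∃ ψ ψ' : A →ₐ[𝒪] DualNumber (ResidueField 𝒪),
      IsLocalHom (ψ : A →+* DualNumber (ResidueField 𝒪)) ∧
      IsLocalHom (ψ' : A →+* DualNumber (ResidueField 𝒪)) ∧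
      (∀ b ∈ B, ψ b = ψ' b) ∧ ψ ≠ ψ' := by
  letI := dualAlg 𝒪
  obtain ⟨δ, hδB, hδ, a₀, ha₀⟩ := exists_derivation hsurj hnil B hB
  obtain ⟨ψ, hψ, hψa⟩ := exists_dualHom hsurj δ hδ (fun c => hδB _ (B.algebraMap_mem c))
  obtain ⟨ψ', hψ', hψ'a⟩ := exists_dualHom hsurj (0 : A →+ ResidueField 𝒪)
    (fun a a' => by simp) (fun c => rfl)
  refine ⟨ψ, ψ', hψ, hψ', fun b hb => ?_, fun h => ha₀ ?_⟩
  · rw [hψa, hψ'a, hδB b hb]
    rfl
  · have h1 := congrArg TrivSqZeroExt.snd (DFunLike.congr_fun h a₀)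
    rw [hψa, hψ'a] at h1
    simpa using h1

/-- Version of `exists_dualNumber_homs` for Artinian test algebras. -/
theorem exists_dualNumber_homs_of_testAlgebra {𝒪 : Type} [CommRing 𝒪] [IsLocalRing 𝒪] {A : Type}
    [CommRing A] [IsLocalRing A] [Algebra 𝒪 A] (hA : GaloisRep.IsArtinianTestAlgebra 𝒪 A)
    (B : Subalgebra 𝒪 A) (hB : B ≠ ⊤) :
    letI := dualAlg 𝒪
    ∃ ψ ψ' : A →ₐ[𝒪] DualNumber (ResidueField 𝒪),
      IsLocalHom (ψ : A →+* DualNumber (ResidueField 𝒪)) ∧
      IsLocalHom (ψ' : A →+* DualNumber (ResidueField 𝒪)) ∧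
      (∀ b ∈ B, ψ b = ψ' b) ∧ ψ ≠ ψ' := by
  haveI := hA.isLocalHom
  haveI := hA.isArtinian
  refine exists_dualNumber_homs hA.residue_surjective ?_ B hB
  obtain ⟨N, hN⟩ := IsArtinianRing.isNilpotent_jacobson_bot (R := A)
  refine ⟨N, ?_⟩
  rwa [IsLocalRing.jacobson_eq_maximalIdeal ⊥ bot_ne_top, Ideal.zero_eq_bot] at hN

end DualHoms

end Fermat.Agent.S53

end
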