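import Fermat.Agent.S53.Uniq
import Fermat.Agent.S53.ResDict

/-!
# S53: the family `K`

* `famK Td`: the set of ideals `a` of `S = 𝒪⟦X_1, …, X_d⟧` such that `S ⧸ a` is a test algebra
  carrying a rigid lift of type `𝒟` whose coordinates are the classes of the variables.
  It is closed under finite intersections, consists of open proper ideals, contains the kernels
  of all classifying maps, and its lifts are compatible.
-/

set_option autoImplicit false

noncomputable section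

namespace Fermat.Agent.S53

open IsLocalRing

namespace TA

/-- Any ring homomorphism from an Artinian local ring to a nontrivial ring reflects units. -/
theorem isLocalHom_of_artinian {A B : Type*} [CommRing A] [IsLocalRing A] [IsArtinianRing A]
    [CommRing B] [Nontrivial B] (f : A →+* B) : IsLocalHom f := by
  constructor
  intro a ha
  by_contra hna
  have hm : a ∈ maximalIdeal A := (mem_maximalIdeal a).mpr hna
  obtain ⟨N, hN⟩ := exists_pow_maximalIdeal_eq_bot A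
  have h0 : a ^ N = 0 := by
    have := Ideal.pow_mem_pow hm N
    rwa [hN, Ideal.mem_bot] at this
  have h1 : IsUnit (f a ^ N) := ha.pow N
  rw [← map_pow, h0, map_zero] at h1
  exact not_isUnit_zero h1

section

variable {𝒪 : Type} [CommRing 𝒪] [IsLocalRing 𝒪] {ρbar : ResidualGaloisRep (ResidueField 𝒪)}
  {Rd : RigidData 𝒪 ρbar}
  {𝒟 : ∀ ⦃A : Type⦄ [CommRing A] [IsLocalRing A] [Algebra 𝒪 A], GaloisRepAdic A → Prop}

/-- The coordinates of a rigid lift lie in the maximal ideal. -/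
theorem coord_mem_maximalIdeal (Td : TangentData Rd 𝒟) {A : Type} [CommRing A] [IsLocalRing A]
    [Algebra 𝒪 A] {r : Gal →* M2 A} (hr : IsRigid Rd r) (s : Fin Td.d) :
    coord Td r s ∈ maximalIdeal A :=
  hr.res _ _ _ _ (Td.ν_spec s)

/-- Descent of a rigid lift of type `𝒟` along an injective algebra homomorphism whose range
contains all its entries. -/
theorem exists_descend [Finite (ResidueField 𝒪)] (h𝒟 : GaloisRep.IsDeformationCondition 𝒪 𝒟)
    {P A : Type} [CommRing P] [Algebra 𝒪 P] [CommRing A] [IsLocalRing A] [Algebra 𝒪 A]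
    (hA : GaloisRep.IsArtinianTestAlgebra 𝒪 A) (ψ : P →ₐ[𝒪] A) (hψ : Function.Injective ψ)
    (r : Gal →* M2 A) (hr : IsRigidD Rd 𝒟 r) (hmem : ∀ g i j, ∃ x : P, ψ x = r g i j) :
    ∃ (_ : IsLocalRing P) (_ : GaloisRep.IsArtinianTestAlgebra 𝒪 P) (rP : Gal →* M2 P),
      IsRigidD Rd 𝒟 rP ∧ mapMat (ψ : P →+* A) rP = r := by
  have hfinA : Finite A := finite_of_testAlgebra hA
  have hfinP : Finite P := Finite.of_injective ψ hψ
  have hinjv : Function.Injective (ψ : P →+* A) := hψ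
  have hval : IsLocalHom (ψ : P →+* A) := isLocalHom_of_injective_of_finite _ hinjv
  have hloc : IsLocalRing P := RingHom.domain_isLocalRing (ψ : P →+* A)
  have htest : GaloisRep.IsArtinianTestAlgebra 𝒪 P := testAlgebra_of_isLocalHom hA ψ
  have hartA : IsArtinianRing A := hA.isArtinian
  obtain ⟨h, hD⟩ := hr
  choose e he using hmem
  have he' : ∀ g i j, (ψ : P →+* A) ((Matrix.of fun i j => e g i j) i j) = r g i j :=
    fun g i j => he g i j
  obtain ⟨rP, hentry⟩ : ∃ rP : Gal →* M2 P, ∀ g i j, (ψ : P →+* A) (rP g i j) = r g i j :=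
    ⟨liftMat (ψ : P →+* A) (ψ : P →+* A) (fun x y hxy _ => hinjv hxy) r r _ he' he', he'⟩
  have hmap : mapMat (ψ : P →+* A) rP = r := by
    ext g i j
    rw [mapMat_apply, hentry]
  obtain ⟨L, hL, hfix⟩ := exists_level h.cont
  have hcontP : MatCont rP := by
    refine matCont_of_level ⟨L, hL, fun σ hσ => ?_⟩
    refine Matrix.ext fun i j => ?_
    apply hinjv
    rw [hentry, hfix σ hσ, Matrix.one_apply, Matrix.one_apply]
    split_ifs <;> simp
  have hrigP : IsRigid Rd rP :=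
    { cont := hcontP
      res := by
        intro g i j c hc
        have h1 := h.res g i j c hc
        rw [mem_maximalIdeal, mem_nonunits_iff] at h1 ⊢
        intro hu
        apply h1
        have h2 := hu.map (ψ : P →+* A)
        rw [map_sub, hentry] at h2
        have h3 : (ψ : P →+* A) (algebraMap 𝒪 P c) = algebraMap 𝒪 A c := ψ.commutes c
        rwa [h3] at h2
      c00 := by
        apply hinjv
        rw [hentry, h.c00, map_zero]
      c10 := by
        apply hinjv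
        rw [hentry, h.c10, map_one]
      c1 := by
        apply hinjv
        rw [hentry, h.c1]
        exact (ψ.commutes _).symm }
  refine ⟨hloc, htest, rP, ⟨hrigP, ?_⟩, hmap⟩
  apply h𝒟.of_baseChangeAlong_injective htest hA ψ hval hinjv
  have hc' : MatCont (mapMat (ψ : P →+* A) rP) := hcontP.map _ hval
  obtain ⟨e'⟩ := ofMat_baseChangeAlong_isEquiv (ψ : P →+* A) hval rP hcontP hc'
  refine h𝒟.of_isEquiv hA ⟨e'.symm⟩ ?_
  exact D_congr hmap.symm h.cont hc' hD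

end

end TA

section Family

variable {𝒪 : Type} [CommRing 𝒪] [IsLocalRing 𝒪] {ρbar : ResidualGaloisRep (ResidueField 𝒪)}
  {Rd : RigidData 𝒪 ρbar}
  {𝒟 : ∀ ⦃A : Type⦄ [CommRing A] [IsLocalRing A] [Algebra 𝒪 A], GaloisRepAdic A → Prop}

/-- The family `K`: ideals `a` of the power series ring in the tangent coordinates such that the
quotient is a test algebra carrying a rigid lift of type `𝒟` whose coordinates are the classes
of the variables. -/
def famK (Td : TangentData Rd 𝒟) : Set (Ideal (MvPowerSeries (Fin Td.d) 𝒪)) :=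
  {a | ∃ (_ : IsLocalRing (MvPowerSeries (Fin Td.d) 𝒪 ⧸ a)),
      GaloisRep.IsArtinianTestAlgebra 𝒪 (MvPowerSeries (Fin Td.d) 𝒪 ⧸ a) ∧
      ∃ r : Gal →* M2 (MvPowerSeries (Fin Td.d) 𝒪 ⧸ a), IsRigidD Rd 𝒟 r ∧
        ∀ s, coord Td r s = Ideal.Quotient.mk a (MvPowerSeries.X s)}

theorem famK_ne_top (Td : TangentData Rd 𝒟) {a : Ideal (MvPowerSeries (Fin Td.d) 𝒪)}
    (ha : a ∈ famK Td) : a ≠ ⊤ := by
  obtain ⟨hloc, -⟩ := ha
  exact Ideal.Quotient.nontrivial_iff.mp inferInstance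

theorem famK_open (Td : TangentData Rd 𝒟) {a : Ideal (MvPowerSeries (Fin Td.d) 𝒪)}
    (ha : a ∈ famK Td) : ∃ N : ℕ, maximalIdeal (MvPowerSeries (Fin Td.d) 𝒪) ^ N ≤ a := by
  have hne := famK_ne_top Td ha
  obtain ⟨hloc, htest, -⟩ := ha
  have hart := htest.isArtinian
  obtain ⟨N, hN⟩ := TA.exists_pow_maximalIdeal_eq_bot (MvPowerSeries (Fin Td.d) 𝒪 ⧸ a)
  have hmk : IsLocalHom (Ideal.Quotient.mk a) := TA.quotient_mk_isLocalHom a hne
  refine ⟨N, fun x hx => ?_⟩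
  have h1 : Ideal.Quotient.mk a x ∈
      (maximalIdeal (MvPowerSeries (Fin Td.d) 𝒪) ^ N).map (Ideal.Quotient.mk a) :=
    Ideal.mem_map_of_mem _ hx
  have h2 : (maximalIdeal (MvPowerSeries (Fin Td.d) 𝒪) ^ N).map (Ideal.Quotient.mk a) ≤
      maximalIdeal (MvPowerSeries (Fin Td.d) 𝒪 ⧸ a) ^ N := by
    rw [Ideal.map_pow]
    apply Ideal.pow_right_mono
    rw [Ideal.map_le_iff_le_comap]
    intro y hy
    exact map_nonunit (Ideal.Quotient.mk a) y hy
  have h3 := h2 h1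
  rw [hN, Ideal.mem_bot] at h3
  exact Ideal.Quotient.eq_zero_iff_mem.mp h3

/-- The kernel of the classifying map of a rigid lift of type `𝒟` over a test algebra lies in
the family `K`. -/
theorem ker_mem_famK [Finite (ResidueField 𝒪)] (h𝒟 : GaloisRep.IsDeformationCondition 𝒪 𝒟)
    (Td : TangentData Rd 𝒟) {A : Type} [CommRing A] [IsLocalRing A] [Algebra 𝒪 A]
    (hA : GaloisRep.IsArtinianTestAlgebra 𝒪 A) (r : Gal →* M2 A) (hr : IsRigidD Rd 𝒟 r)
    (φ : MvPowerSeries (Fin Td.d) 𝒪 →ₐ[𝒪] A)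
    (hφ : ∀ s, φ (MvPowerSeries.X s) = coord Td r s) : RingHom.ker φ ∈ famK Td := by
  have hart := hA.isArtinian
  obtain ⟨N, hN⟩ := TA.exists_pow_maximalIdeal_eq_bot A
  have hrange : φ.range = Algebra.adjoin 𝒪 (Set.range (coord Td r)) := by
    rw [eval_range (maximalIdeal A) N hN φ
      (fun i => by rw [hφ]; exact TA.coord_mem_maximalIdeal Td hr.1 i)]
    congr 1
    ext x
    simp [hφ]
  have hψinj : Function.Injective (Ideal.kerLiftAlg φ) := Ideal.kerLiftAlg_injective φ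
  have hmem : ∀ g i j, ∃ x, Ideal.kerLiftAlg φ x = r g i j := by
    intro g i j
    have h1 := gen h𝒟 Td hA r hr g i j
    rw [← hrange] at h1
    obtain ⟨y, hy⟩ := h1
    exact ⟨Ideal.Quotient.mk _ y, hy⟩
  obtain ⟨hloc, htest, rP, hrP, hmap⟩ :=
    TA.exists_descend h𝒟 hA (Ideal.kerLiftAlg φ) hψinj r hr hmem
  refine ⟨hloc, htest, rP, hrP, fun s => ?_⟩
  apply hψinj
  rw [← coord_mapMat, hmap, Ideal.kerLiftAlg_mk, hφ]

/-- Compatibility: a lift attached to `a ∈ famK` maps to any rigid lift of type `𝒟` over a test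
algebra along an algebra homomorphism matching the coordinates. -/
theorem famK_compat [Finite (ResidueField 𝒪)] (h𝒟 : GaloisRep.IsDeformationCondition 𝒪 𝒟)
    (Td : TangentData Rd 𝒟) {a : Ideal (MvPowerSeries (Fin Td.d) 𝒪)}
    [IsLocalRing (MvPowerSeries (Fin Td.d) 𝒪 ⧸ a)]
    (hta : GaloisRep.IsArtinianTestAlgebra 𝒪 (MvPowerSeries (Fin Td.d) 𝒪 ⧸ a))
    (ra : Gal →* M2 (MvPowerSeries (Fin Td.d) 𝒪 ⧸ a)) (hra : IsRigidD Rd 𝒟 ra)
    (hca : ∀ s, coord Td ra s = Ideal.Quotient.mk a (MvPowerSeries.X s))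
    {A : Type} [CommRing A] [IsLocalRing A] [Algebra 𝒪 A]
    (hA : GaloisRep.IsArtinianTestAlgebra 𝒪 A) (r : Gal →* M2 A) (hr : IsRigidD Rd 𝒟 r)
    (ψ : (MvPowerSeries (Fin Td.d) 𝒪 ⧸ a) →ₐ[𝒪] A)
    (hψ : ∀ s, ψ (Ideal.Quotient.mk a (MvPowerSeries.X s)) = coord Td r s) :
    mapMat (ψ : (MvPowerSeries (Fin Td.d) 𝒪 ⧸ a) →+* A) ra = r := by
  have hart := hta.isArtinian
  have hloc : IsLocalHom (ψ : (MvPowerSeries (Fin Td.d) 𝒪 ⧸ a) →+* A) :=
    TA.isLocalHom_of_artinian _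
  refine rigid_eq_of_coord_eq h𝒟 Td hA _ r (hra.map Rd h𝒟 hta hA ψ hloc) hr fun s => ?_
  rw [coord_mapMat, hca, hψ]

/-- Compatibility inside the family: for `a ≤ b` in `famK`, the lift over `S ⧸ a` maps to the
lift over `S ⧸ b`. -/
theorem famK_factor [Finite (ResidueField 𝒪)] (h𝒟 : GaloisRep.IsDeformationCondition 𝒪 𝒟)
    (Td : TangentData Rd 𝒟) {a b : Ideal (MvPowerSeries (Fin Td.d) 𝒪)} (hab : a ≤ b)
    [IsLocalRing (MvPowerSeries (Fin Td.d) 𝒪 ⧸ a)] [IsLocalRing (MvPowerSeries (Fin Td.d) 𝒪 ⧸ b)]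
    (hta : GaloisRep.IsArtinianTestAlgebra 𝒪 (MvPowerSeries (Fin Td.d) 𝒪 ⧸ a))
    (htb : GaloisRep.IsArtinianTestAlgebra 𝒪 (MvPowerSeries (Fin Td.d) 𝒪 ⧸ b))
    (ra : Gal →* M2 (MvPowerSeries (Fin Td.d) 𝒪 ⧸ a)) (hra : IsRigidD Rd 𝒟 ra)
    (hca : ∀ s, coord Td ra s = Ideal.Quotient.mk a (MvPowerSeries.X s))
    (rb : Gal →* M2 (MvPowerSeries (Fin Td.d) 𝒪 ⧸ b)) (hrb : IsRigidD Rd 𝒟 rb)
    (hcb : ∀ s, coord Td rb s = Ideal.Quotient.mk b (MvPowerSeries.X s)) :
    mapMat (Ideal.Quotient.factor hab) ra = rb := by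
  have h := famK_compat h𝒟 Td hta ra hra hca htb rb hrb (Ideal.Quotient.factorₐ 𝒪 hab)
    (fun s => by rw [hcb]; rfl)
  exact h

/-- The family `K` is closed under finite intersections. -/
theorem famK_inf [Finite (ResidueField 𝒪)] (h𝒟 : GaloisRep.IsDeformationCondition 𝒪 𝒟)
    (Td : TangentData Rd 𝒟) {a b : Ideal (MvPowerSeries (Fin Td.d) 𝒪)}
    (ha : a ∈ famK Td) (hb : b ∈ famK Td) : a ⊓ b ∈ famK Td := by
  obtain ⟨hla, hta, ra, hra, hca⟩ := ha
  obtain ⟨hlb, htb, rb, hrb, hcb⟩ := hb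
  obtain ⟨P, iCR, iLoc, iAlg, hP, pA, pB, rP, hinj, hrP, hmA, hmB⟩ :=
    exists_fibProd Rd h𝒟 hta htb ra rb hra hrb
  have hartP := hP.isArtinian
  have harta := hta.isArtinian
  have hartb := htb.isArtinian
  obtain ⟨N, hN⟩ := TA.exists_pow_maximalIdeal_eq_bot P
  obtain ⟨φ, hφ⟩ := PS.exists_eval (O := 𝒪) (maximalIdeal P) N hN (coord Td rP)
    (fun s => TA.coord_mem_maximalIdeal Td hrP.1 s)
  have hker := ker_mem_famK h𝒟 Td hP rP hrP φ hφ
  have hA1 : pA.comp φ = Ideal.Quotient.mkₐ 𝒪 a := by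
    obtain ⟨Na, hNa⟩ := TA.exists_pow_maximalIdeal_eq_bot (MvPowerSeries (Fin Td.d) 𝒪 ⧸ a)
    apply PS.eval_unique (maximalIdeal (MvPowerSeries (Fin Td.d) 𝒪 ⧸ a)) Na hNa
    · intro s
      rw [AlgHom.comp_apply, hφ, ← coord_mapMat, hmA]
      exact TA.coord_mem_maximalIdeal Td hra.1 s
    · intro s
      rw [AlgHom.comp_apply, hφ, ← coord_mapMat, hmA, hca]
      rfl
  have hB1 : pB.comp φ = Ideal.Quotient.mkₐ 𝒪 b := by
    obtain ⟨Nb, hNb⟩ := TA.exists_pow_maximalIdeal_eq_bot (MvPowerSeries (Fin Td.d) 𝒪 ⧸ b)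
    apply PS.eval_unique (maximalIdeal (MvPowerSeries (Fin Td.d) 𝒪 ⧸ b)) Nb hNb
    · intro s
      rw [AlgHom.comp_apply, hφ, ← coord_mapMat, hmB]
      exact TA.coord_mem_maximalIdeal Td hrb.1 s
    · intro s
      rw [AlgHom.comp_apply, hφ, ← coord_mapMat, hmB, hcb]
      rfl
  have hA2 : ∀ x, pA (φ x) = Ideal.Quotient.mk a x := fun x => by
    rw [← AlgHom.comp_apply, hA1]; rfl
  have hB2 : ∀ x, pB (φ x) = Ideal.Quotient.mk b x := fun x => by
    rw [← AlgHom.comp_apply, hB1]; rfl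
  have heq : RingHom.ker φ = a ⊓ b := by
    ext x
    rw [RingHom.mem_ker, Ideal.mem_inf]
    constructor
    · intro hx
      have h1 := hA2 x
      have h2 := hB2 x
      rw [hx, map_zero] at h1 h2
      exact ⟨Ideal.Quotient.eq_zero_iff_mem.mp h1.symm, Ideal.Quotient.eq_zero_iff_mem.mp h2.symm⟩
    · rintro ⟨h1, h2⟩
      apply hinj
      show (pA (φ x), pB (φ x)) = (pA 0, pB 0)
      rw [hA2, hB2, map_zero, map_zero, Ideal.Quotient.eq_zero_iff_mem.mpr h1,
        Ideal.Quotient.eq_zero_iff_mem.mpr h2]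
  rw [← heq]
  exact hker

/-- The matrix form of the residual representation is a rigid lift of type `𝒟` over the residue
field. -/
theorem rbar_isRigidD (h𝒟 : GaloisRep.IsDeformationCondition 𝒪 𝒟) (Rd : RigidData 𝒪 ρbar)
    (hbar : 𝒟 (GaloisRepAdic.ofResidualGaloisRep ρbar)) : IsRigidD Rd 𝒟 Rd.rbar := by
  refine ⟨⟨matCont_rbar Rd, ?_, Rd.c00, Rd.c10, ?_⟩, ?_⟩
  · intro g i j c hc
    rw [ResidueField.algebraMap_eq, hc, sub_self]
    exact zero_mem _
  · rw [ResidueField.algebraMap_eq]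
    exact Rd.μ_spec.symm
  · exact h𝒟.of_isEquiv TA.residueField_testAlgebra (ofResidual_isEquiv_ofMat Rd) hbar

/-- The family `K` is nonempty. -/
theorem famK_nonempty [Finite (ResidueField 𝒪)] (h𝒟 : GaloisRep.IsDeformationCondition 𝒪 𝒟)
    (Td : TangentData Rd 𝒟) (hbar : 𝒟 (GaloisRepAdic.ofResidualGaloisRep ρbar)) :
    (famK Td).Nonempty := by
  have hrb := rbar_isRigidD h𝒟 Rd hbar
  have hk : GaloisRep.IsArtinianTestAlgebra 𝒪 (ResidueField 𝒪) := TA.residueField_testAlgebra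
  have hart := hk.isArtinian
  obtain ⟨N, hN⟩ := TA.exists_pow_maximalIdeal_eq_bot (ResidueField 𝒪)
  obtain ⟨φ, hφ⟩ := PS.exists_eval (O := 𝒪) (maximalIdeal (ResidueField 𝒪)) N hN
    (coord Td Rd.rbar) (fun s => TA.coord_mem_maximalIdeal Td hrb.1 s)
  exact ⟨_, ker_mem_famK h𝒟 Td hk Rd.rbar hrb φ hφ⟩

end Family

end Fermat.Agent.S53

end
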