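import Fermat.Agent.S53.LimitRep
import Fermat.Agent.S53.MatDict
import Fermat.Agent.S53.TestAlg

/-!
# S53: the limit of a compatible family of lifts of type `𝒟` is of type `𝒟`

Setting of `LimitRep.lean`: `S` local, complete with finite truncations, `K` a nonempty family of
open ideals closed under intersection, `r a : Gal →* M2 (S ⧸ a)` for `a ∈ K` and
`rJ : Gal →* M2 (S ⧸ sInf K)` inducing all `r a`.  If every `S ⧸ a` is a test algebra and every
`ofMat (r a)` is of type `𝒟`, then so is `ofMat rJ` (`D_limit_rep`): every Artinian quotient of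
`S ⧸ sInf K` factors through some `S ⧸ a` by Chevalley's lemma, and one applies
`IsDeformationCondition.iff_forall_surjective`.
-/

set_option autoImplicit false

noncomputable section

namespace Fermat.Agent.S53

open IsLocalRing

section LimitD

variable {𝒪 : Type} [CommRing 𝒪] [IsLocalRing 𝒪]
  {𝒟 : ∀ ⦃A : Type⦄ [CommRing A] [IsLocalRing A] [Algebra 𝒪 A], GaloisRepAdic A → Prop}
  {S : Type} [CommRing S] [IsLocalRing S] [Algebra 𝒪 S]

omit [IsLocalRing 𝒪] in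
/-- Every local `𝒪`-algebra homomorphism from `S ⧸ sInf K` to a test algebra factors through
some `S ⧸ a`, `a ∈ K`. -/
theorem exists_factor_through [IsPrecomplete (maximalIdeal S) S]
    (hfin : ∀ n, Finite (S ⧸ maximalIdeal S ^ n))
    (K : Set (Ideal S)) (hne : K.Nonempty) (hinf : ∀ a ∈ K, ∀ b ∈ K, a ⊓ b ∈ K)
    (hopen : ∀ a ∈ K, ∃ j, maximalIdeal S ^ j ≤ a) [IsLocalRing (S ⧸ sInf K)]
    {B : Type} [CommRing B] [IsLocalRing B] [Algebra 𝒪 B] [IsArtinianRing B]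
    (q : S ⧸ sInf K →ₐ[𝒪] B) (hq : IsLocalHom (q : S ⧸ sInf K →+* B)) :
    ∃ (a : K) (q' : S ⧸ a.1 →ₐ[𝒪] B),
      ∀ x : S ⧸ sInf K, q' (Ideal.Quotient.factor (sInf_le a.2) x) = q x := by
  obtain ⟨N, hN⟩ := TA.exists_pow_maximalIdeal_eq_bot B
  obtain ⟨a, haK, ha⟩ := PS.exists_le_sInf_sup_pow hfin K hne hinf hopen N
  have hkill : ∀ x : S, x ∈ a → (q.comp (Ideal.Quotient.mkₐ 𝒪 (sInf K))) x = 0 := by
    intro x hx
    obtain ⟨u, hu, t, ht, hut⟩ := Submodule.mem_sup.mp (ha hx)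
    have h1 : Ideal.Quotient.mk (sInf K) x = Ideal.Quotient.mk (sInf K) t := by
      rw [Ideal.Quotient.eq, ← hut]
      simpa using hu
    have h2 : Ideal.Quotient.mk (sInf K) t ∈ maximalIdeal (S ⧸ sInf K) ^ N := by
      rw [← IsLocalRing.map_maximalIdeal_of_surjective (Ideal.Quotient.mk (sInf K))
        Ideal.Quotient.mk_surjective, ← Ideal.map_pow]
      exact Ideal.mem_map_of_mem _ ht
    have h3 : (maximalIdeal (S ⧸ sInf K) ^ N).map (q : S ⧸ sInf K →+* B) ≤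
        maximalIdeal B ^ N := by
      rw [Ideal.map_pow]
      refine Ideal.pow_right_mono (Ideal.map_le_iff_le_comap.mpr fun y hy => ?_) N
      exact Ideal.mem_comap.mpr (map_nonunit (q : S ⧸ sInf K →+* B) y hy)
    have h4 : (q : S ⧸ sInf K →+* B) (Ideal.Quotient.mk (sInf K) t) ∈ maximalIdeal B ^ N :=
      h3 (Ideal.mem_map_of_mem _ h2)
    rw [hN, Ideal.mem_bot] at h4
    rw [AlgHom.comp_apply, Ideal.Quotient.mkₐ_eq_mk, h1]
    exact h4
  refine ⟨⟨a, haK⟩, Ideal.Quotient.liftₐ a (q.comp (Ideal.Quotient.mkₐ 𝒪 (sInf K))) hkill, ?_⟩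
  intro x
  obtain ⟨x, rfl⟩ := Ideal.Quotient.mk_surjective x
  rw [Ideal.Quotient.factor_mk]
  rfl

/-- The limit of a compatible family of lifts of type `𝒟` over test algebras is of type `𝒟`. -/
theorem D_limit_rep (h𝒟 : GaloisRep.IsDeformationCondition 𝒪 𝒟)
    [IsPrecomplete (maximalIdeal S) S] (hfin : ∀ n, Finite (S ⧸ maximalIdeal S ^ n))
    (K : Set (Ideal S)) (hne : K.Nonempty) (hinf : ∀ a ∈ K, ∀ b ∈ K, a ⊓ b ∈ K)
    (hopen : ∀ a ∈ K, ∃ j, maximalIdeal S ^ j ≤ a)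
    [IsLocalRing (S ⧸ sInf K)] [IsNoetherianRing (S ⧸ sInf K)]
    [IsAdicComplete (maximalIdeal (S ⧸ sInf K)) (S ⧸ sInf K)]
    (hloc : IsLocalHom (algebraMap 𝒪 (S ⧸ sInf K)))
    (hsurj : Function.Surjective (residue (S ⧸ sInf K) ∘ algebraMap 𝒪 (S ⧸ sInf K)))
    [∀ a : K, IsLocalRing (S ⧸ a.1)]
    (htest : ∀ a : K, GaloisRep.IsArtinianTestAlgebra 𝒪 (S ⧸ a.1))
    (r : ∀ a : K, Gal →* M2 (S ⧸ a.1)) (hr : ∀ a : K, MatCont (r a))
    (hD : ∀ a : K, 𝒟 (ofMat (r a) (hr a)))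
    (rJ : Gal →* M2 (S ⧸ sInf K)) (hcont : MatCont rJ)
    (hrJ : ∀ a : K, mapMat (Ideal.Quotient.factor (sInf_le a.2)) rJ = r a) :
    𝒟 (ofMat rJ hcont) := by
  rw [h𝒟.iff_forall_surjective hloc hsurj]
  intro B _ _ _ hB q hq _
  haveI := hB.isArtinian
  obtain ⟨a, q', hq'⟩ := exists_factor_through hfin K hne hinf hopen q hq
  -- `q'` is local
  have hq'loc : IsLocalHom (q' : S ⧸ a.1 →+* B) := by
    constructor
    intro x hx
    obtain ⟨y, rfl⟩ := Ideal.Quotient.factor_surjective (sInf_le a.2) x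
    have h1 : IsUnit ((q : S ⧸ sInf K →+* B) y) := by
      have := hq' y
      rw [AlgHom.coe_toRingHom] at hx ⊢
      rwa [← this]
    exact (hq.map_nonunit y h1).map _
  have hmap : mapMat (q : S ⧸ sInf K →+* B) rJ = mapMat (q' : S ⧸ a.1 →+* B) (r a) := by
    rw [← hrJ a]
    refine MonoidHom.ext fun g => ?_
    ext i j
    simp only [mapMat_apply, AlgHom.coe_toRingHom]
    exact (hq' _).symm
  have hc1 : MatCont (mapMat (q' : S ⧸ a.1 →+* B) (r a)) := (hr a).map _ hq'loc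
  have hc2 : MatCont (mapMat (q : S ⧸ sInf K →+* B) rJ) := hcont.map _ hq
  have h1 : 𝒟 ((ofMat (r a) (hr a)).baseChangeAlong (q' : S ⧸ a.1 →+* B) hq'loc) :=
    h𝒟.baseChangeAlong (htest a) hB q' hq'loc (hD a)
  have h2 : 𝒟 (ofMat (mapMat (q' : S ⧸ a.1 →+* B) (r a)) hc1) :=
    h𝒟.of_isEquiv hB (ofMat_baseChangeAlong_isEquiv _ hq'loc (r a) (hr a) hc1) h1
  have h3 : 𝒟 (ofMat (mapMat (q : S ⧸ sInf K →+* B) rJ) hc2) := TA.D_congr hmap.symm hc1 hc2 h2
  obtain ⟨e⟩ := ofMat_baseChangeAlong_isEquiv (q : S ⧸ sInf K →+* B) hq rJ hcont hc2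
  exact h𝒟.of_isEquiv hB ⟨e.symm⟩ h3

end LimitD

end Fermat.Agent.S53

end
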