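import Fermat.Agent.S53.Defs
import Fermat.Agent.S53.Compact
import Fermat.Agent.S53.PowerSeries

/-!
# S53: limit of a compatible family of matrix representations

Let `S` be `𝔫`-adically complete with finite truncations and `K` a downward directed family of
open ideals.  A compatible family of matrix-valued homomorphisms `r a : Gal →* M2 (S ⧸ a)`,
`a ∈ K`, glues to a unique homomorphism into `M2 (S ⧸ sInf K)` (`exists_limit_rep`,
`limit_rep_unique`).  If moreover `S` is local, `𝔫` is its maximal ideal and every `r a` is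
continuous, then so is the limit (`matCont_limit_rep`).
-/

set_option autoImplicit false

noncomputable section

namespace Fermat.Agent.S53

open IsLocalRing

section Joint

variable {S : Type} [CommRing S]

/-- Two elements of `S ⧸ sInf K` which agree in every `S ⧸ a`, `a ∈ K`, are equal. -/
theorem eq_of_forall_factor_eq (K : Set (Ideal S)) (x y : S ⧸ sInf K)
    (h : ∀ a : K, Ideal.Quotient.factor (sInf_le a.2) x = Ideal.Quotient.factor (sInf_le a.2) y) :
    x = y := by
  obtain ⟨x, rfl⟩ := Ideal.Quotient.mk_surjective x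
  obtain ⟨y, rfl⟩ := Ideal.Quotient.mk_surjective y
  rw [Ideal.Quotient.eq, Ideal.mem_sInf]
  intro a ha
  have := h ⟨a, ha⟩
  rwa [Ideal.Quotient.factor_mk, Ideal.Quotient.factor_mk, Ideal.Quotient.eq] at this

/-- Two matrices over `S ⧸ sInf K` which agree over every `S ⧸ a`, `a ∈ K`, are equal. -/
theorem matrix_eq_of_forall_factor_eq (K : Set (Ideal S)) (M M' : M2 (S ⧸ sInf K))
    (h : ∀ a : K, (Ideal.Quotient.factor (sInf_le a.2)).mapMatrix M =
      (Ideal.Quotient.factor (sInf_le a.2)).mapMatrix M') : M = M' := by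
  ext i j
  refine eq_of_forall_factor_eq K _ _ fun a => ?_
  have := congrFun (congrFun (h a) i) j
  simpa using this

/-- Uniqueness of the limit of a compatible family. -/
theorem limit_rep_unique (K : Set (Ideal S)) (r r' : Gal →* M2 (S ⧸ sInf K))
    (h : ∀ a : K, mapMat (Ideal.Quotient.factor (sInf_le a.2)) r =
      mapMat (Ideal.Quotient.factor (sInf_le a.2)) r') : r = r' := by
  refine MonoidHom.ext fun g => matrix_eq_of_forall_factor_eq K _ _ fun a => ?_
  exact congrArg (fun ρ : Gal →* M2 (S ⧸ a.1) => ρ g) (h a)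

/-- Existence of the limit of a compatible family of matrix-valued homomorphisms over a
downward directed family of open ideals of a complete ring with finite truncations. -/
theorem exists_limit_rep (𝔫 : Ideal S) [IsAdicComplete 𝔫 S]
    (hfin : ∀ n, Finite (S ⧸ 𝔫 ^ n)) (K : Set (Ideal S))
    (hdir : ∀ a ∈ K, ∀ b ∈ K, ∃ c ∈ K, c ≤ a ∧ c ≤ b)
    (hopen : ∀ a ∈ K, ∃ n, 𝔫 ^ n ≤ a)
    (r : ∀ a : K, Gal →* M2 (S ⧸ a.1))
    (hcompat : ∀ (a b : K) (hab : a.1 ≤ b.1),
      mapMat (Ideal.Quotient.factor hab) (r a) = r b) :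
    ∃ rJ : Gal →* M2 (S ⧸ sInf K),
      ∀ a : K, mapMat (Ideal.Quotient.factor (sInf_le a.2)) rJ = r a := by
  classical
  -- representatives
  have hrep : ∀ (a : K) (g : Gal) (i j : Fin 2), ∃ x : S,
      Ideal.Quotient.mk a.1 x = r a g i j := fun a g i j => Ideal.Quotient.mk_surjective _
  choose x hx using hrep
  have hglue : ∀ (g : Gal) (i j : Fin 2), ∃ y : S, ∀ a : K, y - x a g i j ∈ a.1 := by
    intro g i j
    refine compact_lift 𝔫 hfin (ι := K) ?_ (fun a => a.1) (fun a b hab => hab) ?_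
      (fun a => x a g i j) ?_
    · intro a b
      obtain ⟨c, hc, hca, hcb⟩ := hdir a.1 a.2 b.1 b.2
      exact ⟨⟨c, hc⟩, hca, hcb⟩
    · exact fun a => hopen a.1 a.2
    · intro a b hab
      have h1 := congrArg (fun ρ : Gal →* M2 (S ⧸ b.1) => ρ g i j) (hcompat a b hab)
      simp only [mapMat_apply] at h1
      rw [← hx a g i j, ← hx b g i j, Ideal.Quotient.factor_mk] at h1
      exact Ideal.Quotient.eq.mp h1
  choose y hy using hglue
  have hfac : ∀ (a : K) (g : Gal),
      (Ideal.Quotient.factor (sInf_le a.2)).mapMatrix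
        (Matrix.of fun i j => Ideal.Quotient.mk (sInf K) (y g i j)) = r a g := by
    intro a g
    ext i j
    simp only [RingHom.mapMatrix_apply, Matrix.map_apply, Matrix.of_apply,
      Ideal.Quotient.factor_mk]
    rw [← hx a g i j]
    exact Ideal.Quotient.eq.mpr (hy g i j a)
  refine ⟨{ toFun := fun g => Matrix.of fun i j => Ideal.Quotient.mk (sInf K) (y g i j)
            map_one' := ?_
            map_mul' := ?_ }, ?_⟩
  · refine matrix_eq_of_forall_factor_eq K _ _ fun a => ?_
    rw [hfac, map_one, map_one]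
  · intro g h
    refine matrix_eq_of_forall_factor_eq K _ _ fun a => ?_
    rw [hfac, map_mul, map_mul, hfac, hfac]
  · intro a
    refine MonoidHom.ext fun g => ?_
    exact hfac a g

end Joint

section Local

/-- A continuous matrix-valued homomorphism over a local ring with nilpotent maximal ideal factors
through a finite level. -/
theorem matCont_exists_eq_one {A : Type} [CommRing A] [IsLocalRing A] {r : Gal →* M2 A}
    (hr : MatCont r) (N : ℕ) (hN : maximalIdeal A ^ N = ⊥) :
    ∃ L : IntermediateField ℚ (AlgebraicClosure ℚ), FiniteDimensional ℚ L ∧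
      ∀ σ : Gal, (∀ x ∈ L, σ x = x) → r σ = 1 := by
  obtain ⟨L, hL, h⟩ := hr N
  refine ⟨L, hL, fun σ hσ => ?_⟩
  rw [← sub_eq_zero]
  ext i j
  have := h σ hσ i j
  rwa [hN, Ideal.mem_bot] at this

/-- A continuous matrix-valued homomorphism over an Artinian local ring factors through a finite
level. -/
theorem matCont_exists_eq_one_of_isArtinianRing {A : Type} [CommRing A] [IsLocalRing A]
    [IsArtinianRing A] {r : Gal →* M2 A} (hr : MatCont r) :
    ∃ L : IntermediateField ℚ (AlgebraicClosure ℚ), FiniteDimensional ℚ L ∧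
      ∀ σ : Gal, (∀ x ∈ L, σ x = x) → r σ = 1 := by
  obtain ⟨N, hN⟩ := IsArtinianRing.isNilpotent_jacobson_bot (R := A)
  rw [IsLocalRing.jacobson_eq_maximalIdeal ⊥ bot_ne_top] at hN
  exact matCont_exists_eq_one hr N hN

variable {S : Type} [CommRing S] [IsLocalRing S]

/-- The limit of a compatible family of finite-level matrix-valued homomorphisms is continuous. -/
theorem matCont_limit_rep [IsPrecomplete (maximalIdeal S) S]
    (hfin : ∀ n, Finite (S ⧸ maximalIdeal S ^ n))
    (K : Set (Ideal S)) (hne : K.Nonempty) (hinf : ∀ a ∈ K, ∀ b ∈ K, a ⊓ b ∈ K)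
    (hopen : ∀ a ∈ K, ∃ j, maximalIdeal S ^ j ≤ a) [IsLocalRing (S ⧸ sInf K)]
    (r : ∀ a : K, Gal →* M2 (S ⧸ a.1))
    (hfl : ∀ a : K, ∃ L : IntermediateField ℚ (AlgebraicClosure ℚ), FiniteDimensional ℚ L ∧
      ∀ σ : Gal, (∀ x ∈ L, σ x = x) → r a σ = 1)
    (rJ : Gal →* M2 (S ⧸ sInf K))
    (hrJ : ∀ a : K, mapMat (Ideal.Quotient.factor (sInf_le a.2)) rJ = r a) :
    MatCont rJ := by
  intro n
  obtain ⟨a, haK, ha⟩ := PS.exists_le_sInf_sup_pow hfin K hne hinf hopen n
  obtain ⟨L, hL, h⟩ := hfl ⟨a, haK⟩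
  refine ⟨L, hL, fun σ hσ i j => ?_⟩
  obtain ⟨z, hz⟩ := Ideal.Quotient.mk_surjective ((rJ σ - 1) i j)
  have h1 : Ideal.Quotient.factor (sInf_le haK) ((rJ σ - 1) i j) = 0 := by
    have h2 := congrArg (fun ρ : Gal →* M2 (S ⧸ a) => ρ σ i j) (hrJ ⟨a, haK⟩)
    simp only [mapMat_apply] at h2
    rw [Matrix.sub_apply, map_sub, h2, h σ hσ]
    by_cases hij : i = j
    · subst hij; simp
    · simp [Matrix.one_apply_ne hij]
  rw [← hz, Ideal.Quotient.factor_mk, Ideal.Quotient.eq_zero_iff_mem] at h1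
  obtain ⟨u, hu, t, ht, hut⟩ := Submodule.mem_sup.mp (ha h1)
  have h3 : Ideal.Quotient.mk (sInf K) z = Ideal.Quotient.mk (sInf K) t := by
    rw [Ideal.Quotient.eq, ← hut]
    simpa using hu
  rw [← hz, h3, ← IsLocalRing.map_maximalIdeal_of_surjective (Ideal.Quotient.mk (sInf K))
    Ideal.Quotient.mk_surjective, ← Ideal.map_pow]
  exact Ideal.mem_map_of_mem _ ht

end Local

section Rigid

variable {𝒪 : Type} [CommRing 𝒪] [IsLocalRing 𝒪] {ρbar : ResidualGaloisRep (ResidueField 𝒪)}
  (Rd : RigidData 𝒪 ρbar) {S : Type} [CommRing S] [Algebra 𝒪 S]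

omit [IsLocalRing 𝒪] in
theorem limitRep_factor_algebraMap {I J : Ideal S} (h : I ≤ J) (c : 𝒪) :
    Ideal.Quotient.factor h (algebraMap 𝒪 (S ⧸ I) c) = algebraMap 𝒪 (S ⧸ J) c := by
  rw [← Ideal.Quotient.mk_algebraMap, Ideal.Quotient.factor_mk, Ideal.Quotient.mk_algebraMap]

/-- The limit of a compatible family of rigid lifts is rigid (given its continuity). -/
theorem isRigid_limit_rep (K : Set (Ideal S)) (hne : K.Nonempty)
    [IsLocalRing (S ⧸ sInf K)] [hloc : ∀ a : K, IsLocalRing (S ⧸ a.1)]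
    (r : ∀ a : K, Gal →* M2 (S ⧸ a.1)) (hrig : ∀ a : K, IsRigid Rd (r a))
    (rJ : Gal →* M2 (S ⧸ sInf K)) (hcont : MatCont rJ)
    (hrJ : ∀ a : K, mapMat (Ideal.Quotient.factor (sInf_le a.2)) rJ = r a) :
    IsRigid Rd rJ := by
  have hent : ∀ (a : K) (g : Gal) (i j : Fin 2),
      Ideal.Quotient.factor (sInf_le a.2) (rJ g i j) = r a g i j := by
    intro a g i j
    have h2 := congrArg (fun ρ : Gal →* M2 (S ⧸ a.1) => ρ g i j) (hrJ a)
    simpa only [mapMat_apply] using h2
  refine ⟨hcont, ?_, ?_, ?_, ?_⟩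
  · intro g i j c hc
    obtain ⟨a, ha⟩ := hne
    have h1 := (hrig ⟨a, ha⟩).res g i j c hc
    rw [← hent ⟨a, ha⟩, ← limitRep_factor_algebraMap (sInf_le ha), ← map_sub] at h1
    rw [IsLocalRing.mem_maximalIdeal, mem_nonunits_iff] at h1 ⊢
    exact fun hu => h1 (hu.map _)
  · refine eq_of_forall_factor_eq K _ _ fun a => ?_
    rw [hent, (hrig a).c00, map_zero]
  · refine eq_of_forall_factor_eq K _ _ fun a => ?_
    rw [hent, (hrig a).c10, map_one]
  · refine eq_of_forall_factor_eq K _ _ fun a => ?_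
    rw [hent, (hrig a).c1, limitRep_factor_algebraMap]

end Rigid

end Fermat.Agent.S53

end
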