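import Mathlib
import Fermat.Prelude.Def_GaloisRep_Residual
import Fermat.Agent.S53.Mat2

/-!
Schur's lemma for absolutely irreducible residual representations (S53, part L1/L2):
the commutant consists of scalars.
-/

set_option autoImplicit false

namespace Fermat.Agent.S53.Schur

open scoped TensorProduct

/-- The commutant of an absolutely irreducible residual representation is the scalars. -/
theorem commutant_scalar {k : Type} [Field k] (ρ : ResidualGaloisRep k)
    (h : ρ.IsAbsolutelyIrreducible) (γ : Module.End k ρ.V)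
    (hγ : ∀ σ, γ ∘ₗ ρ.ρ σ = ρ.ρ σ ∘ₗ γ) : ∃ c : k, γ = c • LinearMap.id := by
  classical
  have hnt : Nontrivial (AlgebraicClosure k ⊗[k] ρ.V) := by
    apply Module.nontrivial_of_finrank_pos (R := AlgebraicClosure k)
    rw [Module.finrank_baseChange, ρ.finrank_eq]
    norm_num
  obtain ⟨c, hc⟩ := Module.End.exists_eigenvalue (γ.baseChange (AlgebraicClosure k))
  have hW := h (Module.End.eigenspace (γ.baseChange (AlgebraicClosure k)) c) (by
    intro σ x hx
    rw [Module.End.mem_eigenspace_iff] at hx ⊢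
    show (γ.baseChange (AlgebraicClosure k)) ((ρ.ρ σ).baseChange (AlgebraicClosure k) x) =
      c • (ρ.ρ σ).baseChange (AlgebraicClosure k) x
    have h1 : (γ.baseChange (AlgebraicClosure k)) ((ρ.ρ σ).baseChange (AlgebraicClosure k) x) =
        (ρ.ρ σ).baseChange (AlgebraicClosure k) ((γ.baseChange (AlgebraicClosure k)) x) := by
      rw [← LinearMap.comp_apply, ← LinearMap.baseChange_comp, hγ σ, LinearMap.baseChange_comp]
      rfl
    rw [h1, hx, map_smul])
  rcases hW with hW | hW
  · exact absurd hW hc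
  · have hall : ∀ x : AlgebraicClosure k ⊗[k] ρ.V,
        (γ.baseChange (AlgebraicClosure k)) x = c • x := fun x =>
      Module.End.mem_eigenspace_iff.mp (hW ▸ Submodule.mem_top)
    have key : ∀ i j, algebraMap k (AlgebraicClosure k)
        ((Module.finBasis k ρ.V).repr (γ (Module.finBasis k ρ.V i)) j) =
          if i = j then c else 0 := by
      intro i j
      have h1 := hall (1 ⊗ₜ Module.finBasis k ρ.V i)
      rw [LinearMap.baseChange_tmul] at h1
      have h3 := congrArg
        (fun x => (Algebra.TensorProduct.basis (AlgebraicClosure k) (Module.finBasis k ρ.V)).repr x j) h1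
      simpa [Algebra.TensorProduct.basis_repr_tmul, Finsupp.single_apply] using h3
    have hpos : 0 < Module.finrank k ρ.V := by rw [ρ.finrank_eq]; norm_num
    refine ⟨(Module.finBasis k ρ.V).repr (γ (Module.finBasis k ρ.V ⟨0, hpos⟩)) ⟨0, hpos⟩, ?_⟩
    have hc' := key ⟨0, hpos⟩ ⟨0, hpos⟩
    rw [if_pos rfl] at hc'
    apply (Module.finBasis k ρ.V).ext
    intro i
    apply (Module.finBasis k ρ.V).repr.injective
    ext j
    apply (algebraMap k (AlgebraicClosure k)).injective
    rw [key i j, LinearMap.smul_apply, LinearMap.id_apply, map_smul, Module.Basis.repr_self,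
      Finsupp.smul_apply, Finsupp.single_apply, smul_eq_mul, map_mul, hc']
    split_ifs <;> simp


/-- Some group element acts by a non-scalar endomorphism. -/
theorem exists_nonscalar {k : Type} [Field k] (ρ : ResidualGaloisRep k)
    (h : ρ.IsAbsolutelyIrreducible) :
    ∃ g0 : AlgebraicClosure ℚ ≃ₐ[ℚ] AlgebraicClosure ℚ, ¬ ∃ c : k, ρ.ρ g0 = c • LinearMap.id := by
  by_contra hcon
  push Not at hcon
  have hall : ∀ γ : Module.End k ρ.V, ∃ c : k, γ = c • LinearMap.id := by
    intro γ
    apply commutant_scalar ρ h γ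
    intro σ
    obtain ⟨c, hc⟩ := hcon σ
    rw [hc]
    ext x
    simp
  let b : Module.Basis (Fin 2) k ρ.V := Module.finBasisOfFinrankEq k ρ.V ρ.finrank_eq
  obtain ⟨c, hc⟩ := hall (b.constr k (fun _ => b 1))
  have h1 : b 1 = c • b 0 := by
    have := congrArg (fun f : Module.End k ρ.V => f (b 0)) hc
    simpa using this
  have h2 := congrArg (fun x => b.repr x 1) h1
  simp at h2

/-- The rigid datum: a basis in which some `ρ g0` is in normal form, together with `g1` and a
matrix position at which the commutator of `ρ g0` and `ρ g1` does not vanish. -/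
theorem exists_rigid_datum {k : Type} [Field k] (ρ : ResidualGaloisRep k)
    (h : ρ.IsAbsolutelyIrreducible) :
    ∃ (b : Module.Basis (Fin 2) k ρ.V) (g0 g1 : AlgebraicClosure ℚ ≃ₐ[ℚ] AlgebraicClosure ℚ)
      (i0 j0 : Fin 2),
      Mat2.IsComp (LinearMap.toMatrix b b (ρ.ρ g0)) ∧
      (LinearMap.toMatrix b b (ρ.ρ g0) * LinearMap.toMatrix b b (ρ.ρ g1)
        - LinearMap.toMatrix b b (ρ.ρ g1) * LinearMap.toMatrix b b (ρ.ρ g0)) i0 j0 ≠ 0 := by
  classical
  obtain ⟨g0, hg0⟩ := exists_nonscalar ρ h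
  have hv : ∃ v, LinearIndependent k ![v, ρ.ρ g0 v] := by
    by_contra hcon
    push Not at hcon
    exact hg0 (LinearMap.exists_eq_smul_id_of_forall_notLinearIndependent hcon)
  obtain ⟨v, hv⟩ := hv
  let b : Module.Basis (Fin 2) k ρ.V :=
    basisOfLinearIndependentOfCardEqFinrank hv (by simp [ρ.finrank_eq])
  have hb0 : b 0 = v := by simp [b]
  have hb1 : b 1 = ρ.ρ g0 v := by simp [b]
  have hcomp : Mat2.IsComp (LinearMap.toMatrix b b (ρ.ρ g0)) := by
    constructor
    · rw [LinearMap.toMatrix_apply, hb0, ← hb1, b.repr_self]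
      simp
    · rw [LinearMap.toMatrix_apply, hb0, ← hb1, b.repr_self]
      simp
  have hg1 : ∃ g1, ρ.ρ g0 ∘ₗ ρ.ρ g1 ≠ ρ.ρ g1 ∘ₗ ρ.ρ g0 := by
    by_contra hcon
    push Not at hcon
    exact hg0 (commutant_scalar ρ h (ρ.ρ g0) hcon)
  obtain ⟨g1, hg1⟩ := hg1
  have hne : LinearMap.toMatrix b b (ρ.ρ g0) * LinearMap.toMatrix b b (ρ.ρ g1)
      - LinearMap.toMatrix b b (ρ.ρ g1) * LinearMap.toMatrix b b (ρ.ρ g0) ≠ 0 := by
    rw [← LinearMap.toMatrix_comp, ← LinearMap.toMatrix_comp, ← map_sub, Ne,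
      (LinearMap.toMatrix b b).map_eq_zero_iff, sub_eq_zero]
    exact hg1
  have hex : ∃ i0 j0, (LinearMap.toMatrix b b (ρ.ρ g0) * LinearMap.toMatrix b b (ρ.ρ g1)
      - LinearMap.toMatrix b b (ρ.ρ g1) * LinearMap.toMatrix b b (ρ.ρ g0)) i0 j0 ≠ 0 := by
    by_contra hcon
    push Not at hcon
    exact hne (Matrix.ext hcon)
  obtain ⟨i0, j0, hij⟩ := hex
  exact ⟨b, g0, g1, i0, j0, hcomp, hij⟩

end Fermat.Agent.S53.Schur
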