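import Fermat.Agent.S53.Gen
import Fermat.Agent.S53.FibProd

/-!
# S53: a rigid lift of type `𝒟` over a test algebra is determined by its coordinates (UNIQ)
-/

set_option autoImplicit false

noncomputable section

namespace Fermat.Agent.S53

open IsLocalRing

variable {𝒪 : Type} [CommRing 𝒪] [IsLocalRing 𝒪] {ρbar : ResidualGaloisRep (ResidueField 𝒪)}
  {Rd : RigidData 𝒪 ρbar}
  {𝒟 : ∀ ⦃A : Type⦄ [CommRing A] [IsLocalRing A] [Algebra 𝒪 A], GaloisRepAdic A → Prop}

/-- Coordinates commute with push-forward along `𝒪`-algebra homomorphisms. -/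
theorem coord_mapMat (Td : TangentData Rd 𝒟) {A B : Type} [CommRing A] [Algebra 𝒪 A]
    [CommRing B] [Algebra 𝒪 B] (φ : A →ₐ[𝒪] B) (r : Gal →* M2 A) (s : Fin Td.d) :
    coord Td (mapMat (φ : A →+* B) r) s = φ (coord Td r s) := by
  show φ (r (Td.h s) (Td.i s) (Td.j s)) - algebraMap 𝒪 B (Td.ν s) =
    φ (r (Td.h s) (Td.i s) (Td.j s) - algebraMap 𝒪 A (Td.ν s))
  rw [map_sub, AlgHom.commutes]

/-- **UNIQ.** Two rigid lifts of type `𝒟` over an Artinian test algebra with the same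
coordinates are equal. -/
theorem rigid_eq_of_coord_eq [Finite (ResidueField 𝒪)] (h𝒟 : GaloisRep.IsDeformationCondition 𝒪 𝒟)
    (Td : TangentData Rd 𝒟) {A : Type} [CommRing A] [IsLocalRing A] [Algebra 𝒪 A]
    (hA : GaloisRep.IsArtinianTestAlgebra 𝒪 A) (r r' : Gal →* M2 A) (hr : IsRigidD Rd 𝒟 r)
    (hr' : IsRigidD Rd 𝒟 r') (h : ∀ s, coord Td r s = coord Td r' s) : r = r' := by
  obtain ⟨P, _, _, _, hP, pA, pB, rP, -, hrP, hmA, hmB⟩ :=
    exists_fibProd Rd h𝒟 hA hA r r' hr hr'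
  have hE : Algebra.adjoin 𝒪 (Set.range (coord Td rP)) ≤ AlgHom.equalizer pA pB := by
    rw [Algebra.adjoin_le_iff]
    rintro _ ⟨s, rfl⟩
    show pA (coord Td rP s) = pB (coord Td rP s)
    rw [← coord_mapMat, ← coord_mapMat, hmA, hmB, h s]
  have key : ∀ g i j, pA (rP g i j) = pB (rP g i j) := fun g i j =>
    hE (gen h𝒟 Td hP rP hrP g i j)
  have e1 : ∀ g i j, r g i j = pA (rP g i j) := fun g i j => by
    rw [← hmA]
    rfl
  have e2 : ∀ g i j, r' g i j = pB (rP g i j) := fun g i j => by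
    rw [← hmB]
    rfl
  ext g i j
  rw [e1, e2, key]

end Fermat.Agent.S53

end
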